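import Mathlib
import Fermat.Prelude.Def_FLTPrelim_Ramification
import Fermat.Agent.Lib.FrobeniusExists

set_option autoImplicit false

/-!
# (C5) Global step: a normal open subgroup of `Gal(ℚ̄/ℚ)` containing all inertia groups is everything
-/

open scoped Pointwise

namespace Fermat.Agent.S13Aux

section lifting

variable {B : Type*} [CommRing B] {G : Type*} [Group G] [MulSemiringAction G B]
  [TopologicalSpace G] [CompactSpace G] [TotallyDisconnectedSpace G] [IsTopologicalGroup G]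
  [TopologicalSpace B] [DiscreteTopology B] [ContinuousSMul G B]

/-- Lifting of inertia elements along a closed normal subgroup. -/
theorem exists_mul_mem_inertia (N : Subgroup G) [N.Normal] (hN : IsClosed (N : Set G))
    (Q : Ideal B) [Q.IsPrime] (g : G)
    (hg : ∀ x : B, (∀ n ∈ N, n • x = x) → g • x - x ∈ Q) :
    ∃ n ∈ N, ∀ b : B, (n * g) • b - b ∈ Q := by
  have : CompactSpace N := isCompact_iff_compactSpace.mp hN.isCompact
  let B' := FixedPoints.subalgebra ℤ B N
  have : Algebra.IsInvariant B' B N := ⟨fun b hb => ⟨⟨b, hb⟩, rfl⟩⟩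
  have hfix : ∀ x : B', ∀ n ∈ N, n • (x : B) = x := fun x n hn => x.2 ⟨n, hn⟩
  -- `B'` is stable under `G`
  have hstab : ∀ (γ : G) (x : B), (∀ n ∈ N, n • x = x) → ∀ n ∈ N, n • (γ • x) = γ • x := by
    intro γ x hx n hn
    have h1 : γ⁻¹ * n * γ ∈ N := by
      have := (inferInstance : N.Normal).conj_mem n hn γ⁻¹
      simpa using this
    have h2 := hx _ h1
    calc n • γ • x = γ • ((γ⁻¹ * n * γ) • x) := by simp [mul_smul]
      _ = γ • x := by rw [h2]
  -- step 1: `g • Q` and `Q` have the same contraction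
  have hunder : (g • Q).under B' = Q.under B' := by
    ext x
    simp only [Ideal.under_def, Ideal.mem_comap]
    show (x : B) ∈ g • Q ↔ (x : B) ∈ Q
    rw [Ideal.mem_pointwise_smul_iff_inv_smul_mem]
    have h1 := hg (g⁻¹ • (x : B)) (hstab g⁻¹ x (hfix x))
    rw [smul_inv_smul] at h1
    constructor
    · intro h
      have := Q.add_mem h1 h
      simpa using this
    · intro h
      have := Q.sub_mem h h1
      simpa using this
  obtain ⟨n₁, hn₁⟩ := Algebra.IsInvariant.exists_smul_of_under_eq_of_profinite (A := B') (G := N)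
    (g • Q) Q hunder
  set g₁ : G := (n₁ : G) * g with hg₁
  have hg₁Q : g₁ • Q = Q := by
    rw [hg₁, mul_smul]; exact hn₁.symm
  have hg₁' : ∀ x : B', g₁ • (x : B) - x ∈ Q := by
    intro x
    rw [hg₁, mul_smul, hstab g x (hfix x) n₁ n₁.2]
    exact hg x (hfix x)
  -- step 2: the induced automorphism of `B ⧸ Q`
  let P := Q.under B'
  have : Q.LiesOver P := ⟨rfl⟩
  let φ₀ : (B ⧸ Q) ≃+* (B ⧸ Q) :=
    Ideal.quotientEquiv Q Q (MulSemiringAction.toRingEquiv G B g₁) hg₁Q.symm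
  have hφ₀ : ∀ b : B, φ₀ (Ideal.Quotient.mk Q b) = Ideal.Quotient.mk Q (g₁ • b) := fun b => rfl
  let φ : (B ⧸ Q) ≃ₐ[B' ⧸ P] (B ⧸ Q) := AlgEquiv.ofRingEquiv (f := φ₀) (by
    intro a
    obtain ⟨x, rfl⟩ := Ideal.Quotient.mk_surjective a
    have h1 : algebraMap (B' ⧸ P) (B ⧸ Q) (Ideal.Quotient.mk P x) = Ideal.Quotient.mk Q (x : B) := rfl
    rw [h1, hφ₀, Ideal.Quotient.eq]
    exact hg₁' x)
  obtain ⟨⟨n₂, hn₂⟩, hn₂φ⟩ := Ideal.Quotient.stabilizerHom_surjective_of_profinite (G := N) P Q φ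
  refine ⟨(n₂⁻¹ : N) * n₁, N.mul_mem (n₂⁻¹).2 n₁.2, fun b => ?_⟩
  have h2 : ∀ b : B, Ideal.Quotient.mk Q ((n₂ : G) • b) = Ideal.Quotient.mk Q (g₁ • b) := by
    intro b
    have := congrArg (fun e => e (Ideal.Quotient.mk Q b)) hn₂φ
    simp only [Ideal.Quotient.stabilizerHom_apply] at this
    exact this
  have hn₂Q : (n₂ : G)⁻¹ • Q = Q := by
    have h : (n₂ : G) • Q = Q := hn₂
    conv_lhs => rw [← h]
    rw [inv_smul_smul]
  have h3 : g₁ • b - (n₂ : G) • b ∈ Q := Ideal.Quotient.eq.mp (h2 b).symm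
  have h4 : (n₂ : G)⁻¹ • (g₁ • b - (n₂ : G) • b) ∈ (n₂ : G)⁻¹ • Q :=
    Ideal.smul_mem_pointwise_smul _ _ _ h3
  rw [hn₂Q, smul_sub, inv_smul_smul] at h4
  have h5 : ((n₂⁻¹ : N) : G) * (n₁ : G) * g = (n₂ : G)⁻¹ * g₁ := by
    rw [hg₁]; simp [mul_assoc]
  rw [h5, mul_smul]
  exact h4

end lifting

open scoped NumberField in
/-- Minkowski + Hilbert theory: a nontrivial Galois number field has a prime `p` such that every
prime above `p` has a nontrivial inertia element. -/
theorem exists_inertia_ne_one (K : Type*) [Field K] [NumberField K] [IsGalois ℚ K]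
    (h : 1 < Module.finrank ℚ K) :
    ∃ p : ℕ, p.Prime ∧ ∀ (P : Ideal (𝓞 K)) (_ : P.IsPrime), (p : 𝓞 K) ∈ P →
      ∃ σ : K ≃ₐ[ℚ] K, σ ≠ 1 ∧ ∀ x : 𝓞 K, ∃ y ∈ P, (y : K) = σ x - x := by
  obtain ⟨p, hp, hram⟩ := NumberField.exists_not_isUnramifiedAt_int_of_isGalois (K := K)
    (𝒪 := 𝓞 K) h
  refine ⟨p, hp, fun P hP hpP => ?_⟩
  have hr := hram P hP hpP
  let _ : MulSemiringAction Gal(K/ℚ) (𝓞 K) := IsIntegralClosure.MulSemiringAction ℤ ℚ K (𝓞 K)
  have := IsGaloisGroup.of_isFractionRing Gal(K/ℚ) ℤ (𝓞 K) ℚ K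
  have hcard := Ideal.card_inertia_eq_ramificationIdxIn (G := Gal(K/ℚ)) (P.under ℤ) P
  rw [Ideal.ramificationIdxIn_eq_ramificationIdx (P.under ℤ) P Gal(K/ℚ)] at hcard
  rw [← Ideal.ramificationIdx_eq_one_iff, ← hcard] at hr
  have hne : P.inertia Gal(K/ℚ) ≠ ⊥ := by
    intro h0
    apply hr
    rw [h0]
    simp
  obtain ⟨⟨σ, hσ⟩, hσ1'⟩ := Subgroup.ne_bot_iff_exists_ne_one.mp hne
  have hσ1 : σ ≠ 1 := fun h => hσ1' (Subtype.ext h)
  refine ⟨σ, hσ1, fun x => ⟨σ • x - x, hσ x, ?_⟩⟩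
  have : ((σ • x : 𝓞 K) : K) = σ x := algebraMap_galRestrict_apply ℤ σ x
  rw [← this]
  simp

section Galois

open Fermat.Agent.FrobExists

variable {L : Type*} [Field L] [Algebra ℚ L] [IsAlgClosure ℚ L]

local notation "Qbar" => L
local notation "Γℚ" => (L ≃ₐ[ℚ] L)
local notation "Zbar" => integralClosure ℤ L

attribute [local instance] charZero_of_algebraRat isAlgebraicRat isAlgebraicInt galAction
  smulCommClass_Zbar isInvariant_Zbar

/-- ideal-theoretic inertia elements are inertia elements of the valuation subring -/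
theorem mem_inertiaSubgroupIn (Q : Ideal Zbar) [Q.IsPrime] (σ : Γℚ)
    (h : ∀ b : Zbar, σ • b - b ∈ Q) : σ ∈ (valuationSubringAt Q).inertiaSubgroupIn ℚ := by
  have hσQ : σ • Q = Q := by
    ext b
    rw [Ideal.mem_pointwise_smul_iff_inv_smul_mem]
    have h1 := h (σ⁻¹ • b)
    rw [smul_inv_smul] at h1
    constructor
    · intro h2
      have := Q.add_mem h1 h2
      simpa using this
    · intro h2
      have := Q.sub_mem h2 h1
      simpa using this
  set A := valuationSubringAt Q with hA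
  have hσinv : σ⁻¹ • Q = Q := by
    conv_lhs => rw [← hσQ]
    rw [inv_smul_smul]
  have hσA : σ ∈ A.decompositionSubgroup ℚ := by
    rw [MulAction.mem_stabilizer_iff]
    ext x
    rw [ValuationSubring.mem_pointwise_smul_iff_inv_smul_mem]
    constructor
    · intro hx
      have := smul_mem_valuationSubringAt Q σ hσQ hx
      simpa using this
    · intro hx
      exact smul_mem_valuationSubringAt Q σ⁻¹ hσinv hx
  refine ⟨⟨σ, hσA⟩, ?_, rfl⟩
  let ι : Zbar → A := fun b => ⟨(b : Qbar), coe_mem_valuationSubringAt Q b⟩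
  have hres0 : ∀ b : Zbar, b ∈ Q → IsLocalRing.residue A (ι b) = 0 := by
    intro b hb
    rw [IsLocalRing.residue_eq_zero_iff]
    obtain ⟨h1, h2⟩ := (ValuationSubring.mem_nonunits_iff_exists_mem_maximalIdeal).mp
      (coe_mem_nonunits_valuationSubringAt Q hb)
    exact h2
  have hresne : ∀ b : Zbar, b ∉ Q → IsLocalRing.residue A (ι b) ≠ 0 := by
    intro b hb h0
    rw [IsLocalRing.residue_eq_zero_iff, IsLocalRing.mem_maximalIdeal, mem_nonunits_iff] at h0
    apply h0
    have hb0 : (b : Qbar) ≠ 0 := by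
      intro h
      apply hb
      have : b = 0 := Subtype.ext h
      rw [this]; exact Q.zero_mem
    refine IsUnit.of_mul_eq_one (⟨(b : Qbar)⁻¹, ⟨b, 1, hb, by simp [hb0]⟩⟩ : A) ?_
    apply Subtype.ext
    show (b : Qbar) * (b : Qbar)⁻¹ = 1
    exact mul_inv_cancel₀ hb0
  have hF : ∀ b : Zbar, (⟨σ, hσA⟩ : A.decompositionSubgroup ℚ) • IsLocalRing.residue A (ι b) =
      IsLocalRing.residue A (ι b) := by
    intro b
    rw [← IsLocalRing.ResidueField.residue_smul, ← sub_eq_zero, ← map_sub]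
    exact hres0 _ (h b)
  show (⟨σ, hσA⟩ : A.decompositionSubgroup ℚ) ∈ A.inertiaSubgroup ℚ
  rw [ValuationSubring.inertiaSubgroup, MonoidHom.mem_ker]
  ext x
  show (⟨σ, hσA⟩ : A.decompositionSubgroup ℚ) • x = x
  obtain ⟨⟨z, b, c, hb, h⟩, rfl⟩ := IsLocalRing.residue_surjective x
  set a : A := ⟨z, b, c, hb, h⟩ with ha
  have hmul : ι b * a = ι c := Subtype.ext h
  have h1 := hF c
  rw [← hmul, map_mul, smul_mul', hF b] at h1
  exact mul_left_cancel₀ (hresne b hb) h1

/-- primes of `Zbar` above a rational prime -/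
theorem exists_prime_Zbar (ℓ : ℕ) (hℓ : ℓ.Prime) :
    ∃ Q : Ideal Zbar, Q.IsMaximal ∧ (ℓ : Zbar) ∈ Q := by
  obtain ⟨Q, -, hQ, hℓQ, -⟩ := exists_frobenius_Zbar (L := L) ℓ hℓ
  exact ⟨Q, hQ, hℓQ⟩

open NumberField in
/-- (G1), generic form -/
theorem eq_top_of_inertia_le_aux (H : Subgroup Γℚ) [H.Normal] (hopen : IsOpen (H : Set Γℚ))
    (hI : ∀ ℓ : ℕ, ℓ.Prime → ∀ A : ValuationSubring Qbar, A.LiesOverPrime ℓ →
      A.inertiaSubgroupIn ℚ ≤ H) : H = ⊤ := by
  by_contra hne
  have hclosed : IsClosed (H : Set Γℚ) := H.isClosed_of_isOpen hopen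
  set F : IntermediateField ℚ Qbar := IntermediateField.fixedField H with hF
  have hHF : F.fixingSubgroup = H :=
    InfiniteGalois.fixingSubgroup_fixedField ⟨H, hclosed⟩
  have hfd : FiniteDimensional ℚ F := by
    rw [← InfiniteGalois.isOpen_iff_finite, hHF]
    exact hopen
  have halg : (DivisionRing.toRatAlgebra : Algebra ℚ F) = F.algebra' := Subsingleton.elim _ _
  have hgal0 : @IsGalois ℚ _ F _ F.algebra' :=
    (InfiniteGalois.normal_iff_isGalois F).mp (by rw [hHF]; infer_instance)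
  have hgal : @IsGalois ℚ _ F _ DivisionRing.toRatAlgebra := halg.symm ▸ hgal0
  have hfd0 : @FiniteDimensional ℚ F _ _ (@Algebra.toModule ℚ F _ _ F.algebra') := hfd
  have hnf : NumberField F :=
    { to_charZero := inferInstance, to_finiteDimensional := halg.symm ▸ hfd0 }
  have hrank0 : 1 < @Module.finrank ℚ F _ _ (@Algebra.toModule ℚ F _ _ F.algebra') := by
    have h0 : 0 < @Module.finrank ℚ F _ _ (@Algebra.toModule ℚ F _ _ F.algebra') :=
      Module.finrank_pos
    have h1 : @Module.finrank ℚ F _ _ (@Algebra.toModule ℚ F _ _ F.algebra') ≠ 1 := by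
      intro h
      rw [IntermediateField.finrank_eq_one_iff] at h
      apply hne
      rw [← hHF, h, IntermediateField.fixingSubgroup_bot]
    omega
  have hrank' : 1 < @Module.finrank ℚ F _ _
      (@Algebra.toModule ℚ F _ _ DivisionRing.toRatAlgebra) := halg.symm ▸ hrank0
  obtain ⟨p, hp, hX⟩ := exists_inertia_ne_one F hrank'
  obtain ⟨Q, hQmax, hpQ⟩ := exists_prime_Zbar (L := L) p hp
  have hQprime : Q.IsPrime := hQmax.isPrime
  -- the inclusion of the ring of integers of `F`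
  let f : 𝓞 F →+* Qbar := (algebraMap F Qbar).comp (algebraMap (𝓞 F) F)
  have hf : ∀ x, f.toIntAlgHom x ∈ integralClosure ℤ Qbar := fun x =>
    map_isIntegral_int f (NumberField.RingOfIntegers.isIntegral x)
  let ι : 𝓞 F →+* Zbar := (f.toIntAlgHom.codRestrict (integralClosure ℤ Qbar) hf).toRingHom
  have hι : ∀ x : 𝓞 F, ((ι x : Zbar) : Qbar) = ((x : F) : Qbar) := fun x => rfl
  obtain ⟨σ, hσ1, hσ⟩ := hX (Q.comap ι) (Ideal.comap_isPrime ι Q) (by
    rw [Ideal.mem_comap, map_natCast]; exact hpQ)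
  -- the same automorphism for the other algebra structure
  let σ' : F ≃ₐ[ℚ] F := AlgEquiv.ofRingEquiv (f := σ.toRingEquiv) (fun r => by
    rw [eq_ratCast]; exact map_ratCast σ r)
  have hσ' : ∀ x : F, σ' x = σ x := fun x => rfl
  have hnormal : Normal ℚ F := hgal.to_normal
  obtain ⟨g, hg⟩ := AlgEquiv.restrictNormalHom_surjective (F := ℚ) (K₁ := F) Qbar σ'
  have hgx : ∀ x : F, g (x : Qbar) = ((σ x : F) : Qbar) := by
    intro x
    rw [← hσ', ← hg]
    exact (AlgEquiv.restrictNormal_commutes g F x).symm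
  -- topology
  let _ : TopologicalSpace Zbar := ⊥
  have : DiscreteTopology Zbar := ⟨rfl⟩
  have : ContinuousSMul Γℚ Zbar := by
    rw [continuousSMul_iff_stabilizer_isOpen]
    intro b
    have h := stabilizer_isOpen_of_isIntegral (K := ℚ) (L := Qbar) (b : Qbar)
    convert h using 1
    ext g
    simp only [SetLike.mem_coe, MulAction.mem_stabilizer_iff]
    exact ⟨fun h => congrArg Subtype.val h, fun h => Subtype.ext h⟩
  obtain ⟨n, hn, hng⟩ := exists_mul_mem_inertia H hclosed Q g (by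
    intro b hb
    have hbF : (b : Qbar) ∈ F := by
      rw [hF, IntermediateField.mem_fixedField_iff]
      intro n hn
      exact congrArg Subtype.val (hb n hn)
    have hint : IsIntegral ℤ (⟨(b : Qbar), hbF⟩ : F) :=
      (isIntegral_algebraMap_iff (algebraMap F Qbar).injective).mp b.2
    obtain ⟨y, hy, hyx⟩ := hσ ⟨⟨(b : Qbar), hbF⟩, hint⟩
    have h1 : ι y = g • b - b := by
      apply Subtype.ext
      rw [hι, hyx]
      have h2 := hgx ⟨(b : Qbar), hbF⟩
      push_cast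
      rw [coe_galAction_smul]
      exact congrArg (· - (b : Qbar)) h2.symm
    rw [← h1]
    exact hy)
  have hmem := hI p hp (valuationSubringAt Q) (by
    have := coe_mem_nonunits_valuationSubringAt Q hpQ
    simpa [ValuationSubring.LiesOverPrime] using this) (mem_inertiaSubgroupIn Q (n * g) hng)
  have hgH : g ∈ H := (H.mul_mem_cancel_left hn).mp hmem
  apply hσ1
  refine AlgEquiv.ext fun x => ?_
  have h1 := hgx x
  have h2 : g (x : Qbar) = x := (IntermediateField.mem_fixedField_iff H (x : Qbar)).mp x.2 g hgH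
  rw [h2] at h1
  exact (Subtype.ext h1).symm

end Galois

section final

local notation "Qb" => AlgebraicClosure ℚ
local notation "Γ" => (AlgebraicClosure ℚ ≃ₐ[ℚ] AlgebraicClosure ℚ)

/-- (G1) A normal open subgroup of `Gal(ℚ̄/ℚ)` containing all inertia groups is everything. -/
theorem eq_top_of_isOpen_of_inertia_le (H : Subgroup Γ) [H.Normal] (hopen : IsOpen (H : Set Γ))
    (hI : ∀ ℓ : ℕ, ℓ.Prime → ∀ A : ValuationSubring Qb, A.LiesOverPrime ℓ →
      A.inertiaSubgroupIn ℚ ≤ H) : H = ⊤ := by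
  have : Algebra.IsAlgebraic ℚ Qb := AlgebraicClosure.isAlgebraic ℚ
  have : IsAlgClosure ℚ Qb := ⟨inferInstance, inferInstance⟩
  exact eq_top_of_inertia_le_aux H hopen hI

/-- (G1) with a finite extension `L₀` whose fixing subgroup is contained in `H`. -/
theorem eq_top_of_fixingSubgroup_le (H : Subgroup Γ) [H.Normal] (L₀ : IntermediateField ℚ Qb)
    [FiniteDimensional ℚ L₀] (hL : L₀.fixingSubgroup ≤ H)
    (hI : ∀ ℓ : ℕ, ℓ.Prime → ∀ A : ValuationSubring Qb, A.LiesOverPrime ℓ →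
      A.inertiaSubgroupIn ℚ ≤ H) : H = ⊤ :=
  eq_top_of_isOpen_of_inertia_le H
    (Subgroup.isOpen_mono hL (IntermediateField.fixingSubgroup_isOpen L₀)) hI

/-- a subgroup containing the pointwise stabiliser of a finite set is open -/
theorem isOpen_of_finset_fixing (S : Finset Qb) (H : Subgroup Γ)
    (h : ∀ σ : Γ, (∀ x ∈ S, σ x = x) → σ ∈ H) : IsOpen (H : Set Γ) := by
  have hfd : FiniteDimensional ℚ (IntermediateField.adjoin ℚ (S : Set Qb)) :=
    IntermediateField.finiteDimensional_adjoin fun x _ =>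
      (AlgebraicClosure.isAlgebraic ℚ).isIntegral.isIntegral x
  refine Subgroup.isOpen_mono (H₁ := (IntermediateField.adjoin ℚ (S : Set Qb)).fixingSubgroup) ?_
    (IntermediateField.fixingSubgroup_isOpen _)
  intro σ hσ
  refine h σ fun x hx => ?_
  exact (IntermediateField.mem_fixingSubgroup_iff _ σ).mp hσ x
    (IntermediateField.subset_adjoin ℚ _ hx)

/-- (G1), frozen interface of TEAM S13 -/
theorem eq_top_of_inertia_le (H : Subgroup (Qb ≃ₐ[ℚ] Qb)) (hn : H.Normal) (S : Set Qb)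
    (hS : S.Finite) (hSH : ∀ σ : Qb ≃ₐ[ℚ] Qb, (∀ x ∈ S, σ x = x) → σ ∈ H)
    (hI : ∀ ℓ : ℕ, ℓ.Prime → ∀ A : ValuationSubring Qb, A.LiesOverPrime ℓ →
      A.inertiaSubgroupIn ℚ ≤ H) : H = ⊤ :=
  eq_top_of_isOpen_of_inertia_le H
    (isOpen_of_finset_fixing hS.toFinset H fun σ hσ => hSH σ fun x hx =>
      hσ x (hS.mem_toFinset.mpr hx)) hI

/-- (G2) existence of a valuation subring over any prime -/
theorem exists_liesOverPrime (ℓ : ℕ) (hℓ : ℓ.Prime) :
    ∃ A : ValuationSubring Qb, A.LiesOverPrime ℓ := by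
  obtain ⟨A, -, hA, -⟩ := Fermat.Agent.FrobExists.exists_isFrobeniusAt ℓ hℓ
  exact ⟨A, hA⟩

/-- (G3) Galois-fixed elements are rational -/
theorem exists_rat_of_fixed (x : Qb) (h : ∀ σ : Γ, σ x = x) : ∃ r : ℚ, algebraMap ℚ Qb r = x := by
  have : Algebra.IsAlgebraic ℚ Qb := AlgebraicClosure.isAlgebraic ℚ
  have : IsAlgClosure ℚ Qb := ⟨inferInstance, inferInstance⟩
  have h1 : x ∈ (⊥ : IntermediateField ℚ Qb) := by
    rw [InfiniteGalois.mem_bot_iff_fixed]
    exact h
  exact IntermediateField.mem_bot.mp h1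

end final

end Fermat.Agent.S13Aux
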