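import Mathlib

set_option autoImplicit false
set_option linter.unusedVariables false

/-!
# S13: lines in a plane over `𝔽_p`; subgroups acting trivially on a sub / quotient
-/

namespace Fermat.Agent.S13Aux

section lines

variable {p : ℕ} [Fact p.Prime] {V : Type*} [AddCommGroup V] [Module (ZMod p) V]
  (hfin : Finite V) (hcard : Nat.card V ≤ p ^ 2) (N : Submodule (ZMod p) V) (h0 : N ≠ ⊥)
  (h1 : N ≠ ⊤)

include hfin hcard N h0 h1

theorem finrank_line_aux : Module.finrank (ZMod p) N = 1 ∧ Module.finrank (ZMod p) V = 2 := by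
  have : Module.Finite (ZMod p) V := Module.Finite.of_finite
  have hp : 1 < p := (Fact.out : p.Prime).one_lt
  have h2 : Nat.card V = p ^ Module.finrank (ZMod p) V := by
    rw [Module.natCard_eq_pow_finrank (K := ZMod p) (V := V), Nat.card_zmod]
  have h3 : Module.finrank (ZMod p) V ≤ 2 := by
    rw [h2] at hcard
    exact (Nat.pow_le_pow_iff_right hp).mp hcard
  have h4 : Module.finrank (ZMod p) N < Module.finrank (ZMod p) V := Submodule.finrank_lt h1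
  have h5 : 0 < Module.finrank (ZMod p) N := by
    rw [Module.finrank_pos_iff, Submodule.nontrivial_iff_ne_bot]
    exact h0
  omega

theorem card_eq_sq : Nat.card V = p ^ 2 := by
  rw [Module.natCard_eq_pow_finrank (K := ZMod p) (V := V), Nat.card_zmod,
    (finrank_line_aux hfin hcard N h0 h1).2]

theorem exists_smul_eq_of_mem_aux {x₀ : V} (hx₀ : x₀ ∈ N) (hx₀' : x₀ ≠ 0) {x : V} (hx : x ∈ N) :
    ∃ c : ZMod p, x = c • x₀ := by
  have h := (finrank_eq_one_iff_of_nonzero' (⟨x₀, hx₀⟩ : N) (fun h => hx₀' (congrArg Subtype.val h))).mp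
    (finrank_line_aux hfin hcard N h0 h1).1 ⟨x, hx⟩
  obtain ⟨c, hc⟩ := h
  exact ⟨c, (congrArg Subtype.val hc).symm⟩

theorem exists_nsmul_eq_of_mem {x₀ : V} (hx₀ : x₀ ∈ N) (hx₀' : x₀ ≠ 0) {x : V} (hx : x ∈ N) :
    ∃ k : ℕ, x = k • x₀ := by
  obtain ⟨c, hc⟩ := exists_smul_eq_of_mem_aux hfin hcard N h0 h1 hx₀ hx₀' hx
  refine ⟨c.val, ?_⟩
  rw [hc, ← Nat.cast_smul_eq_nsmul (ZMod p), ZMod.natCast_zmod_val]

theorem exists_sub_smul_mem_aux {x₀ : V} (hx₀ : x₀ ∉ N) (x : V) : ∃ c : ZMod p, x - c • x₀ ∈ N := by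
  have : Module.Finite (ZMod p) V := Module.Finite.of_finite
  have hq : Module.finrank (ZMod p) (V ⧸ N) = 1 := by
    have := Submodule.finrank_quotient_add_finrank N
    have h2 := finrank_line_aux hfin hcard N h0 h1
    omega
  have hne : (Submodule.Quotient.mk x₀ : V ⧸ N) ≠ 0 := by
    rwa [Ne, Submodule.Quotient.mk_eq_zero]
  obtain ⟨c, hc⟩ := (finrank_eq_one_iff_of_nonzero' _ hne).mp hq (Submodule.Quotient.mk x)
  refine ⟨c, ?_⟩
  rw [← Submodule.Quotient.mk_eq_zero, Submodule.Quotient.mk_sub, Submodule.Quotient.mk_smul, hc,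
    sub_self]

theorem exists_sub_nsmul_mem {x₀ : V} (hx₀ : x₀ ∉ N) (x : V) : ∃ k : ℕ, x - k • x₀ ∈ N := by
  obtain ⟨c, hc⟩ := exists_sub_smul_mem_aux hfin hcard N h0 h1 hx₀ x
  refine ⟨c.val, ?_⟩
  rwa [← Nat.cast_smul_eq_nsmul (ZMod p), ZMod.natCast_zmod_val]

theorem unipotent_trivial (f : V →+ V) (hfN : ∀ x ∈ N, f x ∈ N)
    (hf : ∀ x, f (f x - x) = f x - x) : (∀ x ∈ N, f x = x) ∧ (∀ x, f x - x ∈ N) := by
  let g : V →ₗ[ZMod p] V := AddMonoidHom.toZModLinearMap p f - LinearMap.id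
  have hg : ∀ x, g x = f x - x := fun x => rfl
  have hgg : ∀ x, g (g x) = 0 := by
    intro x
    rw [hg (g x), hg x, hf, sub_self]
  have hgN : ∀ x ∈ N, g x ∈ N := fun x hx => N.sub_mem (hfN x hx) hx
  obtain ⟨x₀, hx₀, hx₀'⟩ := Submodule.exists_mem_ne_zero_of_ne_bot h0
  have hN0 : ∀ x ∈ N, g x = 0 := by
    obtain ⟨c, hc⟩ := exists_smul_eq_of_mem_aux hfin hcard N h0 h1 hx₀ hx₀' (hgN x₀ hx₀)
    have h2 := hgg x₀
    rw [hc, map_smul, hc, smul_smul] at h2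
    have hc0 : c = 0 := by
      rcases smul_eq_zero.mp h2 with h | h
      · exact mul_self_eq_zero.mp h
      · exact absurd h hx₀'
    rw [hc0, zero_smul] at hc
    intro x hx
    obtain ⟨d, hd⟩ := exists_smul_eq_of_mem_aux hfin hcard N h0 h1 hx₀ hx₀' hx
    rw [hd, map_smul, hc, smul_zero]
  refine ⟨fun x hx => sub_eq_zero.mp (hN0 x hx), ?_⟩
  obtain ⟨x₁, hx₁⟩ : ∃ x₁, x₁ ∉ N := by
    by_contra h
    push Not at h
    exact h1 (eq_top_iff.mpr fun x _ => h x)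
  obtain ⟨c, hc⟩ := exists_sub_smul_mem_aux hfin hcard N h0 h1 hx₁ (g x₁)
  have h2 : g (g x₁ - c • x₁) = 0 := hN0 _ hc
  rw [map_sub, hgg, map_smul, zero_sub, neg_eq_zero] at h2
  have hc0 : c = 0 := by
    by_contra hne
    have h3 : g x₁ = 0 := (smul_eq_zero.mp h2).resolve_left hne
    rw [h3, zero_sub] at hc
    have h4 : c • x₁ ∈ N := by simpa using N.neg_mem hc
    exact hx₁ ((N.smul_mem_iff hne).mp h4)
  rw [hc0, zero_smul, sub_zero] at hc
  intro x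
  obtain ⟨d, hd⟩ := exists_sub_smul_mem_aux hfin hcard N h0 h1 hx₁ x
  have h3 : g (x - d • x₁) = 0 := hN0 _ hd
  rw [map_sub, map_smul, sub_eq_zero] at h3
  rw [← hg, h3]
  exact N.smul_mem d hc

theorem mem_of_mem_addSubgroup (W : AddSubgroup V) (hNW : ∀ x ∈ N, x ∈ W) (hW : ∃ x, x ∉ W) :
    ∀ x ∈ W, x ∈ N := by
  intro x hx
  by_contra hxN
  obtain ⟨y, hy⟩ := hW
  obtain ⟨k, hk⟩ := exists_sub_nsmul_mem hfin hcard N h0 h1 hxN y
  apply hy
  have := W.add_mem (hNW _ hk) (W.nsmul_mem hx k)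
  simpa using this

theorem subset_addSubgroup (W : AddSubgroup V) (hNW : ∃ x ∈ N, x ≠ 0 ∧ x ∈ W) :
    ∀ x ∈ N, x ∈ W := by
  obtain ⟨x₀, hx₀, hx₀', hx₀W⟩ := hNW
  intro x hx
  obtain ⟨k, rfl⟩ := exists_nsmul_eq_of_mem hfin hcard N h0 h1 hx₀ hx₀' hx
  exact W.nsmul_mem hx₀W k

theorem eq_zero_of_mem_addSubgroup (W : AddSubgroup V) (hNW : ∃ x ∈ N, x ∉ W) :
    ∀ x ∈ N, x ∈ W → x = 0 := by
  intro x hx hxW
  by_contra hne
  obtain ⟨y, hy, hyW⟩ := hNW
  exact hyW (subset_addSubgroup hfin hcard N h0 h1 W ⟨x, hx, hne, hxW⟩ y hy)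

end lines

section fix

variable {Γ : Type*} [Group Γ] {V : Type*} [AddCommGroup V] [DistribMulAction Γ V]

/-- the subgroup acting trivially on `V ⧸ N` -/
def fixQuot (N : AddSubgroup V) (hN : ∀ σ : Γ, ∀ x ∈ N, σ • x ∈ N) : Subgroup Γ where
  carrier := {σ | ∀ x : V, σ • x - x ∈ N}
  mul_mem' {σ τ} hσ hτ x := by
    have h1 := hN σ _ (hτ x)
    have h2 := N.add_mem h1 (hσ x)
    rw [smul_sub] at h2
    rw [mul_smul]
    simpa using h2
  one_mem' x := by simp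
  inv_mem' {σ} hσ x := by
    have h1 := hN σ⁻¹ _ (hσ x)
    rw [smul_sub, inv_smul_smul] at h1
    have := N.neg_mem h1
    simpa using this

theorem mem_fixQuot (N : AddSubgroup V) (hN : ∀ σ : Γ, ∀ x ∈ N, σ • x ∈ N) (σ : Γ) :
    σ ∈ fixQuot N hN ↔ ∀ x : V, σ • x - x ∈ N := Iff.rfl

theorem fixQuot_normal (N : AddSubgroup V) (hN : ∀ σ : Γ, ∀ x ∈ N, σ • x ∈ N) :
    (fixQuot N hN).Normal where
  conj_mem σ hσ g := by
    rw [mem_fixQuot] at hσ ⊢
    intro x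
    have h1 := hN g _ (hσ (g⁻¹ • x))
    rw [smul_sub, smul_inv_smul] at h1
    simpa [mul_smul] using h1

variable (Γ) in
/-- the subgroup acting trivially on `N` -/
def fixSub (N : AddSubgroup V) : Subgroup Γ where
  carrier := {σ | ∀ x ∈ N, σ • x = x}
  mul_mem' {σ τ} hσ hτ x hx := by rw [mul_smul, hτ x hx, hσ x hx]
  one_mem' x _ := one_smul _ x
  inv_mem' {σ} hσ x hx := by rw [inv_smul_eq_iff, hσ x hx]

theorem mem_fixSub (N : AddSubgroup V) (σ : Γ) : σ ∈ fixSub Γ N ↔ ∀ x ∈ N, σ • x = x := Iff.rfl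

theorem fixSub_normal (N : AddSubgroup V) (hN : ∀ σ : Γ, ∀ x ∈ N, σ • x ∈ N) :
    (fixSub Γ N).Normal where
  conj_mem σ hσ g := by
    rw [mem_fixSub] at hσ ⊢
    intro x hx
    rw [mul_smul, mul_smul, hσ _ (hN g⁻¹ x hx), smul_inv_smul]

end fix

end Fermat.Agent.S13Aux
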