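import Mathlib
import Fermat.Agent.S05.Model
import Fermat.Agent.S05.Kernel

/-!
# S13 (C1): link between `n • P = 0` and Mathlib's division polynomials, pointwise

For an abstract `XYModel` of `Y² = X (X + D) (X + M)` we show, for odd `n` and a point `P` with
`j • P ≠ 0` for `0 < j < n`, that `n • P = 0 ↔ preΨ n (X P) = 0`.
-/

set_option autoImplicit false
set_option linter.unusedSectionVars false
set_option linter.unusedVariables false

namespace Fermat.Agent.S13Aux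

open Fermat.Agent.S05Aux Polynomial

section alg

variable {K : Type*} [Field K]

/-- the symmetric biquadratic form -/
def Theta (D M a b c : K) : K :=
  a ^ 2 * b ^ 2 + a ^ 2 * c ^ 2 + b ^ 2 * c ^ 2 - 2 * a * b * c * (a + b + c)
    - 4 * (D + M) * a * b * c - 2 * D * M * (a * b + a * c + b * c) + D ^ 2 * M ^ 2

lemma Theta_swap (D M a b c : K) : Theta D M a b c = Theta D M a c b := by
  unfold Theta; ring

lemma alg_two (A1 A2 A3 Z p q r s u y4 : K) (hp : p ≠ 0) (hs : s ≠ 0) (hr : r ≠ 0)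
    (e0 : A1 * A2 * A3 ^ 2 = -Z * y4) (e1 : A1 * p ^ 2 = -q * r) (e2 : A2 * s ^ 2 = -r * u)
    (e3 : A3 * r ^ 2 = -p * s) : Z * r ^ 2 * y4 = -q * u := by
  have h : (p ^ 2 * s ^ 2 * r ^ 2) * (Z * r ^ 2 * y4) = (p ^ 2 * s ^ 2 * r ^ 2) * (-q * u) := by
    linear_combination (p ^ 2 * s ^ 2 * r ^ 4) * e0 - (A2 * s ^ 2 * (A3 * r ^ 2) ^ 2) * e1
      - ((-q * r) * (A3 * r ^ 2) ^ 2) * e2 - ((-q * r) * (-r * u) * (A3 * r ^ 2 + (-p * s))) * e3
  exact mul_left_cancel₀ (by positivity) h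

lemma alg_step (B1 B2 Z0 Y1 Ym A3 al alp alm be bep bem r rp rm g : K)
    (hal : al ≠ 0) (hbe : be ≠ 0) (halm : alm ≠ 0) (hbep : bep ≠ 0)
    (e1 : B1 * B2 * Z0 ^ 2 = Y1 * Ym * A3 ^ 2)
    (f1 : B1 * al ^ 2 = -alp * alm) (f2 : B2 * be ^ 2 = -bep * bem)
    (f3 : Z0 * g ^ 2 * r ^ 2 = -al * be) (f4 : Ym * g ^ 2 * rm ^ 2 = -alm * bep)
    (f5 : A3 * r ^ 2 = -rp * rm) : Y1 * g ^ 2 * rp ^ 2 = -alp * bem := by
  have h : (al ^ 2 * be ^ 2 * alm * bep) * (Y1 * g ^ 2 * rp ^ 2)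
      = (al ^ 2 * be ^ 2 * alm * bep) * (-alp * bem) := by
    linear_combination (-(B2 * be ^ 2 * (Z0 * g ^ 2 * r ^ 2) ^ 2)) * f1
      - ((-alp * alm) * (Z0 * g ^ 2 * r ^ 2) ^ 2) * f2
      - ((-alp * alm) * (-bep * bem) * (Z0 * g ^ 2 * r ^ 2 + (-al * be))) * f3
      + (g ^ 4 * al ^ 2 * be ^ 2 * r ^ 4) * e1
      + (Y1 * Ym * g ^ 4 * al ^ 2 * be ^ 2 * (A3 * r ^ 2 - rp * rm)) * f5
      + (Y1 * g ^ 2 * rp ^ 2 * al ^ 2 * be ^ 2) * f4
  exact mul_left_cancel₀ (by positivity) h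

end alg

section model

variable {K : Type*} [Field K] {G : Type*} [AddCommGroup G] {D M : K} (E : XYModel K G D M)

lemma theta_eq {A B : G} (hA : A ≠ 0) (hB : B ≠ 0) (h : E.X A ≠ E.X B) (c : K) :
    (E.X (A + B) - c) * (E.X (A - B) - c) * (E.X A - E.X B) ^ 2
      = Theta D M (E.X A) (E.X B) c := by
  have h3 := E.X_add_mul_X_sub hA hB h
  have h4 := E.X_add_add_X_sub hA hB h
  unfold Theta
  linear_combination h3 - c * h4

lemma theta_dbl {B : G} (hB : B ≠ 0) (hY : E.Y B ≠ 0) (a : K) :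
    (E.X (2 • B) - a) * (4 * E.Y B ^ 2) = Theta D M a (E.X B) (E.X B) := by
  have h1 := E.X_two B hB hY
  have h2 := E.eqn B hB
  unfold Theta
  linear_combination h1 - 4 * a * h2

/-- the pointwise elliptic sequence attached to `P`. -/
noncomputable def wSeq (P : G) : ℕ → K
  | 0 => 0
  | 1 => 1
  | 2 => 2 * E.Y P
  | (k + 3) => (E.X P - E.X ((k + 2) • P)) * wSeq P (k + 2) ^ 2 / wSeq P (k + 1)

@[simp] lemma wSeq_zero (P : G) : wSeq E P 0 = 0 := by rw [wSeq]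
@[simp] lemma wSeq_one (P : G) : wSeq E P 1 = 1 := by rw [wSeq]
lemma wSeq_two (P : G) : wSeq E P 2 = 2 * E.Y P := by rw [wSeq]
lemma wSeq_succ (P : G) (k : ℕ) : wSeq E P (k + 3)
    = (E.X P - E.X ((k + 2) • P)) * wSeq E P (k + 2) ^ 2 / wSeq E P (k + 1) := by rw [wSeq]

variable (h2 : (2 : K) ≠ 0) {P : G} {n : ℕ} (hP : ∀ j, 0 < j → j < n → j • P ≠ 0)
include hP

lemma X_ne (b c : ℕ) (hb : 0 < b) (hc : 0 < c) (h : 2 * b + c < n) :
    E.X ((b + c) • P) ≠ E.X (b • P) := by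
  refine E.X_ne_of_ne (hP _ (by omega) (by omega)) (hP _ hb (by omega)) ?_ ?_
  · intro h1
    rw [add_nsmul] at h1
    exact hP c hc (by omega) (by simpa using h1)
  · intro h1
    apply hP (2 * b + c) (by omega) h
    have : (2 * b + c) • P = (b + c) • P + b • P := by rw [← add_nsmul]; congr 1; omega
    rw [this, h1]; simp

include h2 in
lemma Y_ne (hn : 2 < n) : E.Y P ≠ 0 := by
  intro h
  have h1 : P ≠ 0 := by simpa using hP 1 one_pos (by omega)
  exact hP 2 two_pos hn (E.two_nsmul_eq_zero_of_Y h1 h)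

include h2 in
lemma wSeq_ne_zero : ∀ k, 0 < k → k < n → wSeq E P k ≠ 0 := by
  intro k
  induction k using Nat.strong_induction_on with
  | _ k ih =>
    intro hk hkn
    match k, hk, hkn, ih with
    | 1, _, _, _ => simp
    | 2, _, hkn, _ =>
      rw [wSeq_two]
      exact mul_ne_zero h2 (Y_ne E h2 hP hkn)
    | (k + 3), _, hkn, ih =>
      rw [wSeq_succ]
      refine div_ne_zero (mul_ne_zero ?_ (pow_ne_zero 2 (ih (k + 2) (by omega) (by omega) (by omega))))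
        (ih (k + 1) (by omega) (by omega) (by omega))
      have := X_ne E hP 1 (k + 1) one_pos (by omega) (by omega)
      rw [one_nsmul, show 1 + (k + 1) = k + 2 by omega] at this
      exact sub_ne_zero.2 this.symm

include h2 in
/-- `F(k+2, 1)`. -/
lemma F_one (k : ℕ) (hk : k + 2 ≤ n) :
    (E.X ((k + 2) • P) - E.X P) * wSeq E P (k + 2) ^ 2 = - wSeq E P (k + 3) * wSeq E P (k + 1) := by
  have h1 : wSeq E P (k + 1) ≠ 0 := wSeq_ne_zero E h2 hP _ (by omega) (by omega)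
  rw [wSeq_succ]
  field_simp
  ring

include h2 in
/-- `F(t+2, 2)`. -/
lemma F_two (t : ℕ) (ht : 0 < t) (hn : t + 4 ≤ n) :
    (E.X ((t + 2) • P) - E.X (2 • P)) * wSeq E P (t + 2) ^ 2 * wSeq E P 2 ^ 2
      = - wSeq E P (t + 4) * wSeq E P t := by
  obtain ⟨t, rfl⟩ : ∃ t', t = t' + 1 := ⟨t - 1, by omega⟩
  have hP1 : P ≠ 0 := by simpa using hP 1 one_pos (by omega)
  have hA : (t + 1 + 2) • P ≠ 0 := hP _ (by omega) (by omega)
  have hne : E.X ((t + 1 + 2) • P) ≠ E.X P := by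
    have := X_ne E hP 1 (t + 2) one_pos (by omega) (by omega)
    rwa [one_nsmul, show 1 + (t + 2) = t + 1 + 2 by omega] at this
  have e0 := theta_eq E hA hP1 hne (E.X P)
  have e0' := theta_dbl E hP1 (Y_ne E h2 hP (by omega)) (E.X ((t + 1 + 2) • P))
  have hadd : (t + 1 + 2) • P + P = (t + 2 + 2) • P := by
    rw [← succ_nsmul]
  have hsub : (t + 1 + 2) • P - P = (t + 2) • P := by
    rw [show t + 1 + 2 = (t + 2) + 1 by omega, succ_nsmul, add_sub_cancel_right]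
  rw [hadd, hsub] at e0
  have f1 := F_one E h2 hP (t + 2) (by omega)
  have f2 := F_one E h2 hP t (by omega)
  have f3 := F_one E h2 hP (t + 1) (by omega)
  have hw : wSeq E P 2 ^ 2 = 4 * E.Y P ^ 2 := by rw [wSeq_two]; ring
  rw [hw]
  refine alg_two (E.X ((t + 2 + 2) • P) - E.X P) (E.X ((t + 2) • P) - E.X P)
    (E.X ((t + 1 + 2) • P) - E.X P) _ (wSeq E P (t + 2 + 2)) (wSeq E P (t + 1 + 4))
    (wSeq E P (t + 1 + 2)) (wSeq E P (t + 2)) (wSeq E P (t + 1)) _
    (wSeq_ne_zero E h2 hP _ (by omega) (by omega)) (wSeq_ne_zero E h2 hP _ (by omega) (by omega))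
    (wSeq_ne_zero E h2 hP _ (by omega) (by omega)) ?_ f1 ?_ ?_
  · rw [e0, ← e0']; ring
  · linear_combination f2
  · linear_combination f3

/-- the statement `F(s + t, s)`. -/
def Fp (P : G) (s t : ℕ) : Prop :=
  (E.X ((s + t) • P) - E.X (s • P)) * wSeq E P (s + t) ^ 2 * wSeq E P s ^ 2
    = - wSeq E P (2 * s + t) * wSeq E P t

include h2 in
lemma F_step (s t : ℕ) (hs : 0 < s) (ht : 0 < t) (hn : 2 * s + t + 4 ≤ n)
    (H2 : Fp E P s (t + 2)) (H1 : Fp E P (s + 1) (t + 1)) : Fp E P (s + 2) t := by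
  unfold Fp at *
  have hP1 : P ≠ 0 := by simpa using hP 1 one_pos (by omega)
  have hA : (s + 1) • P ≠ 0 := hP _ (by omega) (by omega)
  have hB : (s + t + 2) • P ≠ 0 := hP _ (by omega) (by omega)
  have hAB : E.X ((s + 1) • P) ≠ E.X ((s + t + 2) • P) := by
    have := X_ne E hP (s + 1) (t + 1) (by omega) (by omega) (by omega)
    rw [show s + 1 + (t + 1) = s + t + 2 by omega] at this
    exact this.symm
  have hAC : E.X ((s + 1) • P) ≠ E.X P := by
    have := X_ne E hP 1 s one_pos hs (by omega)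
    rwa [one_nsmul, show 1 + s = s + 1 by omega] at this
  have e1 := theta_eq E hA hB hAB (E.X P)
  have e2 := theta_eq E hA hP1 hAC (E.X ((s + t + 2) • P))
  rw [Theta_swap] at e2
  have h1 : (s + 1) • P + (s + t + 2) • P = (2 * s + t + 3) • P := by
    rw [← add_nsmul]; congr 1; omega
  have h2' : E.X ((s + 1) • P - (s + t + 2) • P) = E.X ((t + 1) • P) := by
    rw [← E.X_neg, neg_sub, show s + t + 2 = (t + 1) + (s + 1) by omega, add_nsmul,
      add_sub_cancel_right]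
  have h3 : (s + 1) • P + P = (s + 2) • P := by
    rw [← succ_nsmul]
  have h4 : (s + 1) • P - P = s • P := by
    rw [succ_nsmul, add_sub_cancel_right]
  rw [h1, h2'] at e1
  rw [h3, h4] at e2
  obtain ⟨s, rfl⟩ : ∃ s', s = s' + 1 := ⟨s - 1, by omega⟩
  obtain ⟨t, rfl⟩ : ∃ t', t = t' + 1 := ⟨t - 1, by omega⟩
  have f1 := F_one E h2 hP (2 * (s + 1) + (t + 1) + 1) (by omega)
  have f2 := F_one E h2 hP t (by omega)
  have f5 := F_one E h2 hP s (by omega)
  rw [show s + 1 + 2 + (t + 1) = s + 1 + (t + 1) + 2 by omega,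
    show 2 * (s + 1 + 2) + (t + 1) = 2 * (s + 1) + (t + 1) + 4 by omega]
  rw [show s + 1 + (t + 1 + 2) = s + 1 + (t + 1) + 2 by omega,
    show 2 * (s + 1) + (t + 1 + 2) = 2 * (s + 1) + (t + 1) + 2 by omega] at H2
  rw [show s + 1 + 1 + (t + 1 + 1) = s + 1 + (t + 1) + 2 by omega,
    show 2 * (s + 1 + 1) + (t + 1 + 1) = 2 * (s + 1) + (t + 1) + 3 by omega] at H1
  refine alg_step (E.X ((2 * (s + 1) + (t + 1) + 3) • P) - E.X P) (E.X ((t + 1 + 1) • P) - E.X P)
    (E.X ((s + 1 + (t + 1) + 2) • P) - E.X ((s + 1 + 1) • P)) _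
    (E.X ((s + 1 + (t + 1) + 2) • P) - E.X ((s + 1) • P))
    (E.X ((s + 1 + 1) • P) - E.X P)
    (wSeq E P (2 * (s + 1) + (t + 1) + 3)) (wSeq E P (2 * (s + 1) + (t + 1) + 4))
    (wSeq E P (2 * (s + 1) + (t + 1) + 2))
    (wSeq E P (t + 1 + 1)) (wSeq E P (t + 1 + 2)) (wSeq E P (t + 1))
    (wSeq E P (s + 1 + 1)) (wSeq E P (s + 1 + 2)) (wSeq E P (s + 1))
    (wSeq E P (s + 1 + (t + 1) + 2))
    (wSeq_ne_zero E h2 hP _ (by omega) (by omega)) (wSeq_ne_zero E h2 hP _ (by omega) (by omega))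
    (wSeq_ne_zero E h2 hP _ (by omega) (by omega)) (wSeq_ne_zero E h2 hP _ (by omega) (by omega))
    ?_ f1 f2 H1 H2 f5
  linear_combination e1 - e2

include h2 in
lemma F_all : ∀ s t, 0 < s → 0 < t → 2 * s + t ≤ n → Fp E P s t := by
  intro s
  induction s using Nat.strong_induction_on with
  | _ s ih =>
    intro t hs ht hn
    match s, hs, hn, ih with
    | 1, _, hn, _ =>
      obtain ⟨t, rfl⟩ : ∃ t', t = t' + 1 := ⟨t - 1, by omega⟩
      have := F_one E h2 hP t (by omega)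
      unfold Fp
      rw [show 1 + (t + 1) = t + 2 by omega, show 2 * 1 + (t + 1) = t + 3 by omega, one_nsmul,
        wSeq_one]
      linear_combination this
    | 2, _, hn, _ =>
      have := F_two E h2 hP t ht (by omega)
      unfold Fp
      rw [show 2 + t = t + 2 by omega, show 2 * 2 + t = t + 4 by omega]
      exact this
    | (s + 3), _, hn, ih =>
      exact F_step E h2 hP (s + 1) t (by omega) ht (by omega)
        (ih (s + 1) (by omega) (t + 2) (by omega) (by omega) (by omega))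
        (ih (s + 2) (by omega) (t + 1) (by omega) (by omega) (by omega))

include h2 in
lemma wSeq_odd (m : ℕ) (hn : 2 * (m + 2) + 1 ≤ n) :
    wSeq E P (2 * (m + 2) + 1) = wSeq E P (m + 4) * wSeq E P (m + 2) ^ 3
      - wSeq E P (m + 1) * wSeq E P (m + 3) ^ 3 := by
  have h := F_all E h2 hP (m + 2) 1 (by omega) one_pos (by omega)
  unfold Fp at h
  have f1 := F_one E h2 hP (m + 1) (by omega)
  have f2 := F_one E h2 hP m (by omega)
  rw [wSeq_one] at h
  linear_combination h - wSeq E P (m + 2) ^ 2 * f1 + wSeq E P (m + 3) ^ 2 * f2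

include h2 in
lemma wSeq_even (m : ℕ) (hn : 2 * (m + 3) ≤ n) :
    wSeq E P (2 * (m + 3)) * wSeq E P 2 = wSeq E P (m + 2) ^ 2 * wSeq E P (m + 3) * wSeq E P (m + 5)
      - wSeq E P (m + 1) * wSeq E P (m + 3) * wSeq E P (m + 4) ^ 2 := by
  have h := F_all E h2 hP (m + 2) 2 (by omega) two_pos (by omega)
  unfold Fp at h
  have f1 := F_one E h2 hP (m + 2) (by omega)
  have f2 := F_one E h2 hP m (by omega)
  rw [show 2 * (m + 2) + 2 = 2 * (m + 3) by omega] at h
  linear_combination h - wSeq E P (m + 2) ^ 2 * f1 + wSeq E P (m + 4) ^ 2 * f2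

end model

section eds

variable {R : Type*} [CommRing R] (b c d : R)

lemma normEDS_even_nat (m : ℕ) : normEDS b c d ((2 * (m + 3) : ℕ) : ℤ) * b
    = normEDS b c d ((m + 2 : ℕ) : ℤ) ^ 2 * normEDS b c d ((m + 3 : ℕ) : ℤ)
        * normEDS b c d ((m + 5 : ℕ) : ℤ)
      - normEDS b c d ((m + 1 : ℕ) : ℤ) * normEDS b c d ((m + 3 : ℕ) : ℤ)
        * normEDS b c d ((m + 4 : ℕ) : ℤ) ^ 2 := by
  have h := normEDS_even b c d ((m : ℤ) + 3)
  rw [show ((2 * (m + 3) : ℕ) : ℤ) = 2 * ((m : ℤ) + 3) by push_cast; ring,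
    show ((m + 2 : ℕ) : ℤ) = (m : ℤ) + 3 - 1 by push_cast; ring,
    show ((m + 3 : ℕ) : ℤ) = (m : ℤ) + 3 by push_cast; ring,
    show ((m + 5 : ℕ) : ℤ) = (m : ℤ) + 3 + 2 by push_cast; ring,
    show ((m + 1 : ℕ) : ℤ) = (m : ℤ) + 3 - 2 by push_cast; ring,
    show ((m + 4 : ℕ) : ℤ) = (m : ℤ) + 3 + 1 by push_cast; ring]
  exact h

lemma normEDS_odd_nat (m : ℕ) : normEDS b c d ((2 * (m + 2) + 1 : ℕ) : ℤ)
    = normEDS b c d ((m + 4 : ℕ) : ℤ) * normEDS b c d ((m + 2 : ℕ) : ℤ) ^ 3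
      - normEDS b c d ((m + 1 : ℕ) : ℤ) * normEDS b c d ((m + 3 : ℕ) : ℤ) ^ 3 := by
  have h := normEDS_odd b c d ((m : ℤ) + 2)
  rw [show ((2 * (m + 2) + 1 : ℕ) : ℤ) = 2 * ((m : ℤ) + 2) + 1 by push_cast; ring,
    show ((m + 4 : ℕ) : ℤ) = (m : ℤ) + 2 + 2 by push_cast; ring,
    show ((m + 2 : ℕ) : ℤ) = (m : ℤ) + 2 by push_cast; ring,
    show ((m + 1 : ℕ) : ℤ) = (m : ℤ) + 2 - 1 by push_cast; ring,
    show ((m + 3 : ℕ) : ℤ) = (m : ℤ) + 2 + 1 by push_cast; ring]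
  exact h

end eds

section link

variable {K : Type*} [Field K] {G : Type*} [AddCommGroup G] {D M : K} (E : XYModel K G D M)

/-- the Weierstrass curve `y² = x (x + D) (x + M)`. -/
def Wc (D M : K) : WeierstrassCurve K := ⟨0, D + M, 0, D * M, 0⟩

lemma eval_Ψ₂Sq (x : K) : (Wc D M).Ψ₂Sq.eval x = 4 * (x * (x + D) * (x + M)) := by
  simp [WeierstrassCurve.Ψ₂Sq, Wc, WeierstrassCurve.b₂, WeierstrassCurve.b₄, WeierstrassCurve.b₆]
  ring

lemma eval_Ψ₃ (x : K) : (Wc D M).Ψ₃.eval x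
    = 3 * x ^ 4 + 4 * (D + M) * x ^ 3 + 6 * D * M * x ^ 2 - D ^ 2 * M ^ 2 := by
  simp [WeierstrassCurve.Ψ₃, Wc, WeierstrassCurve.b₂, WeierstrassCurve.b₄, WeierstrassCurve.b₆,
    WeierstrassCurve.b₈]
  ring

lemma eval_preΨ₄ (x : K) : (Wc D M).preΨ₄.eval x
    = 2 * x ^ 6 + 4 * (D + M) * x ^ 5 + 10 * D * M * x ^ 4 - 10 * D ^ 2 * M ^ 2 * x ^ 2
      - 4 * (D + M) * D ^ 2 * M ^ 2 * x - 2 * D ^ 3 * M ^ 3 := by
  simp [WeierstrassCurve.preΨ₄, Wc, WeierstrassCurve.b₂, WeierstrassCurve.b₄, WeierstrassCurve.b₆,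
    WeierstrassCurve.b₈]
  ring

variable (h2 : (2 : K) ≠ 0) {P : G} {n : ℕ} (hP : ∀ j, 0 < j → j < n → j • P ≠ 0)
include h2 hP

lemma wSeq_three (hn : 3 ≤ n) : wSeq E P 3 = (Wc D M).Ψ₃.eval (E.X P) := by
  have hP1 : P ≠ 0 := by simpa using hP 1 one_pos (by omega)
  have hY := Y_ne E h2 hP (by omega)
  have h1 := E.X_two P hP1 hY
  have h3 := E.eqn P hP1
  rw [show (3 : ℕ) = 0 + 3 from rfl, wSeq_succ, eval_Ψ₃]
  simp only [zero_add, wSeq_one, div_one, wSeq_two]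
  linear_combination (-1 : K) * h1 + 4 * E.X P * h3

lemma wSeq_four (hn : 4 ≤ n) : wSeq E P 4 = (Wc D M).preΨ₄.eval (E.X P) * wSeq E P 2 := by
  have hP1 : P ≠ 0 := by simpa using hP 1 one_pos (by omega)
  have hP2 : 2 • P ≠ 0 := hP 2 two_pos (by omega)
  have hY := Y_ne E h2 hP (by omega)
  have h1 := E.X_two P hP1 hY
  have h3 := E.eqn P hP1
  have hne : E.X (2 • P) ≠ E.X P := by
    have := X_ne E hP 1 1 one_pos one_pos (by omega)
    rwa [one_nsmul] at this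
  have h4 := E.X_add_add_X_sub hP2 hP1 hne
  have ha : 2 • P + P = 3 • P := by rw [← succ_nsmul]
  have hs : 2 • P - P = P := by rw [two_nsmul, add_sub_cancel_right]
  rw [ha, hs] at h4
  have hw2 : wSeq E P 2 ≠ 0 := wSeq_ne_zero E h2 hP 2 two_pos (by omega)
  have hw3 : wSeq E P 3 = (E.X P - E.X (2 • P)) * wSeq E P 2 ^ 2 := by
    rw [show (3 : ℕ) = 0 + 3 from rfl, wSeq_succ]; simp
  rw [show (4 : ℕ) = 1 + 3 from rfl, wSeq_succ]
  simp only [show 1 + 2 = 3 from rfl, show 1 + 1 = 2 from rfl]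
  rw [div_eq_iff hw2, hw3, eval_preΨ₄]
  rw [wSeq_two]
  linear_combination (-16 * E.Y P ^ 4) * h4
    - 8 * E.Y P ^ 2 * (3 * E.X P ^ 2 + 2 * (D + M) * E.X P + D * M) * h1
    + 32 * E.Y P ^ 2 * E.X P * (E.X P ^ 2 - D * M) * h3

lemma wSeq_eq_normEDS (hn : 3 ≤ n) : ∀ k, k ≤ n → wSeq E P k
    = normEDS (2 * E.Y P) ((Wc D M).Ψ₃.eval (E.X P)) ((Wc D M).preΨ₄.eval (E.X P)) (k : ℤ) := by
  intro k
  induction k using normEDSRec with
  | zero => intro _; simp
  | one => intro _; simp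
  | two => intro _; simp [wSeq_two]
  | three => intro _; simpa using wSeq_three E h2 hP hn
  | four => intro h; simpa [wSeq_two] using wSeq_four E h2 hP h
  | even m h1 h2' h3 h4 h5 =>
    intro h
    have hw2 : wSeq E P 2 ≠ 0 := wSeq_ne_zero E h2 hP 2 two_pos (by omega)
    have e1 := wSeq_even E h2 hP m h
    have e2 := normEDS_even_nat (2 * E.Y P) ((Wc D M).Ψ₃.eval (E.X P))
      ((Wc D M).preΨ₄.eval (E.X P)) m
    rw [← h1 (by omega), ← h2' (by omega), ← h3 (by omega), ← h4 (by omega), ← h5 (by omega),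
      ← e1, ← wSeq_two] at e2
    exact (mul_right_cancel₀ hw2 e2).symm
  | odd m h1 h2' h3 h4 =>
    intro h
    have e1 := wSeq_odd E h2 hP m h
    have e2 := normEDS_odd_nat (2 * E.Y P) ((Wc D M).Ψ₃.eval (E.X P))
      ((Wc D M).preΨ₄.eval (E.X P)) m
    rw [← h1 (by omega), ← h2' (by omega), ← h3 (by omega), ← h4 (by omega), ← e1] at e2
    exact e2.symm

lemma wSeq_eq_zero_iff (hn : 3 ≤ n) : wSeq E P n = 0 ↔ n • P = 0 := by
  obtain ⟨k, rfl⟩ : ∃ k, n = k + 3 := ⟨n - 3, by omega⟩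
  have hP1 : P ≠ 0 := by simpa using hP 1 one_pos (by omega)
  have hw1 := wSeq_ne_zero E h2 hP (k + 1) (by omega) (by omega)
  have hw2 := wSeq_ne_zero E h2 hP (k + 2) (by omega) (by omega)
  rw [wSeq_succ, div_eq_zero_iff, mul_eq_zero, sub_eq_zero]
  constructor
  · rintro ((h | h) | h)
    · rcases E.eq_or_eq_neg hP1 (hP (k + 2) (by omega) (by omega)) h with h' | h'
      · exfalso
        apply hP (k + 1) (by omega) (by omega)
        have : (k + 2) • P = (k + 1) • P + P := by rw [← succ_nsmul]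
        rw [this] at h'
        simpa using h'.symm
      · rw [show k + 3 = (k + 2) + 1 from rfl, succ_nsmul]
        nth_rewrite 2 [h']
        simp
    · exact absurd h (pow_ne_zero 2 hw2)
    · exact absurd h hw1
  · intro h
    left; left
    have : (k + 2) • P = - P := by
      rw [show k + 3 = (k + 2) + 1 from rfl, succ_nsmul] at h
      exact eq_neg_of_add_eq_zero_left h
    rw [this, E.X_neg]

omit hP in
lemma eval_preΨ (x y : K) (hy : y ^ 2 = x * (x + D) * (x + M)) {n : ℕ} (hodd : Odd n) :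
    ((Wc D M).preΨ (n : ℤ)).eval x
      = normEDS (2 * y) ((Wc D M).Ψ₃.eval x) ((Wc D M).preΨ₄.eval x) (n : ℤ) := by
  have h := map_preNormEDS (evalRingHom x) ((Wc D M).Ψ₂Sq ^ 2) (Wc D M).Ψ₃ (Wc D M).preΨ₄ (n : ℤ)
  rw [normEDS, if_neg (by simpa using hodd), mul_one, WeierstrassCurve.preΨ]
  simp only [coe_evalRingHom, eval_pow] at h
  rw [h, eval_Ψ₂Sq, ← hy]
  congr 1
  ring

theorem nsmul_eq_zero_iff_aux (hodd : Odd n) (hP0 : P ≠ 0) :
    n • P = 0 ↔ ((Wc D M).preΨ (n : ℤ)).eval (E.X P) = 0 := by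
  by_cases hn : 3 ≤ n
  · rw [eval_preΨ h2 (E.X P) (E.Y P) (E.eqn P hP0) hodd, ← wSeq_eq_normEDS E h2 hP hn n le_rfl,
      wSeq_eq_zero_iff E h2 hP hn]
  · have : n = 1 := by
      obtain ⟨m, rfl⟩ := hodd
      omega
    subst this
    simp [hP0]

omit h2 hP in
/-- **THM A**. -/
theorem nsmul_eq_zero_iff (h2 : (2 : K) ≠ 0) {n : ℕ} (hn : Odd n) {P : G}
    (hP : ∀ j, 0 < j → j < n → j • P ≠ 0) (hP0 : P ≠ 0) :
    n • P = 0 ↔ ((Wc D M).preΨ (n : ℤ)).eval (E.X P) = 0 :=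
  nsmul_eq_zero_iff_aux E h2 hP hn hP0

omit h2 hP in
/-- alias of THM A with an unambiguous name. -/
theorem nsmul_eq_zero_iff_preΨ (h2 : (2 : K) ≠ 0) {n : ℕ} (hn : Odd n) {P : G}
    (hP : ∀ j, 0 < j → j < n → j • P ≠ 0) (hP0 : P ≠ 0) :
    n • P = 0 ↔ ((Wc D M).preΨ (n : ℤ)).eval (E.X P) = 0 :=
  nsmul_eq_zero_iff_aux E h2 hP hn hP0

end link

section cor

variable {K : Type*} [Field K] {G : Type*} [AddCommGroup G] {D M : K} (E : XYModel K G D M)

omit E in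
lemma nsmul_ne_zero_of_prime {p : ℕ} (hp : p.Prime) {T : G} (hT0 : T ≠ 0) (hT : p • T = 0) :
    ∀ j, 0 < j → j < p → j • T ≠ 0 := by
  intro j hj hjp h
  have h1 : addOrderOf T ∣ p := addOrderOf_dvd_of_nsmul_eq_zero hT
  have h2 : addOrderOf T ∣ j := addOrderOf_dvd_of_nsmul_eq_zero h
  rcases (Nat.dvd_prime hp).1 h1 with h3 | h3
  · exact hT0 (AddMonoid.addOrderOf_eq_one_iff.1 h3)
  · rw [h3] at h2
    exact absurd (Nat.le_of_dvd hj h2) (by omega)

/-- the `X`-coordinate of a nonzero `p`-torsion point is a root of `preΨ p`. -/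
theorem eval_preΨ_eq_zero (h2 : (2 : K) ≠ 0) {p : ℕ} (hp : p.Prime) (hodd : Odd p) {T : G}
    (hT0 : T ≠ 0) (hT : p • T = 0) : ((Wc D M).preΨ (p : ℤ)).eval (E.X T) = 0 :=
  (nsmul_eq_zero_iff E h2 hodd (nsmul_ne_zero_of_prime hp hT0 hT) hT0).1 hT

omit E in
lemma preΨ_ne_zero' {p : ℕ} (hpK : (p : K) ≠ 0) : (Wc D M).preΨ (p : ℤ) ≠ 0 :=
  (Wc D M).preΨ_ne_zero (by exact_mod_cast hpK)

omit E in
lemma natDegree_preΨ' {p : ℕ} (hodd : Odd p) (hpK : (p : K) ≠ 0) :
    ((Wc D M).preΨ (p : ℤ)).natDegree = (p ^ 2 - 1) / 2 := by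
  rw [(Wc D M).natDegree_preΨ (by exact_mod_cast hpK), if_neg (by simpa using hodd)]
  simp

omit E in
lemma leadingCoeff_preΨ' {p : ℕ} (hodd : Odd p) (hpK : (p : K) ≠ 0) :
    ((Wc D M).preΨ (p : ℤ)).leadingCoeff = (p : K) := by
  rw [(Wc D M).leadingCoeff_preΨ (by exact_mod_cast hpK), if_neg (by simpa using hodd)]
  simp

include E in
/-- **COR A1**. -/
theorem card_torsion_le (h2 : (2 : K) ≠ 0) {p : ℕ} (hp : p.Prime) (hodd : Odd p)
    (hpK : (p : K) ≠ 0) :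
    Finite {T : G // p • T = 0} ∧ Nat.card {T : G // p • T = 0} ≤ p ^ 2 := by
  classical
  set ψ := (Wc D M).preΨ (p : ℤ) with hψ
  have hψ0 : ψ ≠ 0 := preΨ_ne_zero' hpK
  set R : Finset K := ψ.roots.toFinset with hR
  have hRcard : R.card ≤ (p ^ 2 - 1) / 2 := by
    calc R.card ≤ Multiset.card ψ.roots := Multiset.toFinset_card_le _
      _ ≤ ψ.natDegree := ψ.card_roots'
      _ = (p ^ 2 - 1) / 2 := natDegree_preΨ' hodd hpK
  let rep : K → G := fun x => if h : ∃ T : G, T ≠ 0 ∧ E.X T = x then h.choose else 0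
  have hrep : ∀ T : G, T ≠ 0 → rep (E.X T) ≠ 0 ∧ E.X (rep (E.X T)) = E.X T := by
    intro T hT
    have h : ∃ T' : G, T' ≠ 0 ∧ E.X T' = E.X T := ⟨T, hT, rfl⟩
    simp only [rep, dif_pos h]
    exact h.choose_spec
  let g : G → Option (K × Bool) := fun T =>
    if T = 0 then none else some (E.X T, decide (T = rep (E.X T)))
  let t : Finset (Option (K × Bool)) := Finset.insertNone (R ×ˢ (Finset.univ : Finset Bool))
  let S : Set G := {T | p • T = 0}
  have hmaps : ∀ T ∈ S, g T ∈ (t : Set (Option (K × Bool))) := by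
    intro T hT
    by_cases h0 : T = 0
    · simp [g, h0, t]
    · have : E.X T ∈ R := by
        rw [hR, Multiset.mem_toFinset, mem_roots hψ0]
        exact eval_preΨ_eq_zero E h2 hp hodd h0 hT
      simp [g, h0, t, this]
  have hinj : Set.InjOn g S := by
    intro T hT T' hT' h
    by_cases h0 : T = 0 <;> by_cases h0' : T' = 0
    · rw [h0, h0']
    · simp [g, h0, h0'] at h
    · simp [g, h0, h0'] at h
    · simp only [g, if_neg h0, if_neg h0', Option.some.injEq, Prod.mk.injEq] at h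
      obtain ⟨hx, hb⟩ := h
      obtain ⟨hr0, hrx⟩ := hrep T h0
      by_cases hTr : T = rep (E.X T)
      · have : T' = rep (E.X T') := by
          have := hb.symm ▸ (decide_eq_true hTr)
          exact of_decide_eq_true this
        rw [hTr, this, hx]
      · have hT'r : T' ≠ rep (E.X T') := by
          intro h'
          have : decide (T = rep (E.X T)) = true := hb ▸ (decide_eq_true h')
          exact hTr (of_decide_eq_true this)
        have e1 : T = - rep (E.X T) := (E.eq_or_eq_neg h0 hr0 hrx.symm).resolve_left hTr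
        obtain ⟨hr0', hrx'⟩ := hrep T' h0'
        have e2 : T' = - rep (E.X T') := (E.eq_or_eq_neg h0' hr0' hrx'.symm).resolve_left hT'r
        rw [e1, e2, hx]
  have hfin : S.Finite := Set.Finite.of_injOn hmaps hinj t.finite_toSet
  refine ⟨hfin.to_subtype, ?_⟩
  have h1 : S.ncard ≤ (t : Set (Option (K × Bool))).ncard :=
    Set.ncard_le_ncard_of_injOn g hmaps hinj t.finite_toSet
  rw [Set.ncard_coe_finset] at h1
  have h3 : t.card = R.card * 2 + 1 := by
    simp [t, Finset.card_insertNone, Finset.card_product]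
  have h4 : Nat.card {T : G // p • T = 0} = S.ncard := rfl
  have h5 : 1 ≤ p ^ 2 := Nat.one_le_pow _ _ hp.pos
  rw [h4]
  omega

end cor

section cor2

variable {K : Type*} [Field K] {G : Type*} [AddCommGroup G] {D M : K} (E : XYModel K G D M)
  {Γ₀ : Type*} [LinearOrderedCommGroupWithZero Γ₀] (v : Valuation K Γ₀)

lemma val_preNormEDS'_odd (c d : K) (hc : v c = 1) :
    ∀ k, Odd k → v (preNormEDS' 0 c d k) = 1 := by
  intro k
  induction k using Nat.strong_induction_on with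
  | _ k ih =>
    intro hk
    obtain ⟨j, rfl⟩ := hk
    match j, ih with
    | 0, _ => simp
    | 1, _ => simpa using hc
    | (m + 2), ih =>
      rw [preNormEDS'_odd]
      by_cases hm : Even m
      · have h1 := ih (m + 1) (by omega) (Even.add_one hm)
        have h3 := ih (m + 3) (by omega) (by
          have : m + 3 = (m + 2) + 1 := rfl
          rw [this]; exact Even.add_one (hm.add even_two))
        simp [hm, h1, h3]
      · have hm' : Odd m := Nat.not_even_iff_odd.1 hm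
        have h4 := ih (m + 4) (by omega) (hm'.add_even (by decide))
        have h2 := ih (m + 2) (by omega) (hm'.add_even even_two)
        simp [hm, h4, h2]

/-- the value of `preΨ n` (`n` odd) at the `2`-torsion abscissa `-M` is a unit. -/
theorem val_eval_neg_M (hM : v M = 1) (hDM : v (D - M) = 1) {n : ℕ} (hodd : Odd n) :
    v (((Wc D M).preΨ (n : ℤ)).eval (-M)) = 1 := by
  have h := map_preNormEDS (evalRingHom (-M)) ((Wc D M).Ψ₂Sq ^ 2) (Wc D M).Ψ₃ (Wc D M).preΨ₄ (n : ℤ)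
  simp only [coe_evalRingHom, eval_pow] at h
  rw [WeierstrassCurve.preΨ, h, eval_Ψ₂Sq, preNormEDS_ofNat]
  have h0 : (4 * (-M * (-M + D) * (-M + M))) ^ 2 = (0 : K) := by ring
  rw [h0]
  apply val_preNormEDS'_odd v _ _ _ n hodd
  rw [eval_Ψ₃]
  have : 3 * (-M) ^ 4 + 4 * (D + M) * (-M) ^ 3 + 6 * D * M * (-M) ^ 2 - D ^ 2 * M ^ 2
      = - (M ^ 2 * (D - M) ^ 2) := by ring
  rw [this, Valuation.map_neg, map_mul, map_pow, map_pow, hM, hDM]
  simp

lemma val_multiset_prod_le_one (s : Multiset K) (h : ∀ a ∈ s, v a ≤ 1) : v s.prod ≤ 1 := by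
  induction s using Multiset.induction_on with
  | empty => simp
  | cons a s ih =>
    rw [Multiset.prod_cons]
    exact in_mul_in v (h a (Multiset.mem_cons_self a s))
      (ih fun b hb => h b (Multiset.mem_cons_of_mem hb))

/-- **COR A2**, first half: `preΨ p` has a non-integral root. -/
theorem exists_root_val_gt_one [IsAlgClosed K] {p : ℕ} (hvp : v (p : K) < 1) (hM : v M = 1)
    (hDM : v (D - M) = 1) (hD : v D ≤ 1) (hodd : Odd p) (hpK : (p : K) ≠ 0) :
    ∃ x0 : K, ((Wc D M).preΨ (p : ℤ)).eval x0 = 0 ∧ 1 < v x0 := by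
  by_contra hcon
  push Not at hcon
  have h1 := val_eval_neg_M v hM hDM hodd
  rw [(IsAlgClosed.splits ((Wc D M).preΨ (p : ℤ))).eval_eq_prod_roots, leadingCoeff_preΨ' hodd hpK]
    at h1
  have h2 : v ((((Wc D M).preΨ (p : ℤ)).roots.map (fun a => -M - a)).prod) ≤ 1 := by
    apply val_multiset_prod_le_one
    intro a ha
    obtain ⟨x, hx, rfl⟩ := Multiset.mem_map.1 ha
    have hx' : ((Wc D M).preΨ (p : ℤ)).eval x = 0 := (mem_roots (preΨ_ne_zero' hpK)).1 hx
    refine in_sub_in v ?_ (hcon x hx')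
    rw [Valuation.map_neg, hM]
  have h3 := sm_mul_in v hvp h2
  rw [h1] at h3
  exact lt_irrefl _ h3

lemma val_natCast_eq_one {p : ℕ} (hp : p.Prime) (hvp : v (p : K) < 1) (j : ℕ) (hj : 0 < j)
    (hjp : j < p) : v (j : K) = 1 := by
  have hcop : Nat.Coprime j p := (Nat.coprime_of_lt_prime hj.ne' hjp hp).symm
  obtain ⟨m, -, hm⟩ := Nat.exists_mul_mod_eq_one_of_coprime hcop hp.one_lt
  have h1 : j * m = p * (j * m / p) + 1 := by
    have := Nat.div_add_mod (j * m) p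
    omega
  have h2 : (j : K) * (m : K) = 1 + (p : K) * ((j * m / p : ℕ) : K) := by
    have := congrArg (Nat.cast : ℕ → K) h1
    push_cast at this ⊢
    linear_combination this
  have h3 : v ((j : K) * (m : K)) = 1 := by
    rw [h2]
    exact v.map_one_add_of_lt (sm_mul_in v hvp (in_natCast v _))
  rw [map_mul] at h3
  refine le_antisymm (in_natCast v j) ?_
  calc (1 : Γ₀) = v (j : K) * v (m : K) := h3.symm
    _ ≤ v (j : K) * 1 := mul_le_mul_right (in_natCast v m) _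
    _ = v (j : K) := mul_one _

/-- **COR A2**: existence of a nonzero `p`-torsion point (in the kernel of reduction). -/
theorem exists_torsion [IsAlgClosed K] (h2 : (2 : K) ≠ 0) {p : ℕ} (hp : p.Prime) (hodd : Odd p)
    (hpK : (p : K) ≠ 0) (hvp : v (p : K) < 1) (hM : v M = 1) (hDM : v (D - M) = 1) (hD : v D ≤ 1)
    (hsurj : ∀ x : K, ∃ P : G, P ≠ 0 ∧ E.X P = x) :
    ∃ T : G, T ≠ 0 ∧ p • T = 0 ∧ 1 < v (E.X T) := by
  obtain ⟨x0, hx0, hv⟩ := exists_root_val_gt_one (D := D) (M := M) v hvp hM hDM hD hodd hpK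
  obtain ⟨T, hT0, rfl⟩ := hsurj x0
  refine ⟨T, hT0, ?_, hv⟩
  refine (nsmul_eq_zero_iff E h2 hodd ?_ hT0).2 hx0
  intro j hj hjp h
  exact absurd (E.val_X_le_one_of_nsmul v hD hM.le h2 (val_natCast_eq_one v hp hvp j hj hjp) hT0 h)
    (not_le.2 hv)

end cor2

end Fermat.Agent.S13Aux
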