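import Mathlib
import Fermat.Prelude.Def_FLTPrelim_Ramification
import Fermat.Agent.S13.Global
import Fermat.Agent.S13.DivPoly
import Fermat.Agent.S05.Assembly

/-!
# S13 (C4c): rational products of Galois-stable sets of roots
-/

set_option autoImplicit false
set_option linter.unusedSectionVars false
set_option linter.unnecessarySimpa false

namespace Fermat.Agent.S13Aux

open Polynomial Fermat.Agent.S05Aux

local notation "Qb" => AlgebraicClosure ℚ

theorem exists_rat_prod (S : Finset Qb) (hS : ∀ σ : Qb ≃ₐ[ℚ] Qb, ∀ x ∈ S, σ x ∈ S) :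
    ∃ c : ℚ, algebraMap ℚ Qb c = ∏ x ∈ S, x := by
  classical
  apply exists_rat_of_fixed
  intro σ
  rw [map_prod]
  have himg : S.image σ = S := by
    apply Finset.eq_of_subset_of_card_le
    · intro y hy
      obtain ⟨x, hx, rfl⟩ := Finset.mem_image.1 hy
      exact hS σ x hx
    · rw [Finset.card_image_of_injective _ σ.injective]
  conv_rhs => rw [← himg]
  rw [Finset.prod_image (fun x _ y _ h => σ.injective h)]

section rat

variable {p : ℕ} (hp : p.Prime) (A : ValuationSubring Qb) (hA : A.LiesOverPrime p)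
include hp hA

lemma val_p_lt_one : A.valuation (p : Qb) < 1 := (ValuationSubring.mem_nonunits_iff A).1 hA

omit hp hA in
lemma rat_mul_den (c : ℚ) : algebraMap ℚ Qb c * ((c.den : ℤ) : Qb) = ((c.num : ℤ) : Qb) := by
  have h : c * (c.den : ℚ) = (c.num : ℚ) := Rat.mul_den_eq_num c
  have := congrArg (algebraMap ℚ Qb) h
  rw [map_mul, map_natCast, map_intCast] at this
  rw [← this]; push_cast; ring

lemma one_lt_val_rat_iff_dvd (c : ℚ) :
    1 < A.valuation (algebraMap ℚ Qb c) ↔ p ∣ c.den := by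
  have hmul : A.valuation (algebraMap ℚ Qb c) * A.valuation ((c.den : ℤ) : Qb)
      = A.valuation ((c.num : ℤ) : Qb) := by rw [← map_mul, rat_mul_den]
  constructor
  · intro h
    by_contra hnd
    have h1 : A.valuation ((c.den : ℤ) : Qb) = 1 :=
      valuation_intCast_eq_one A hp hA (by exact_mod_cast hnd)
    rw [h1, mul_one] at hmul
    rw [hmul] at h
    exact absurd (valuation_intCast_le_one A c.num) (not_le.2 h)
  · intro h
    have hnum : ¬ (p : ℤ) ∣ c.num := by
      intro h'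
      have h1 : p ∣ c.num.natAbs := Int.natCast_dvd.1 h'
      have := Nat.dvd_gcd h1 h
      rw [c.reduced.gcd_eq_one] at this
      exact hp.one_lt.ne' (Nat.dvd_one.1 this)
    rw [valuation_intCast_eq_one A hp hA hnum] at hmul
    obtain ⟨d, hd⟩ := h
    have hden : A.valuation ((c.den : ℤ) : Qb) < 1 := by
      rw [hd]; push_cast
      rw [map_mul]
      calc A.valuation (p : Qb) * A.valuation (d : Qb) ≤ A.valuation (p : Qb) * 1 :=
            mul_le_mul_right (by simpa using valuation_intCast_le_one A (d : ℤ)) _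
        _ = A.valuation (p : Qb) := mul_one _
        _ < 1 := val_p_lt_one hp A hA
    by_contra hle
    rw [not_lt] at hle
    have : A.valuation (algebraMap ℚ Qb c) * A.valuation ((c.den : ℤ) : Qb) < 1 :=
      calc _ ≤ 1 * A.valuation ((c.den : ℤ) : Qb) := mul_le_mul_left hle _
        _ = _ := one_mul _
        _ < 1 := hden
    rw [hmul] at this
    exact lt_irrefl _ this

theorem one_le_val_mul_of_rat (c : ℚ) (hc : 1 < A.valuation (algebraMap ℚ Qb c)) :
    1 ≤ A.valuation (algebraMap ℚ Qb c) * A.valuation (p : Qb) := by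
  have hmul : A.valuation (algebraMap ℚ Qb c) * A.valuation ((c.den : ℤ) : Qb)
      = A.valuation ((c.num : ℤ) : Qb) := by rw [← map_mul, rat_mul_den]
  have h := (one_lt_val_rat_iff_dvd hp A hA c).1 hc
  have hnum : ¬ (p : ℤ) ∣ c.num := by
    intro h'
    have h1 : p ∣ c.num.natAbs := Int.natCast_dvd.1 h'
    have := Nat.dvd_gcd h1 h
    rw [c.reduced.gcd_eq_one] at this
    exact hp.one_lt.ne' (Nat.dvd_one.1 this)
  rw [valuation_intCast_eq_one A hp hA hnum] at hmul
  obtain ⟨d, hd⟩ := h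
  rw [hd] at hmul
  push_cast at hmul
  rw [map_mul, ← mul_assoc] at hmul
  calc (1 : A.ValueGroup) = A.valuation (algebraMap ℚ Qb c) * A.valuation (p : Qb) * A.valuation (d : Qb) :=
        hmul.symm
    _ ≤ A.valuation (algebraMap ℚ Qb c) * A.valuation (p : Qb) * 1 :=
        mul_le_mul_right (by simpa using valuation_intCast_le_one A (d : ℤ)) _
    _ = _ := mul_one _

end rat

theorem one_lt_val_rat_iff {p : ℕ} (hp : p.Prime) (A A' : ValuationSubring Qb)
    (hA : A.LiesOverPrime p) (hA' : A'.LiesOverPrime p) (c : ℚ) :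
    1 < A.valuation (algebraMap ℚ Qb c) ↔ 1 < A'.valuation (algebraMap ℚ Qb c) := by
  rw [one_lt_val_rat_iff_dvd hp A hA, one_lt_val_rat_iff_dvd hp A' hA']

lemma one_lt_val_prod (A : ValuationSubring Qb) (S : Finset Qb) (hne : S.Nonempty)
    (h : ∀ x ∈ S, 1 < A.valuation x) : 1 < A.valuation (∏ x ∈ S, x) := by
  classical
  induction hne using Finset.Nonempty.cons_induction with
  | singleton a => simpa using h a (by simp)
  | cons a s ha hs ih =>
    rw [Finset.prod_cons, map_mul]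
    have h1 := h a (by simp)
    have h2 := ih (fun x hx => h x (by simp [hx]))
    calc (1 : A.ValueGroup) < A.valuation a := h1
      _ = A.valuation a * 1 := (mul_one _).symm
      _ ≤ A.valuation a * A.valuation (∏ x ∈ s, x) := mul_le_mul_right h2.le _

theorem not_forall_one_lt_val {p : ℕ} (hp : p.Prime) (A : ValuationSubring Qb)
    (hA : A.LiesOverPrime p) (ψ : Qb[X]) (hlc : ψ.leadingCoeff = (p : Qb))
    (h0 : A.valuation (ψ.eval 0) ≤ 1) (S₁ S₂ : Finset Qb) (hdisj : Disjoint S₁ S₂)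
    (hne₁ : S₁.Nonempty) (hne₂ : S₂.Nonempty) (hroot : ∀ x ∈ S₁ ∪ S₂, ψ.eval x = 0)
    (hcard : ψ.natDegree ≤ S₁.card + S₂.card)
    (hS₁ : ∀ σ : Qb ≃ₐ[ℚ] Qb, ∀ x ∈ S₁, σ x ∈ S₁)
    (hS₂ : ∀ σ : Qb ≃ₐ[ℚ] Qb, ∀ x ∈ S₂, σ x ∈ S₂) :
    ¬ ∀ x ∈ S₁ ∪ S₂, 1 < A.valuation x := by
  classical
  intro hall
  have hψ0 : ψ ≠ 0 := by
    intro h
    rw [h, leadingCoeff_zero] at hlc
    exact (Nat.cast_ne_zero.2 hp.ne_zero) hlc.symm
  have hle : (S₁ ∪ S₂).val ≤ ψ.roots := by
    rw [Multiset.le_iff_subset (S₁ ∪ S₂).nodup]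
    intro x hx
    exact (mem_roots hψ0).2 (hroot x hx)
  have hroots : (S₁ ∪ S₂).val = ψ.roots := by
    apply Multiset.eq_of_le_of_card_le hle
    calc Multiset.card ψ.roots ≤ ψ.natDegree := ψ.card_roots'
      _ ≤ S₁.card + S₂.card := hcard
      _ = (S₁ ∪ S₂).card := (Finset.card_union_of_disjoint hdisj).symm
  have heval := (IsAlgClosed.splits ψ).eval_eq_prod_roots 0
  rw [← hroots, hlc] at heval
  have hprod : ((S₁ ∪ S₂).val.map (fun a => (0 : Qb) - a)).prod = ∏ x ∈ S₁ ∪ S₂, (0 - x) := rfl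
  rw [hprod, Finset.prod_union hdisj] at heval
  obtain ⟨c₁, hc₁⟩ := exists_rat_prod S₁ hS₁
  obtain ⟨c₂, hc₂⟩ := exists_rat_prod S₂ hS₂
  have hv : ∀ S : Finset Qb, A.valuation (∏ x ∈ S, (0 - x)) = A.valuation (∏ x ∈ S, x) := by
    intro S
    rw [map_prod, map_prod]
    exact Finset.prod_congr rfl fun x _ => by rw [zero_sub, Valuation.map_neg]
  have h1 : 1 < A.valuation (algebraMap ℚ Qb c₁) := by
    rw [hc₁]; exact one_lt_val_prod A S₁ hne₁ fun x hx => hall x (Finset.mem_union_left _ hx)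
  have h2 : 1 < A.valuation (algebraMap ℚ Qb c₂) := by
    rw [hc₂]; exact one_lt_val_prod A S₂ hne₂ fun x hx => hall x (Finset.mem_union_right _ hx)
  have k1 := one_le_val_mul_of_rat hp A hA c₁ h1
  have hval : A.valuation (ψ.eval 0)
      = A.valuation (algebraMap ℚ Qb c₁) * A.valuation (p : Qb) * A.valuation (algebraMap ℚ Qb c₂) := by
    rw [heval, map_mul, map_mul, hv, hv, hc₁, hc₂, ← mul_assoc, mul_comm (A.valuation (p : Qb))]
  have : (1 : A.ValueGroup) < A.valuation (ψ.eval 0) := by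
    rw [hval]
    calc (1 : A.ValueGroup) < A.valuation (algebraMap ℚ Qb c₂) := h2
      _ = 1 * A.valuation (algebraMap ℚ Qb c₂) := (one_mul _).symm
      _ ≤ _ := mul_le_mul_left k1 _
  exact absurd h0 (not_le.2 this)

lemma val_intCast_le_one {K : Type*} [Field K] {Γ₀ : Type*} [LinearOrderedCommGroupWithZero Γ₀]
    (v : Valuation K Γ₀) (n : ℤ) : v (n : K) ≤ 1 := by
  obtain ⟨m, rfl | rfl⟩ := n.eq_nat_or_neg
  · simpa using in_natCast v m
  · simpa using in_natCast v m

theorem val_eval_zero_preΨ_le_one {K : Type*} [Field K] {Γ₀ : Type*}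
    [LinearOrderedCommGroupWithZero Γ₀] (v : Valuation K Γ₀) (D M : ℤ) (n : ℤ) :
    v (((Wc (D : K) (M : K)).preΨ n).eval 0) ≤ 1 := by
  have h : Wc (D : K) (M : K)
      = (⟨0, D + M, 0, D * M, 0⟩ : WeierstrassCurve ℤ).map (Int.castRingHom K) := by
    ext <;> simp [Wc]
  rw [h, WeierstrassCurve.map_preΨ, ← coeff_zero_eq_eval_zero, coeff_map]
  exact val_intCast_le_one v _

end Fermat.Agent.S13Aux
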