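import Fermat.Agent.S13.Shape
import Fermat.Agent.S13.Prod

/-!
# S13: Galois-stable subsets of the `p`-torsion: uniformity in `A` and (C4c)
-/

set_option autoImplicit false
set_option linter.unusedSectionVars false

namespace Fermat.Agent.S13Aux

open Fermat.Agent.S05Aux
open WeierstrassCurve WeierstrassCurve.Affine WeierstrassCurve.Affine.Point

local notation "Qb" => AlgebraicClosure ℚ

lemma one_le_prod_of_one_lt {Γ₀ : Type*} [LinearOrderedCommGroupWithZero Γ₀] {ι : Type*}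
    (S : Finset ι) (f : ι → Γ₀) (hf : ∀ i ∈ S, 1 < f i) : 1 ≤ ∏ i ∈ S, f i := by
  classical
  induction S using Finset.induction_on with
  | empty => simp
  | insert a S ha ih =>
    rw [Finset.prod_insert ha]
    exact one_le_mul (hf a (Finset.mem_insert_self a S)).le
      (ih fun i hi => hf i (Finset.mem_insert_of_mem hi))

lemma one_lt_prod_of_one_lt {Γ₀ : Type*} [LinearOrderedCommGroupWithZero Γ₀] {ι : Type*}
    (S : Finset ι) (hS : S.Nonempty) (f : ι → Γ₀) (hf : ∀ i ∈ S, 1 < f i) : 1 < ∏ i ∈ S, f i := by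
  classical
  obtain ⟨a, ha⟩ := hS
  rw [← Finset.mul_prod_erase S f ha]
  exact lt_of_lt_of_le (hf a ha) (le_mul_of_one_le_right'
    (one_le_prod_of_one_lt _ f fun i hi => hf i (Finset.mem_of_mem_erase hi)))

variable {W₀ : Affine ℚ} {p : ℕ} {r D M : ℤ} (h : Shape W₀ p r D M)
  (hp : p.Prime) (hp2 : p ≠ 2)
  (Nm : (W₀⁄Qb).Point → Prop)
  (hNst : ∀ (σ : Qb ≃ₐ[ℚ] Qb) (T : (W₀⁄Qb).Point), Nm T → Nm (σ • T))
  (hNtor : ∀ T, Nm T → p • T = 0)

include h hp hp2 in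
theorem finite_torsion : {T : (W₀⁄Qb).Point | p • T = 0}.Finite :=
  Set.finite_coe_iff.1 (h.card_torsion_le' hp hp2).1

open Classical in
/-- the finite set of `X`-coordinates of the torsion points satisfying `Q`. -/
noncomputable def xSet (Q : (W₀⁄Qb).Point → Prop) : Finset Qb :=
  ((finite_torsion h hp hp2).toFinset.filter Q).image (h.model Qb).X

lemma mem_xSet (Q : (W₀⁄Qb).Point → Prop) (x : Qb) :
    x ∈ xSet h hp hp2 Q ↔ ∃ T, p • T = 0 ∧ Q T ∧ (h.model Qb).X T = x := by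
  classical
  simp only [xSet, Finset.mem_image, Finset.mem_filter, Set.Finite.mem_toFinset, Set.mem_ofPred_eq,
    and_assoc]

omit hp hp2 in
lemma smul_torsion (σ : Qb ≃ₐ[ℚ] Qb) {T : (W₀⁄Qb).Point} (hT : p • T = 0) : p • (σ • T) = 0 := by
  rw [algEquiv_smul_def, ← map_nsmul, hT, _root_.map_zero]

lemma xSet_stable (Q : (W₀⁄Qb).Point → Prop)
    (hQ : ∀ (σ : Qb ≃ₐ[ℚ] Qb) (T : (W₀⁄Qb).Point), Q T → Q (σ • T))
    (σ : Qb ≃ₐ[ℚ] Qb) (x : Qb) (hx : x ∈ xSet h hp hp2 Q) : σ x ∈ xSet h hp hp2 Q := by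
  rw [mem_xSet] at hx ⊢
  obtain ⟨T, hT, hQT, rfl⟩ := hx
  exact ⟨σ • T, smul_torsion σ hT, hQ σ T hQT, h.model_X_smul σ T⟩

include hp hp2 hNst hNtor in
/-- Uniformity in `A`. -/
theorem exists_one_lt_of_forall (A A' : ValuationSubring Qb) (hA : A.LiesOverPrime p)
    (hA' : A'.LiesOverPrime p) (hne : ∃ T, Nm T ∧ T ≠ 0)
    (hall : ∀ T, Nm T → T ≠ 0 → 1 < A.valuation ((h.model Qb).X T)) :
    ∃ T, Nm T ∧ T ≠ 0 ∧ 1 < A'.valuation ((h.model Qb).X T) := by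
  set S := xSet h hp hp2 (fun T => Nm T ∧ T ≠ 0) with hS
  have hst : ∀ σ : Qb ≃ₐ[ℚ] Qb, ∀ x ∈ S, σ x ∈ S :=
    xSet_stable h hp hp2 _ fun σ T hT => ⟨hNst σ T hT.1, Shape.smul_ne_zero σ hT.2⟩
  obtain ⟨c, hc⟩ := exists_rat_prod S hst
  have hSne : S.Nonempty := by
    obtain ⟨T, h1, h2⟩ := hne
    exact ⟨_, (mem_xSet h hp hp2 _ _).2 ⟨T, hNtor T h1, ⟨h1, h2⟩, rfl⟩⟩
  have h1 : 1 < A.valuation (algebraMap ℚ Qb c) := by
    rw [hc, map_prod]
    refine one_lt_prod_of_one_lt S hSne _ ?_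
    intro x hx
    obtain ⟨T, -, ⟨h1, h2⟩, rfl⟩ := (mem_xSet h hp hp2 _ _).1 hx
    exact hall T h1 h2
  have h2 := (one_lt_val_rat_iff hp A A' hA hA' c).1 h1
  by_contra hcon
  push Not at hcon
  rw [hc, map_prod] at h2
  refine absurd h2 (not_lt.2 (Finset.prod_le_one' ?_))
  intro x hx
  obtain ⟨T, -, ⟨h1, h2⟩, rfl⟩ := (mem_xSet h hp hp2 _ _).1 hx
  exact hcon T h1 h2

include hp hp2 hNst in
/-- (C4c): the kernel of reduction is not the whole `p`-torsion if there is a Galois-stable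
proper nonzero subgroup. -/
theorem exists_not_InW (A : ValuationSubring Qb) (hA : A.LiesOverPrime p)
    (hN0 : Nm 0) (hNneg : ∀ T, Nm T → Nm (-T))
    (hne₁ : ∃ T, p • T = 0 ∧ Nm T ∧ T ≠ 0) (hne₂ : ∃ T, p • T = 0 ∧ ¬ Nm T)
    (hcard : Nat.card {T : (W₀⁄Qb).Point // p • T = 0} = p ^ 2) :
    ∃ T, p • T = 0 ∧ ¬ InW (h.model Qb) A.valuation T := by
  classical
  set E := h.model Qb with hE
  have hodd : Odd p := hp.odd_of_ne_two hp2
  have hpK : (p : Qb) ≠ 0 := Nat.cast_ne_zero.2 hp.ne_zero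
  set ψ := (Wc (D : Qb) (M : Qb)).preΨ (p : ℤ) with hψ
  set S₁ := xSet h hp hp2 (fun T => Nm T ∧ T ≠ 0) with hS₁
  set S₂ := xSet h hp hp2 (fun T => ¬ Nm T) with hS₂
  have hNst' : ∀ (σ : Qb ≃ₐ[ℚ] Qb) (T : (W₀⁄Qb).Point), ¬ Nm T → ¬ Nm (σ • T) := by
    intro σ T hT hσ
    apply hT
    have := hNst σ⁻¹ _ hσ
    rwa [← mul_smul, inv_mul_cancel, one_smul] at this
  have hmem : ∀ x ∈ S₁ ∪ S₂, ∃ T, p • T = 0 ∧ T ≠ 0 ∧ E.X T = x := by
    intro x hx
    rcases Finset.mem_union.1 hx with hx | hx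
    · obtain ⟨T, h1, ⟨-, h3⟩, h4⟩ := (mem_xSet h hp hp2 _ _).1 hx
      exact ⟨T, h1, h3, h4⟩
    · obtain ⟨T, h1, h2, h4⟩ := (mem_xSet h hp hp2 _ _).1 hx
      exact ⟨T, h1, fun h0 => h2 (h0 ▸ hN0), h4⟩
  have key := not_forall_one_lt_val hp A hA ψ (leadingCoeff_preΨ' hodd hpK)
    (val_eval_zero_preΨ_le_one A.valuation D M p) S₁ S₂ ?_ ?_ ?_ ?_ ?_
    (xSet_stable h hp hp2 _ fun σ T hT => ⟨hNst σ T hT.1, Shape.smul_ne_zero σ hT.2⟩)
    (xSet_stable h hp hp2 _ hNst')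
  · push Not at key
    obtain ⟨x, hx, hle⟩ := key
    obtain ⟨T, h1, h2, rfl⟩ := hmem x hx
    refine ⟨T, h1, ?_⟩
    rintro (h0 | h0)
    · exact h2 h0
    · exact absurd h0 (not_lt.2 hle)
  · -- disjoint
    rw [Finset.disjoint_left]
    intro x hx₁ hx₂
    obtain ⟨T, h1, ⟨h2, h3⟩, h4⟩ := (mem_xSet h hp hp2 _ _).1 hx₁
    obtain ⟨T', h1', h2', h4'⟩ := (mem_xSet h hp hp2 _ _).1 hx₂
    have hT'0 : T' ≠ 0 := fun h0 => h2' (h0 ▸ hN0)
    rcases E.eq_or_eq_neg hT'0 h3 (h4'.trans h4.symm) with rfl | rfl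
    · exact h2' h2
    · exact h2' (hNneg T h2)
  · obtain ⟨T, h1, h2, h3⟩ := hne₁
    exact ⟨_, (mem_xSet h hp hp2 _ _).2 ⟨T, h1, ⟨h2, h3⟩, rfl⟩⟩
  · obtain ⟨T, h1, h2⟩ := hne₂
    exact ⟨_, (mem_xSet h hp hp2 _ _).2 ⟨T, h1, h2, rfl⟩⟩
  · intro x hx
    obtain ⟨T, h1, h2, rfl⟩ := hmem x hx
    exact eval_preΨ_eq_zero E (Shape.two_ne_zero' Qb) hp hodd h2 h1
  · -- cardinality
    rw [hψ, natDegree_preΨ' hodd hpK]
    set tors := (finite_torsion h hp hp2).toFinset with htors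
    have hct : tors.card = p ^ 2 := by
      rw [← hcard, htors, ← Set.ncard_eq_toFinset_card _ (finite_torsion h hp hp2)]
      exact (Nat.card_coe_set_eq _).symm
    set U := tors.erase 0 with hU
    have h0mem : (0 : (W₀⁄Qb).Point) ∈ tors := by
      rw [htors, Set.Finite.mem_toFinset]
      exact (nsmul_zero p : p • (0 : (W₀⁄Qb).Point) = 0)
    have hcU : U.card = p ^ 2 - 1 := by rw [hU, Finset.card_erase_of_mem h0mem, hct]
    have hsub : U.image E.X ⊆ S₁ ∪ S₂ := by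
      intro x hx
      obtain ⟨T, hT, rfl⟩ := Finset.mem_image.1 hx
      have hT0 : T ≠ 0 := Finset.ne_of_mem_erase hT
      have hTt : p • T = 0 := by
        have := Finset.mem_of_mem_erase hT
        rwa [htors, Set.Finite.mem_toFinset] at this
      by_cases hN : Nm T
      · exact Finset.mem_union_left _ ((mem_xSet h hp hp2 _ _).2 ⟨T, hTt, ⟨hN, hT0⟩, rfl⟩)
      · exact Finset.mem_union_right _ ((mem_xSet h hp hp2 _ _).2 ⟨T, hTt, hN, rfl⟩)
    have hfib : U.card ≤ 2 * (U.image E.X).card := by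
      refine Finset.card_le_mul_card_image U 2 ?_
      intro a ha
      obtain ⟨T, hT, rfl⟩ := Finset.mem_image.1 ha
      have hT0 : T ≠ 0 := Finset.ne_of_mem_erase hT
      refine le_trans (Finset.card_le_card (t := {T, -T}) ?_) Finset.card_le_two
      intro T' hT'
      rw [Finset.mem_filter] at hT'
      have hT'0 : T' ≠ 0 := Finset.ne_of_mem_erase hT'.1
      rcases E.eq_or_eq_neg hT'0 hT0 hT'.2 with rfl | rfl <;> simp
    have h3 : (U.image E.X).card ≤ S₁.card + S₂.card :=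
      le_trans (Finset.card_le_card hsub) (Finset.card_union_le _ _)
    apply Nat.div_le_of_le_mul
    omega

end Fermat.Agent.S13Aux
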