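import Mathlib
import Fermat.Agent.S05.Kernel

/-!
# S13 (C2): `x`-only models with parameters `(c, β)` and the kernel of reduction

The `x`-coordinate of `y² + xy = x³ + a₂x² + a₄x` satisfies the laws below with `c = a₄`,
`β = b₂ = 1 + 4a₂`.  In contrast with `S05/Kernel.lean` nothing is assumed on `|2|`.
-/

set_option autoImplicit false
set_option linter.unusedSectionVars false

namespace Fermat.Agent.S13Aux

open Fermat.Agent.S05Aux

/-- `x`-only model. -/
structure XModel (K : Type*) [Field K] (G : Type*) [AddCommGroup G] (c β : K) where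
  x : G → K
  x_neg : ∀ P : G, x (-P) = x P
  eq_or_eq_neg : ∀ P Q : G, P ≠ 0 → Q ≠ 0 → x P = x Q → P = Q ∨ P = -Q
  mul_law : ∀ P Q : G, P ≠ 0 → Q ≠ 0 → x P ≠ x Q →
    x (P + Q) * x (P - Q) * (x P - x Q) ^ 2 = (x P * x Q - c) ^ 2
  add_law : ∀ P Q : G, P ≠ 0 → Q ≠ 0 → x P ≠ x Q →
    (x (P + Q) + x (P - Q)) * (x P - x Q) ^ 2 =
      2 * (x P + x Q) * (x P * x Q + c) + β * (x P * x Q)
  dbl : ∀ P : G, P ≠ 0 → 2 • P ≠ 0 →
    x (2 • P) * (x P * (4 * x P ^ 2 + β * x P + 4 * c)) = (x P ^ 2 - c) ^ 2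
  two_tor : ∀ P : G, P ≠ 0 → (2 • P = 0 ↔ x P * (4 * x P ^ 2 + β * x P + 4 * c) = 0)

/-- the `x`-only model `x = X / 4` attached to an `(X, Y)`-model. -/
noncomputable def _root_.Fermat.Agent.S05Aux.XYModel.toXModel {K : Type*} [Field K] {G : Type*}
    [AddCommGroup G] {D M : K} (E : XYModel K G D M) (h2 : (2 : K) ≠ 0) :
    XModel K G (D * M / 2 ^ 4) (D + M) where
  x P := E.X P / 2 ^ 2
  x_neg P := by rw [E.X_neg]
  eq_or_eq_neg P Q hP hQ h := by
    apply E.eq_or_eq_neg hP hQ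
    field_simp at h
    exact h
  mul_law P Q hP hQ h := by
    have hne : E.X P ≠ E.X Q := fun h' => h (by rw [h'])
    have := E.X_add_mul_X_sub hP hQ hne
    field_simp
    linear_combination this
  add_law P Q hP hQ h := by
    have hne : E.X P ≠ E.X Q := fun h' => h (by rw [h'])
    have := E.X_add_add_X_sub hP hQ hne
    field_simp
    linear_combination this
  dbl P hP h2P := by
    have hY : E.Y P ≠ 0 := fun h => h2P (E.two_nsmul_eq_zero_of_Y hP h)
    have h1 := E.X_two P hP hY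
    have h3 := E.eqn P hP
    field_simp
    linear_combination h1 - 4 * E.X (2 • P) * h3
  two_tor P hP := by
    have h3 := E.eqn P hP
    constructor
    · intro h2P
      have hY := E.Y_eq_zero_of_two_nsmul h2 h2P
      rw [hY] at h3
      field_simp
      linear_combination (-4 : K) * h3
    · intro h
      apply E.two_nsmul_eq_zero_of_Y hP
      field_simp at h
      have : E.Y P ^ 2 = 0 := by
        have h4 : (4 : K) ≠ 0 := by
          have : (4 : K) = 2 * 2 := by norm_num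
          rw [this]; exact mul_ne_zero h2 h2
        apply mul_left_cancel₀ h4
        linear_combination 4 * h3 + h
      exact pow_eq_zero_iff (two_ne_zero) |>.1 this

namespace XModel

variable {K : Type*} [Field K] {G : Type*} [AddCommGroup G] {c β : K} (E : XModel K G c β)
  {Γ₀ : Type*} [LinearOrderedCommGroupWithZero Γ₀] (v : Valuation K Γ₀)

lemma x_ne_of_ne {P Q : G} (hP : P ≠ 0) (hQ : Q ≠ 0) (h1 : P ≠ Q) (h2 : P ≠ -Q) :
    E.x P ≠ E.x Q := fun h => (E.eq_or_eq_neg P Q hP hQ h).elim h1 h2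

open Classical in
/-- `ξ_Q = x(P) / x(Q)`, and `0` if `Q = 0`. -/
noncomputable def xi (P Q : G) : K := if Q = 0 then 0 else E.x P / E.x Q

lemma xi_zero (P : G) : E.xi P 0 = 0 := if_pos rfl

lemma xi_of_ne {P Q : G} (hQ : Q ≠ 0) : E.xi P Q = E.x P / E.x Q := if_neg hQ

lemma xi_neg (P Q : G) : E.xi P (-Q) = E.xi P Q := by
  by_cases hQ : Q = 0
  · rw [hQ, neg_zero]
  · rw [E.xi_of_ne hQ, E.xi_of_ne (neg_ne_zero.2 hQ), E.x_neg]

section kernel
variable (hc : v c ≤ 1) (hβ : v β ≤ 1) {P : G} (hP : P ≠ 0) (hX : 1 < v (E.x P))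
include hc hβ hP hX

lemma dbl_kernel : (2 • P = 0 ∨ E.x (2 • P) ≠ 0) ∧ v (E.xi P (2 • P) - 4) < 1 := by
  set x := E.x P with hx
  have hx0 : x ≠ 0 := ne_zero_of_one_lt v hX
  set u := x⁻¹ with hu
  have hus : v u < 1 := val_inv_lt_one v hX
  have hui : v u ≤ 1 := hus.le
  have he : v (c * u ^ 2) < 1 := by
    rw [pow_two, ← mul_assoc]; exact in_mul_sm v (in_mul_in v hc hui) hus
  have h1e : v (1 - c * u ^ 2) = 1 := val_one_sub_of_sm v he
  by_cases h2P : 2 • P = 0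
  · refine ⟨Or.inl h2P, ?_⟩
    rw [h2P, E.xi_zero, zero_sub, Valuation.map_neg]
    have h := (E.two_tor P hP).1 h2P
    have h' : 4 * x ^ 2 + β * x + 4 * c = 0 := (mul_eq_zero.1 h).resolve_left hx0
    have h4 : (4 : K) = -(β * u + 4 * (c * u ^ 2)) := by
      rw [hu]
      field_simp
      linear_combination h'
    rw [h4, Valuation.map_neg]
    exact sm_add_sm v (in_mul_sm v hβ hus) (in_mul_sm v (in_ofNat v 4) he)
  have hdbl := E.dbl P hP h2P
  have ha0 : x ^ 2 - c ≠ 0 := by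
    have : x ^ 2 - c = x ^ 2 * (1 - c * u ^ 2) := by rw [hu]; field_simp
    rw [this]
    exact mul_ne_zero (pow_ne_zero 2 hx0) (fun h => by rw [h] at h1e; simp at h1e)
  have hX2 : E.x (2 • P) ≠ 0 := by
    intro h
    rw [h, zero_mul] at hdbl
    exact pow_ne_zero 2 ha0 hdbl.symm
  refine ⟨Or.inr hX2, ?_⟩
  rw [E.xi_of_ne h2P]
  have key : (x / E.x (2 • P) - 4) * (1 - c * u ^ 2) ^ 2 =
      β * u + 12 * (c * u ^ 2) - 4 * (c * u ^ 2) ^ 2 := by
    rw [hu]
    field_simp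
    linear_combination (-x) * hdbl
  refine sm_of_mul_unit v key (by rw [map_pow, h1e, one_pow]) ?_
  refine sm_sub_sm v (sm_add_sm v (in_mul_sm v hβ hus) (in_mul_sm v (in_ofNat v 12) he)) ?_
  refine in_mul_sm v (in_ofNat v 4) ?_
  rw [pow_two]; exact sm_mul_in v he he.le

lemma step_generic {Q : G} (hQ : Q ≠ 0) (hQX : v (E.x P) ≤ v (E.x Q)) (hne : E.x Q ≠ E.x P) :
    Q + P ≠ 0 ∧ E.x (Q + P) ≠ 0 ∧
      v (E.xi P (Q + P) + E.xi P (Q - P) - 2 - 2 * E.xi P Q) < 1 := by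
  set x := E.x P with hx
  set x₁ := E.x Q with hx₁
  have hx0 : x ≠ 0 := ne_zero_of_one_lt v hX
  have hX₁ : 1 < v x₁ := lt_of_lt_of_le hX hQX
  have hx₁0 : x₁ ≠ 0 := ne_zero_of_one_lt v hX₁
  set u := x⁻¹ with hu
  set w := x₁⁻¹ with hw
  have hus : v u < 1 := val_inv_lt_one v hX
  have hws : v w < 1 := val_inv_lt_one v hX₁
  have hxi : v (x / x₁) ≤ 1 := by
    rw [map_div₀]
    exact div_le_one_of_le₀ hQX zero_le
  have he : v (c * u * w) < 1 := in_mul_sm v (in_mul_in v hc hus.le) hws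
  have h1e : v (1 - c * u * w) = 1 := val_one_sub_of_sm v he
  have ha0 : x₁ * x - c ≠ 0 := by
    have : x₁ * x - c = x₁ * x * (1 - c * u * w) := by rw [hu, hw]; field_simp
    rw [this]
    exact mul_ne_zero (mul_ne_zero hx₁0 hx0) (fun h => by rw [h] at h1e; simp at h1e)
  have F3 := E.mul_law Q P hQ hP hne
  have F4 := E.add_law Q P hQ hP hne
  have hp0 : Q + P ≠ 0 := by
    intro h
    apply hne
    rw [hx₁, eq_neg_of_add_eq_zero_left h, E.x_neg]
  have hm0 : Q - P ≠ 0 := by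
    intro h
    apply hne
    rw [hx₁, sub_eq_zero.1 h]
  have hprod : E.x (Q + P) * E.x (Q - P) ≠ 0 := by
    intro h
    rw [h, zero_mul] at F3
    exact pow_ne_zero 2 ha0 F3.symm
  have hxp : E.x (Q + P) ≠ 0 := left_ne_zero_of_mul hprod
  have hxm : E.x (Q - P) ≠ 0 := right_ne_zero_of_mul hprod
  refine ⟨hp0, hxp, ?_⟩
  rw [E.xi_of_ne hp0, E.xi_of_ne hm0, E.xi_of_ne hQ]
  have key : (x / E.x (Q + P) + x / E.x (Q - P) - 2 - 2 * (x / x₁)) * (1 - c * u * w) ^ 2 =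
      2 * ((1 + x / x₁) * (3 * (c * u * w) - (c * u * w) ^ 2)) + β * w := by
    rw [hu, hw]
    field_simp
    linear_combination (x * x₁ * (E.x (Q + P) * E.x (Q - P))) * F4
      - (x * x₁ * (E.x (Q + P) + E.x (Q - P))) * F3
  refine sm_of_mul_unit v key (by rw [map_pow, h1e, one_pow]) ?_
  refine sm_add_sm v (in_mul_sm v (in_ofNat v 2) (in_mul_sm v (in_add_in v (by simp) hxi) ?_)) ?_
  · refine sm_sub_sm v (in_mul_sm v (in_ofNat v 3) he) ?_
    rw [pow_two]; exact sm_mul_in v he he.le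
  · exact in_mul_sm v hβ hws

lemma xi_self : E.xi P P = 1 := by
  rw [E.xi_of_ne hP, div_self (ne_zero_of_one_lt v hX)]

lemma step {Q : G} (hQ : Q = 0 ∨ v (E.x P) ≤ v (E.x Q)) :
    (Q + P = 0 ∨ E.x (Q + P) ≠ 0) ∧
      v (E.xi P (Q + P) + E.xi P (Q - P) - 2 - 2 * E.xi P Q) < 1 := by
  have hself := E.xi_self v hc hβ hP hX
  have hx0 : E.x P ≠ 0 := ne_zero_of_one_lt v hX
  obtain ⟨hX2, hdbl⟩ := E.dbl_kernel v hc hβ hP hX
  by_cases hQ0 : Q = 0
  · subst hQ0
    refine ⟨Or.inr (by rwa [zero_add]), ?_⟩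
    rw [zero_add, zero_sub, E.xi_neg, hself, E.xi_zero]
    norm_num
  have hQX := hQ.resolve_left hQ0
  by_cases hne : E.x Q = E.x P
  · rcases E.eq_or_eq_neg Q P hQ0 hP hne with rfl | rfl
    · rw [← two_nsmul, sub_self, E.xi_zero, hself]
      refine ⟨hX2, ?_⟩
      have : E.xi Q (2 • Q) + 0 - 2 - 2 * 1 = E.xi Q (2 • Q) - 4 := by ring
      rwa [this]
    · refine ⟨Or.inl (neg_add_cancel P), ?_⟩
      have h1 : -P - P = -(2 • P) := by rw [two_nsmul]; abel
      rw [neg_add_cancel, E.xi_zero, h1, E.xi_neg, E.xi_neg, hself]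
      have : 0 + E.xi P (2 • P) - 2 - 2 * 1 = E.xi P (2 • P) - 4 := by ring
      rwa [this]
  · obtain ⟨-, h2, h3⟩ := E.step_generic v hc hβ hP hX hQ0 hQX hne
    exact ⟨Or.inr h2, h3⟩

lemma kernel_induction (k : ℕ) :
    ((k • P = 0 ∨ v (E.x P) ≤ v (E.x (k • P))) ∧ v (E.xi P (k • P) - (k : K) ^ 2) < 1) ∧
    (((k + 1) • P = 0 ∨ v (E.x P) ≤ v (E.x ((k + 1) • P))) ∧
      v (E.xi P ((k + 1) • P) - ((k + 1 : ℕ) : K) ^ 2) < 1) := by
  induction k with
  | zero =>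
    refine ⟨⟨Or.inl (zero_nsmul P), ?_⟩, ⟨Or.inr (by rw [zero_add, one_nsmul]), ?_⟩⟩
    · rw [zero_nsmul, E.xi_zero]; simp
    · rw [zero_add, one_nsmul, E.xi_self v hc hβ hP hX]; simp
  | succ k ih =>
    obtain ⟨⟨h0a, h0b⟩, ⟨h1a, h1b⟩⟩ := ih
    refine ⟨⟨h1a, h1b⟩, ?_⟩
    obtain ⟨hs1, hs2⟩ := E.step v hc hβ hP hX h1a
    have e1 : (k + 1) • P + P = (k + 1 + 1) • P := (succ_nsmul P (k + 1)).symm
    have e2 : (k + 1) • P - P = k • P := by rw [succ_nsmul]; abel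
    rw [e1, e2] at hs2
    rw [e1] at hs1
    have hsm : v (E.xi P ((k + 1 + 1) • P) - ((k + 1 + 1 : ℕ) : K) ^ 2) < 1 := by
      have : E.xi P ((k + 1 + 1) • P) - ((k + 1 + 1 : ℕ) : K) ^ 2 =
          (E.xi P ((k + 1 + 1) • P) + E.xi P (k • P) - 2 - 2 * E.xi P ((k + 1) • P))
          - (E.xi P (k • P) - (k : K) ^ 2)
          + 2 * (E.xi P ((k + 1) • P) - ((k + 1 : ℕ) : K) ^ 2) := by
        push_cast; ring
      rw [this]
      exact sm_add_sm v (sm_sub_sm v hs2 h0b) (in_mul_sm v (in_ofNat v 2) h1b)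
    refine ⟨?_, hsm⟩
    rcases hs1 with hs1 | hs1
    · exact Or.inl hs1
    · by_cases h0 : (k + 1 + 1) • P = 0
      · exact Or.inl h0
      · right
        have hin : v (E.xi P ((k + 1 + 1) • P)) ≤ 1 := by
          have : E.xi P ((k + 1 + 1) • P) =
              (E.xi P ((k + 1 + 1) • P) - ((k + 1 + 1 : ℕ) : K) ^ 2) + ((k + 1 + 1 : ℕ) : K) ^ 2 := by
            ring
          rw [this]
          exact in_add_in v hsm.le (in_pow v (in_natCast v _) 2)
        rw [E.xi_of_ne h0, map_div₀] at hin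
        have hpos : 0 < v (E.x ((k + 1 + 1) • P)) := by
          rw [Valuation.pos_iff]; exact hs1
        exact (div_le_one₀ hpos).1 hin

end kernel

/-- (G1): a nonzero point killed by `n` with `|n| = 1` has `|x| ≤ 1`. -/
theorem val_x_le_one_of_nsmul (hc : v c ≤ 1) (hβ : v β ≤ 1) {n : ℕ}
    (hn : v (n : K) = 1) {T : G} (hT0 : T ≠ 0) (hT : n • T = 0) : v (E.x T) ≤ 1 := by
  by_contra hX
  rw [not_le] at hX
  have h := (E.kernel_induction v hc hβ hT0 hX n).1.2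
  rw [hT, E.xi_zero, zero_sub, Valuation.map_neg, map_pow, hn, one_pow] at h
  exact lt_irrefl _ h

end XModel

end Fermat.Agent.S13Aux
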