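import Mathlib
import Fermat.Agent.S05.Tropical
import Fermat.Agent.S13.XModel

/-!
# S13 (C2): the tropical group law for `x`-only `(c, β)`-models

Adaptation of `S05/Tropical.lean` (helper2) to `x`-only models, without any hypothesis on `|2|`.
-/

set_option autoImplicit false

namespace Fermat.Agent.S13Aux

open Fermat.Agent.S05Aux

section Trop

variable {K : Type*} [Field K] {Γ₀ : Type*} [LinearOrderedCommGroupWithZero Γ₀]
  {v : Valuation K Γ₀} {c β : K}

/-- hypotheses for the case of multiplicative reduction (nothing is assumed on `|2|`). -/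
structure BadHyp2 (v : Valuation K Γ₀) (c β : K) : Prop where
  vβ : v β = 1
  vc : v c < 1
  c0 : c ≠ 0

namespace BadHyp2

variable (H : BadHyp2 v c β)
include H

lemma vc_ne : v c ≠ 0 := (v.ne_zero_iff).2 H.c0

lemma vc_pos : 0 < v c := zero_lt_iff.2 H.vc_ne

lemma v_term2 (X₁ X₂ : K) : v (β * (X₁ * X₂)) = v X₁ * v X₂ := by
  rw [map_mul, map_mul, H.vβ, one_mul]

omit H in
lemma v_term1_le (X₁ X₂ : K) :
    v (2 * (X₁ + X₂) * (X₁ * X₂ + c)) ≤ v (X₁ + X₂) * v (X₁ * X₂ + c) := by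
  rw [map_mul, map_mul]
  exact mul_le_mul' (mul_le_of_le_one_left' (in_ofNat v 2)) le_rfl

end BadHyp2

/-- auxiliary: both roots have value `≥ 1`. -/
lemma trop_aux_one_le {r₁ r₂ : K} {m γ : Γ₀} (hm0 : m ≠ 0) (hm : m ≤ γ)
    (hP : v r₁ * v r₂ * m ^ 2 = γ ^ 2) (hS : v (r₁ + r₂) * m ^ 2 ≤ γ ^ 2) :
    1 ≤ v r₁ ∧ 1 ≤ v r₂ := by
  have hm2 : 0 < m ^ 2 := pow_pos (zero_lt_iff.2 hm0) 2
  apply np_one_le
  · exact le_of_mul_le_mul_right (by rw [hP]; exact hS) hm2
  · apply le_of_mul_le_mul_right _ hm2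
    rw [hP, one_mul]
    exact pow_le_pow_left₀ zero_le hm 2

/-- the "second root": `ρ * (a b) = t ^ 2` with `t = v (X₁ X₂ - D M)`. -/
lemma trop_second_root (H : BadHyp2 v c β) {Z : K} {ρ : Γ₀} (hZ1 : v c ^ 2 < v Z) (hZ2 : v Z < 1)
    (hρ : ρ * v Z = v (Z - c) ^ 2) : Rel (v c) (clamp (v c) ρ) (v Z) := by
  have hδ := H.vc_pos
  have hδ1 := H.vc.le
  have hZ0 : 0 < v Z := lt_of_le_of_lt zero_le hZ1
  rcases lt_trichotomy (v Z) (v c) with h | h | h
  · -- `t = δ`, `ρ = δ ^ 2 / (a b)`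
    rw [v.map_sub_eq_of_lt_right h] at hρ
    have h1 : v c ≤ ρ := by
      apply le_of_mul_le_mul_right _ hZ0
      rw [hρ, pow_two]
      exact mul_le_mul' le_rfl h.le
    have h2 : ρ ≤ 1 := by
      apply le_of_mul_le_mul_right _ hZ0
      rw [hρ, one_mul]
      exact hZ1.le
    rw [clamp_of_mem h1 h2]
    exact Rel.of_mul_eq hZ0.ne' hρ
  · -- `t ≤ δ`
    have h1 : v (Z - c) ≤ v c := v.map_sub_le h.le le_rfl
    have h2 : ρ ≤ v c := by
      apply le_of_mul_le_mul_right _ hZ0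
      rw [hρ, h, ← pow_two]
      exact pow_le_pow_left₀ zero_le h1 2
    rw [clamp_of_le hδ1 h2, h]
    exact Rel.refl _ _
  · -- `t = a b`
    rw [v.map_sub_eq_of_lt_left h, pow_two] at hρ
    have h1 : ρ = v Z := mul_right_cancel₀ hZ0.ne' hρ
    rw [h1, clamp_of_mem h.le hZ2.le]
    exact Rel.refl _ _

lemma trop_add_aux (H : BadHyp2 v c β) {X₁ X₂ r₁ r₂ : K} (hne : X₁ ≠ X₂)
    (hab : v X₁ ≤ v X₂) (hb : v X₂ ≤ 1)
    (hP : r₁ * r₂ * (X₁ - X₂) ^ 2 = (X₁ * X₂ - c) ^ 2)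
    (hS : (r₁ + r₂) * (X₁ - X₂) ^ 2 =
      2 * (X₁ + X₂) * (X₁ * X₂ + c) + β * (X₁ * X₂)) :
    PairRel (v c) (clamp (v c) (v r₁)) (clamp (v c) (v r₂))
      (clamp (v c) (v X₁) * clamp (v c) (v X₂)) (clamp (v c) (v X₁) / clamp (v c) (v X₂)) := by
  have hδ := H.vc_pos
  have hδ0 := H.vc_ne
  have hδ1 := H.vc.le
  have hm0 : v (X₁ - X₂) ≠ 0 := (v.ne_zero_iff).2 (sub_ne_zero.2 hne)
  have hm2 : 0 < v (X₁ - X₂) ^ 2 := pow_pos (zero_lt_iff.2 hm0) 2
  have hP' : v r₁ * v r₂ * v (X₁ - X₂) ^ 2 = v (X₁ * X₂ - c) ^ 2 := by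
    have := congrArg v hP
    simpa only [map_mul, map_pow] using this
  have hS' : v (r₁ + r₂) * v (X₁ - X₂) ^ 2 =
      v (2 * (X₁ + X₂) * (X₁ * X₂ + c) + β * (X₁ * X₂)) := by
    have := congrArg v hS
    rw [map_mul, map_pow] at this
    exact this
  have h2le : ∀ z : K, v (2 * z) ≤ v z := fun z => by
    rw [map_mul]; exact mul_le_of_le_one_left' (in_ofNat v 2)
  have hT2 := H.v_term2 X₁ X₂
  have hXX : v (X₁ * X₂) = v X₁ * v X₂ := map_mul _ _ _
  by_cases hbδ : v X₂ ≤ v c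
  · -- Case 1 : `a ≤ b ≤ δ`
    have haδ := hab.trans hbδ
    have hlt : v (X₁ * X₂) < v c := by
      rw [hXX]
      calc v X₁ * v X₂ ≤ v c * v c := mul_le_mul' haδ hbδ
        _ < v c := mul_lt_of_lt_one_right hδ H.vc
    have ht : v (X₁ * X₂ - c) = v c := by rw [v.map_sub_eq_of_lt_right hlt]
    have ht' : v (X₁ * X₂ + c) = v c := by rw [v.map_add_eq_of_lt_right hlt]
    have hn : v (2 * (X₁ + X₂) * (X₁ * X₂ + c) + β * (X₁ * X₂)) ≤ v c ^ 2 := by
      apply v.map_add_le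
      · rw [map_mul, ht', pow_two]
        exact mul_le_mul' ((h2le _).trans (v.map_add_le haδ hbδ)) le_rfl
      · rw [hT2, pow_two]
        exact mul_le_mul' haδ hbδ
    obtain ⟨h1, h2⟩ := trop_aux_one_le hm0 (v.map_sub_le haδ hbδ) (by rw [hP', ht])
      (by rw [hS']; exact hn)
    rw [clamp_of_one_le hδ1 h1, clamp_of_one_le hδ1 h2, clamp_of_le hδ1 haδ, clamp_of_le hδ1 hbδ]
    refine Or.inl ⟨⟨-1, Or.inl ?_⟩, Rel.of_eq (div_self hδ0).symm⟩
    rw [← pow_two, ← zpow_ofNat, ← zpow_add₀ hδ0]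
    simp
  rw [not_le] at hbδ
  rcases hb.lt_or_eq with hb1 | hb1
  swap
  · rcases (hab.trans hb).lt_or_eq with ha1 | ha1
    swap
    · -- Case 2 : `a = b = 1`
      have hlt : v c < v (X₁ * X₂) := by rw [hXX, ha1, hb1, one_mul]; exact H.vc
      have ht : v (X₁ * X₂ - c) = 1 := by
        rw [v.map_sub_eq_of_lt_left hlt, hXX, ha1, hb1, one_mul]
      have ht' : v (X₁ * X₂ + c) = 1 := by
        rw [v.map_add_eq_of_lt_left hlt, hXX, ha1, hb1, one_mul]
      have hn : v (2 * (X₁ + X₂) * (X₁ * X₂ + c) + β * (X₁ * X₂)) ≤ 1 ^ 2 := by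
        rw [one_pow]
        apply v.map_add_le
        · rw [map_mul, ht', mul_one]
          exact (h2le _).trans (v.map_add_le ha1.le hb1.le)
        · rw [hT2, ha1, hb1, one_mul]
      obtain ⟨h1, h2⟩ := trop_aux_one_le hm0 (v.map_sub_le ha1.le hb1.le) (by rw [hP', ht])
        (by rw [hS']; exact hn)
      rw [clamp_of_one_le hδ1 h1, clamp_of_one_le hδ1 h2, clamp_of_one_le hδ1 ha1.ge,
        clamp_of_one_le hδ1 hb1.ge]
      exact Or.inl ⟨Rel.of_eq (by simp), Rel.of_eq (by simp)⟩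
    · -- Case 3 : `a < b = 1`
      have hm : v (X₁ - X₂) = 1 := by rw [v.map_sub_eq_of_lt_right (by rw [hb1]; exact ha1), hb1]
      rw [hm, one_pow, mul_one] at hP' hS'
      have hca : clamp (v c) (v X₁) = max (v c) (v X₁) := by rw [clamp, min_eq_right ha1.le]
      have hn : v (2 * (X₁ + X₂) * (X₁ * X₂ + c) + β * (X₁ * X₂)) ≤
          max (v c) (v X₁) := by
        apply v.map_add_le
        · rw [map_mul]
          calc v (2 * (X₁ + X₂)) * v (X₁ * X₂ + c) ≤ 1 * max (v c) (v X₁) := by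
                apply mul_le_mul' ((h2le _).trans (v.map_add_le ha1.le hb1.le))
                apply v.map_add_le
                · rw [hXX, hb1, mul_one]; exact le_max_right _ _
                · exact le_max_left _ _
            _ = _ := one_mul _
        · rw [hT2, hb1, mul_one]; exact le_max_right _ _
      have hmain : clamp (v c) (v r₁) = max (v c) (v X₁) ∧
          clamp (v c) (v r₂) = max (v c) (v X₁) := by
        rcases eq_or_ne (v X₁) (v c) with hE | hE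
        · have ht : v (X₁ * X₂ - c) ≤ v c :=
            v.map_sub_le (by rw [hXX, hb1, mul_one, hE]) le_rfl
          rw [hE, max_self] at hn ⊢
          obtain ⟨h1, h2⟩ := np_le_of_le v (γ := v c) (by rw [hS']; exact hn)
            (by rw [hP']; exact pow_le_pow_left₀ zero_le ht 2)
          exact ⟨clamp_of_le hδ1 h1, clamp_of_le hδ1 h2⟩
        · have ht : v (X₁ * X₂ - c) = max (v c) (v X₁) := by
            rcases hE.lt_or_gt with h | h
            · rw [v.map_sub_eq_of_lt_right (by rw [hXX, hb1, mul_one]; exact h),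
                max_eq_left h.le]
            · rw [v.map_sub_eq_of_lt_left (by rw [hXX, hb1, mul_one]; exact h), hXX, hb1,
                mul_one, max_eq_right h.le]
          rw [ht] at hP'
          have h12 : v r₁ = v r₂ := np_le v (by
            rw [hP', hS']; exact pow_le_pow_left₀ zero_le hn 2)
          have h1 : v r₁ = max (v c) (v X₁) := by
            rw [← h12, ← pow_two] at hP'
            exact (pow_left_inj₀ zero_le zero_le two_ne_zero).1 hP'
          have h3 : max (v c) (v X₁) ≤ 1 := max_le hδ1 ha1.le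
          rw [← h12, h1]
          exact ⟨clamp_of_mem (le_max_left _ _) h3, clamp_of_mem (le_max_left _ _) h3⟩
      rw [hmain.1, hmain.2, hca, clamp_of_one_le hδ1 hb1.ge]
      exact Or.inl ⟨Rel.of_eq (by simp), Rel.of_eq (by simp)⟩
  have hb0 : 0 < v X₂ := hδ.trans hbδ
  by_cases haδ : v X₁ ≤ v c
  · -- Case 4 : `a ≤ δ < b < 1`
    have halt : v X₁ < v X₂ := lt_of_le_of_lt haδ hbδ
    have hm : v (X₁ - X₂) = v X₂ := v.map_sub_eq_of_lt_right halt
    have hlt : v (X₁ * X₂) < v c := by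
      rw [hXX]
      calc v X₁ * v X₂ ≤ v c * v X₂ := mul_le_mul' haδ le_rfl
        _ < v c := mul_lt_of_lt_one_right hδ hb1
    have ht : v (X₁ * X₂ - c) = v c := by rw [v.map_sub_eq_of_lt_right hlt]
    have ht' : v (X₁ * X₂ + c) = v c := by rw [v.map_add_eq_of_lt_right hlt]
    have hn : v (2 * (X₁ + X₂) * (X₁ * X₂ + c) + β * (X₁ * X₂)) ≤ v X₂ * v c := by
      apply v.map_add_le
      · rw [map_mul, ht']
        exact mul_le_mul' ((h2le _).trans (v.map_add_le halt.le le_rfl)) le_rfl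
      · rw [hT2, mul_comm]
        exact mul_le_mul' le_rfl haδ
    rw [hm, ht] at hP'
    rw [hm] at hS' hm2
    have h12 : v r₁ = v r₂ := by
      apply np_le v
      apply le_of_mul_le_mul_right _ (mul_pos hm2 hm2)
      calc v (r₁ + r₂) ^ 2 * (v X₂ ^ 2 * v X₂ ^ 2) = (v (r₁ + r₂) * v X₂ ^ 2) ^ 2 := by simp only [pow_two]; ac_rfl
        _ ≤ (v X₂ * v c) ^ 2 := pow_le_pow_left₀ zero_le (by rw [hS']; exact hn) 2
        _ = v r₁ * v r₂ * v X₂ ^ 2 * v X₂ ^ 2 := by rw [hP']; simp only [pow_two]; ac_rfl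
        _ = v r₁ * v r₂ * (v X₂ ^ 2 * v X₂ ^ 2) := by simp only [pow_two]; ac_rfl
    have hρ : v r₁ * v X₂ = v c := by
      rw [← h12] at hP'
      apply (pow_left_inj₀ zero_le zero_le two_ne_zero).1
      rw [← hP']; simp only [pow_two]; ac_rfl
    have h1 : v c ≤ v r₁ := by
      by_contra h
      rw [not_le] at h
      have : v r₁ * v X₂ < v c := lt_of_le_of_lt (mul_le_of_le_one_right zero_le hb1.le) h
      exact absurd hρ this.ne
    have h2 : v r₁ ≤ 1 := by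
      by_contra h
      rw [not_le] at h
      have : v X₂ ≤ v r₁ * v X₂ := le_mul_of_one_le_left zero_le h.le
      rw [hρ] at this
      exact absurd this (not_le.2 hbδ)
    rw [← h12, clamp_of_mem h1 h2, clamp_of_le hδ1 haδ, clamp_of_mem hbδ.le hb1.le]
    refine Or.inl ⟨Rel.of_mul_eq (mul_pos hδ hb0).ne' ?_, Rel.of_eq (eq_div_of_mul_eq hb0.ne' hρ)⟩
    calc v r₁ * (v c * v X₂) = v c * (v r₁ * v X₂) := by ac_rfl
      _ = v c ^ 2 := by rw [hρ, pow_two]
  · -- Case 5 : `δ < a ≤ b < 1`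
    rw [not_le] at haδ
    have ha0 : 0 < v X₁ := hδ.trans haδ
    have ha1 : v X₁ < 1 := lt_of_le_of_lt hab hb1
    have hab0 : 0 < v X₁ * v X₂ := mul_pos ha0 hb0
    have hmb : v (X₁ - X₂) ≤ v X₂ := v.map_sub_le hab le_rfl
    have hT1 : v (2 * (X₁ + X₂) * (X₁ * X₂ + c)) < v X₁ * v X₂ := by
      rw [map_mul]
      have h1 : v (2 * (X₁ + X₂)) ≤ v X₂ := (h2le _).trans (v.map_add_le hab le_rfl)
      have h2 : v (X₁ * X₂ + c) < v X₁ := by
        apply v.map_add_lt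
        · rw [hXX]; exact mul_lt_of_lt_one_right ha0 hb1
        · exact haδ
      calc v (2 * (X₁ + X₂)) * v (X₁ * X₂ + c) ≤ v X₂ * v (X₁ * X₂ + c) := mul_le_mul' h1 le_rfl
        _ < v X₂ * v X₁ := mul_lt_mul_of_pos_left h2 hb0
        _ = v X₁ * v X₂ := mul_comm _ _
    have hn : v (2 * (X₁ + X₂) * (X₁ * X₂ + c) + β * (X₁ * X₂)) = v X₁ * v X₂ := by
      rw [v.map_add_eq_of_lt_right (by rw [hT2]; exact hT1), hT2]
    rw [hn] at hS'
    -- `t * m < a * b`
    have htm : v (X₁ * X₂ - c) * v (X₁ - X₂) < v X₁ * v X₂ := by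
      have h1 : v (X₁ * X₂ - c) < v X₁ := by
        apply v.map_sub_lt
        · rw [hXX]; exact mul_lt_of_lt_one_right ha0 hb1
        · exact haδ
      calc v (X₁ * X₂ - c) * v (X₁ - X₂) ≤ v (X₁ * X₂ - c) * v X₂ :=
            mul_le_mul' le_rfl hmb
        _ < v X₁ * v X₂ := mul_lt_mul_of_pos_right h1 hb0
    have hnp : v r₁ * v r₂ < v (r₁ + r₂) ^ 2 := by
      apply lt_of_mul_lt_mul_right _ (zero_le (a := v (X₁ - X₂) ^ 2 * v (X₁ - X₂) ^ 2))
      calc v r₁ * v r₂ * (v (X₁ - X₂) ^ 2 * v (X₁ - X₂) ^ 2)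
          = (v r₁ * v r₂ * v (X₁ - X₂) ^ 2) * v (X₁ - X₂) ^ 2 := by simp only [pow_two]; ac_rfl
        _ = (v (X₁ * X₂ - c) * v (X₁ - X₂)) ^ 2 := by rw [hP']; simp only [pow_two]; ac_rfl
        _ < (v X₁ * v X₂) ^ 2 := pow_lt_pow_left₀ htm zero_le two_ne_zero
        _ = (v (r₁ + r₂) * v (X₁ - X₂) ^ 2) ^ 2 := by rw [hS']
        _ = v (r₁ + r₂) ^ 2 * (v (X₁ - X₂) ^ 2 * v (X₁ - X₂) ^ 2) := by simp only [pow_two]; ac_rfl
    -- general statement for the two roots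
    have key : ∀ ρ₁ ρ₂ : Γ₀, ρ₁ * v (X₁ - X₂) ^ 2 = v X₁ * v X₂ →
        ρ₁ * ρ₂ * v (X₁ - X₂) ^ 2 = v (X₁ * X₂ - c) ^ 2 →
        Rel (v c) (clamp (v c) ρ₁) (v X₁ / v X₂) ∧ Rel (v c) (clamp (v c) ρ₂) (v X₁ * v X₂) := by
      intro ρ₁ ρ₂ h1 h2
      constructor
      · rcases hab.lt_or_eq with hlt | heq
        · have hm : v (X₁ - X₂) = v X₂ := v.map_sub_eq_of_lt_right hlt
          rw [hm] at h1
          have h3 : ρ₁ = v X₁ / v X₂ := by
            rw [eq_div_iff hb0.ne']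
            apply mul_right_cancel₀ hb0.ne'
            rw [← h1]; simp only [pow_two]; ac_rfl
          have h4 : v c ≤ v X₁ / v X₂ := by
            rw [le_div_iff₀ hb0]
            exact (mul_le_of_le_one_right zero_le hb1.le).trans haδ.le
          have h5 : v X₁ / v X₂ ≤ 1 := by
            rw [div_le_iff₀ hb0, one_mul]; exact hab
          rw [h3, clamp_of_mem h4 h5]
          exact Rel.refl _ _
        · have h3 : 1 ≤ ρ₁ := by
            apply le_of_mul_le_mul_right _ hm2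
            rw [h1, one_mul, heq, ← pow_two]
            exact pow_le_pow_left₀ zero_le hmb 2
          rw [clamp_of_one_le hδ1 h3, heq, div_self hb0.ne']
          exact Rel.refl _ _
      · rw [← hXX]
        apply trop_second_root H
        · rw [hXX, pow_two]
          exact mul_lt_mul'' haδ hbδ zero_le zero_le
        · rw [hXX]
          exact (mul_lt_of_lt_one_right ha0 hb1).trans ha1
        · rw [← h2, hXX, ← h1]; simp only [pow_two]; ac_rfl
    rw [clamp_of_mem haδ.le ha1.le, clamp_of_mem hbδ.le hb1.le]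
    rcases np_lt v hnp with ⟨h1, -⟩ | ⟨h1, -⟩
    · obtain ⟨k1, k2⟩ := key (v r₁) (v r₂) (by rw [h1, hS']) hP'
      exact Or.inr ⟨k1, k2⟩
    · obtain ⟨k1, k2⟩ := key (v r₂) (v r₁) (by rw [h1, hS']) (by rw [mul_comm (v r₂), hP'])
      exact Or.inl ⟨k2, k1⟩

lemma rel_one_sq (H : BadHyp2 v c β) : Rel (v c) 1 (v c * v c) := by
  refine ⟨-1, Or.inl ?_⟩
  rw [← pow_two, ← zpow_ofNat, ← zpow_add₀ H.vc_ne]
  simp

/-- The tropical addition law, at the level of valuations. -/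
lemma trop_add (H : BadHyp2 v c β) {X₁ X₂ r₁ r₂ : K} (hne : X₁ ≠ X₂)
    (ha : v X₁ ≤ 1) (hb : v X₂ ≤ 1)
    (hP : r₁ * r₂ * (X₁ - X₂) ^ 2 = (X₁ * X₂ - c) ^ 2)
    (hS : (r₁ + r₂) * (X₁ - X₂) ^ 2 =
      2 * (X₁ + X₂) * (X₁ * X₂ + c) + β * (X₁ * X₂)) :
    PairRel (v c) (clamp (v c) (v r₁)) (clamp (v c) (v r₂))
      (clamp (v c) (v X₁) * clamp (v c) (v X₂)) (clamp (v c) (v X₁) / clamp (v c) (v X₂)) := by
  rcases le_total (v X₁) (v X₂) with h | h
  · exact trop_add_aux H hne h hb hP hS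
  · have := trop_add_aux H hne.symm h ha (r₁ := r₁) (r₂ := r₂) (by rw [← sub_eq_zero] at hP ⊢; linear_combination hP)
      (by linear_combination hS)
    rw [mul_comm (clamp (v c) (v X₂))] at this
    rcases this with ⟨h1, h2⟩ | ⟨h1, h2⟩
    · exact Or.inl ⟨h1, by simpa using h2.inv_right⟩
    · exact Or.inr ⟨by simpa using h1.inv_right, h2⟩

/-- The tropical duplication law, at the level of valuations. -/
lemma trop_two (H : BadHyp2 v c β) {X r : K} (ha : v X ≤ 1)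
    (hW : X * (4 * X ^ 2 + β * X + 4 * c) ≠ 0)
    (hr : r * (X * (4 * X ^ 2 + β * X + 4 * c)) = (X ^ 2 - c) ^ 2) :
    Rel (v c) (clamp (v c) (v r)) (clamp (v c) (v X) * clamp (v c) (v X)) := by
  have hδ := H.vc_pos
  have hδ1 := H.vc.le
  have h4le : ∀ z : K, v (4 * z) ≤ v z := fun z => by
    rw [map_mul]; exact mul_le_of_le_one_left' (in_ofNat v 4)
  have hW0 : 0 < v (X * (4 * X ^ 2 + β * X + 4 * c)) := zero_lt_iff.2 ((v.ne_zero_iff).2 hW)
  have hr' : v r * v (X * (4 * X ^ 2 + β * X + 4 * c)) = v (X * X - c) ^ 2 := by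
    have := congrArg v hr
    rw [map_mul, map_pow] at this
    rw [this, pow_two X]
  have hXX : v (X * X) = v X * v X := map_mul _ _ _
  have hβX : v (β * X) = v X := by rw [map_mul, H.vβ, one_mul]
  by_cases haδ : v X ≤ v c
  · have hlt : v (X * X) < v c := by
      rw [hXX]
      calc v X * v X ≤ v c * v c := mul_le_mul' haδ haδ
        _ < v c := mul_lt_of_lt_one_right hδ H.vc
    rw [v.map_sub_eq_of_lt_right hlt] at hr'
    have hW2 : v (X * (4 * X ^ 2 + β * X + 4 * c)) ≤ v c ^ 2 := by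
      rw [map_mul, pow_two (v c)]
      refine mul_le_mul' haδ (v.map_add_le (v.map_add_le ?_ (by rw [hβX]; exact haδ)) (h4le c))
      refine (h4le _).trans ?_
      rw [pow_two]
      exact hlt.le
    have h1 : 1 ≤ v r := by
      apply le_of_mul_le_mul_right _ hW0
      rw [hr', one_mul]; exact hW2
    rw [clamp_of_one_le hδ1 h1, clamp_of_le hδ1 haδ]
    exact rel_one_sq H
  rw [not_le] at haδ
  have ha0 : 0 < v X := hδ.trans haδ
  rcases ha.lt_or_eq with ha1 | ha1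
  · have h1 : v (4 * X ^ 2 + β * X + 4 * c) = v X := by
      have e : 4 * X ^ 2 + β * X + 4 * c = (4 * X ^ 2 + 4 * c) + β * X := by ring
      rw [e, v.map_add_eq_of_lt_right, hβX]
      rw [hβX]
      refine v.map_add_lt ?_ (lt_of_le_of_lt (h4le c) haδ)
      refine lt_of_le_of_lt (h4le _) ?_
      rw [pow_two, hXX]
      exact mul_lt_of_lt_one_right ha0 ha1
    rw [map_mul, h1, ← hXX] at hr'
    rw [clamp_of_mem haδ.le ha1.le, ← hXX]
    apply trop_second_root H _ _ hr'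
    · rw [hXX, pow_two]; exact mul_lt_mul'' haδ haδ zero_le zero_le
    · rw [hXX]; exact (mul_lt_of_lt_one_right ha0 ha1).trans ha1
  · have hlt : v c < v (X * X) := by rw [hXX, ha1, one_mul]; exact H.vc
    rw [v.map_sub_eq_of_lt_left hlt, hXX, ha1, one_mul, one_pow] at hr'
    have hW2 : v (X * (4 * X ^ 2 + β * X + 4 * c)) ≤ 1 := by
      rw [map_mul, ha1, one_mul]
      refine v.map_add_le (v.map_add_le ?_ (by rw [hβX]; exact ha)) ((h4le c).trans hδ1)
      refine (h4le _).trans ?_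
      rw [map_pow, ha1, one_pow]
    have h1 : 1 ≤ v r := by
      apply le_of_mul_le_mul_right _ hW0
      rw [hr', one_mul]; exact hW2
    rw [clamp_of_one_le hδ1 h1, clamp_of_one_le hδ1 ha1.ge, one_mul]
    exact Rel.refl _ _

end Trop

section Points

variable {K : Type*} [Field K] {Γ₀ : Type*} [LinearOrderedCommGroupWithZero Γ₀]
  {v : Valuation K Γ₀} {c β : K} {G : Type*} [AddCommGroup G] (E : XModel K G c β)

open Classical in
/-- the tropical invariant of a point. -/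
noncomputable def XModel.ee (v : Valuation K Γ₀) (P : G) : Γ₀ :=
  if P = 0 then 1 else clamp (v c) (v (E.x P))

/-- the points for which we prove the tropical law. -/
def XModel.Good (v : Valuation K Γ₀) (P : G) : Prop :=
  P = 0 ∨ (v (E.x P) ≤ 1 ∧ 2 • P ≠ 0)

lemma XModel.ee_zero : E.ee v 0 = 1 := if_pos rfl

lemma XModel.ee_of_ne {P : G} (h : P ≠ 0) : E.ee v P = clamp (v c) (v (E.x P)) := if_neg h

lemma XModel.ee_neg (P : G) : E.ee v (-P) = E.ee v P := by
  by_cases h : P = 0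
  · rw [h, neg_zero]
  · rw [E.ee_of_ne h, E.ee_of_ne (neg_ne_zero.2 h), E.x_neg]

lemma XModel.ee_ne_zero (H : BadHyp2 v c β) (P : G) : E.ee v P ≠ 0 := by
  by_cases h : P = 0
  · rw [h, E.ee_zero]; exact one_ne_zero
  · rw [E.ee_of_ne h]; exact clamp_ne_zero H.vc_ne

lemma XModel.rel_two (H : BadHyp2 v c β) {P : G} (hP0 : P ≠ 0) (hX : v (E.x P) ≤ 1)
    (h2P : 2 • P ≠ 0) : Rel (v c) (E.ee v (2 • P)) (E.ee v P * E.ee v P) := by
  rw [E.ee_of_ne h2P, E.ee_of_ne hP0]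
  exact trop_two H hX (fun h => h2P ((E.two_tor P hP0).2 h)) (E.dbl P hP0 h2P)

/-- **The tropical group law.** -/
theorem XModel.law (H : BadHyp2 v c β) {P Q : G} (hP : E.Good v P) (hQ : E.Good v Q) :
    PairRel (v c) (E.ee v (P + Q)) (E.ee v (P - Q)) (E.ee v P * E.ee v Q)
      (E.ee v P / E.ee v Q) := by
  rcases hP with rfl | ⟨hPX, hPY⟩
  · rw [zero_add, zero_sub, E.ee_neg, E.ee_zero, one_mul, one_div]
    exact Or.inl ⟨Rel.refl _ _, (Rel.refl _ _).inv_right⟩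
  rcases hQ with rfl | ⟨hQX, hQY⟩
  · rw [add_zero, sub_zero, E.ee_zero, mul_one, div_one]
    exact Or.inl ⟨Rel.refl _ _, Rel.refl _ _⟩
  by_cases hP0 : P = 0
  · subst hP0
    rw [zero_add, zero_sub, E.ee_neg, E.ee_zero, one_mul, one_div]
    exact Or.inl ⟨Rel.refl _ _, (Rel.refl _ _).inv_right⟩
  by_cases hQ0 : Q = 0
  · subst hQ0
    rw [add_zero, sub_zero, E.ee_zero, mul_one, div_one]
    exact Or.inl ⟨Rel.refl _ _, Rel.refl _ _⟩
  by_cases h1 : P = Q
  · subst h1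
    rw [sub_self, E.ee_zero, div_self (E.ee_ne_zero H P), ← two_nsmul]
    exact Or.inl ⟨E.rel_two H hP0 hPX hPY, Rel.refl _ _⟩
  by_cases h2 : P = -Q
  · subst h2
    rw [neg_add_cancel, E.ee_zero, E.ee_neg, div_self (E.ee_ne_zero H Q)]
    have : -Q - Q = -(2 • Q) := by rw [two_nsmul]; abel
    rw [this, E.ee_neg]
    exact Or.inr ⟨Rel.refl _ _, E.rel_two H hQ0 hQX hQY⟩
  have hne : E.x P ≠ E.x Q := E.x_ne_of_ne hP0 hQ0 h1 h2
  have hadd : P + Q ≠ 0 := fun h => h2 (eq_neg_of_add_eq_zero_left h)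
  have hsub : P - Q ≠ 0 := fun h => h1 (sub_eq_zero.1 h)
  rw [E.ee_of_ne hadd, E.ee_of_ne hsub, E.ee_of_ne hP0, E.ee_of_ne hQ0]
  exact trop_add H hne hPX hQX (E.mul_law P Q hP0 hQ0 hne) (E.add_law P Q hP0 hQ0 hne)

/-- multiples of an odd-order integral torsion point are good. -/
lemma XModel.good_nsmul {p : ℕ} (hodd : Odd p)
    (hG1 : ∀ T : G, T ≠ 0 → p • T = 0 → v (E.x T) ≤ 1) {T : G} (hT : p • T = 0) (k : ℕ) :
    E.Good v (k • T) := by
  by_cases h0 : k • T = 0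
  · exact Or.inl h0
  have hp : p • (k • T) = 0 := by rw [smul_comm, hT, smul_zero]
  refine Or.inr ⟨hG1 _ h0 hp, fun h2 => h0 ?_⟩
  obtain ⟨m, rfl⟩ := hodd
  rw [add_smul, mul_smul, one_smul, smul_comm, h2, smul_zero, zero_add] at hp
  exact hp

lemma XModel.rel_nsmul (H : BadHyp2 v c β) {p : ℕ} (hodd : Odd p)
    (hG1 : ∀ T : G, T ≠ 0 → p • T = 0 → v (E.x T) ≤ 1) {T : G} (hT : p • T = 0) (k : ℕ) :
    Rel (v c) (E.ee v (k • T)) (E.ee v T ^ k) ∧
      Rel (v c) (E.ee v ((k + 1) • T)) (E.ee v T ^ (k + 1)) := by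
  have hδ0 := H.vc_ne
  have hc0 : E.ee v T ≠ 0 := E.ee_ne_zero H T
  induction k with
  | zero =>
    refine ⟨Rel.of_eq (by rw [zero_smul, E.ee_zero, pow_zero]), Rel.of_eq (by simp)⟩
  | succ k ih =>
    obtain ⟨ih0, ih1⟩ := ih
    refine ⟨ih1, ?_⟩
    have hlaw := E.law H (E.good_nsmul hodd hG1 hT (k + 1)) (E.good_nsmul hodd hG1 hT 1)
    rw [one_smul] at hlaw
    have e1 : (k + 1) • T + T = (k + 1 + 1) • T := by rw [add_smul (k + 1) 1 T, one_smul]
    have e2 : (k + 1) • T - T = k • T := by rw [add_smul k 1 T, one_smul, add_sub_cancel_right]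
    rw [e1, e2] at hlaw
    -- `{e' c, e' / c} ~ {c ^ (k + 2), c ^ k}`
    have hpair : (Rel (v c) (E.ee v ((k + 1) • T) * E.ee v T) (E.ee v T ^ (k + 1 + 1)) ∧
        Rel (v c) (E.ee v ((k + 1) • T) / E.ee v T) (E.ee v T ^ k)) ∨
        (Rel (v c) (E.ee v ((k + 1) • T) * E.ee v T) (E.ee v T ^ k) ∧
        Rel (v c) (E.ee v ((k + 1) • T) / E.ee v T) (E.ee v T ^ (k + 1 + 1))) := by
      obtain ⟨j, hj | hj⟩ := ih1
      · left
        constructor
        · refine ⟨j, Or.inl ?_⟩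
          rw [hj, pow_succ (E.ee v T) (k + 1)]; ac_rfl
        · refine ⟨j, Or.inl ?_⟩
          rw [hj, pow_succ (E.ee v T) k]
          field_simp
      · right
        constructor
        · refine ⟨j, Or.inr ?_⟩
          rw [hj, pow_succ (E.ee v T) k]
          field_simp
        · refine ⟨j, Or.inr ?_⟩
          rw [hj, pow_succ (E.ee v T) (k + 1)]
          field_simp
    rcases hlaw with ⟨l1, l2⟩ | ⟨l1, l2⟩ <;> rcases hpair with ⟨q1, q2⟩ | ⟨q1, q2⟩
    · exact l1.trans hδ0 q1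
    · -- `x₊ ~ c ^ k`, `x₋ ~ c ^ (k + 2)`
      exact (l1.trans hδ0 q1).trans hδ0 ((ih0.symm hδ0).trans hδ0 (l2.trans hδ0 q2))
    · exact (l1.trans hδ0 q2).trans hδ0 ((ih0.symm hδ0).trans hδ0 (l2.trans hδ0 q1))
    · exact l1.trans hδ0 q2

/-- **(M1)** A `p`-torsion point reducing to the node has `|c| < |x|` and `|x| ^ p ∈ |c| ^ (2 ℤ)`. -/
theorem XModel.val_x_pow_of (H : BadHyp2 v c β) {p : ℕ} (hodd : Odd p) (hp : v (p : K) = 1)
    {T : G} (hT0 : T ≠ 0) (hT : p • T = 0) (hX : v (E.x T) < 1) :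
    v c < v (E.x T) ∧ ∃ j : ℤ, v (E.x T) ^ p = v c ^ (2 * j) := by
  have hG1 : ∀ T : G, T ≠ 0 → p • T = 0 → v (E.x T) ≤ 1 := fun T h0 hT =>
    E.val_x_le_one_of_nsmul v H.vc.le H.vβ.le hp h0 hT
  have hδ0 := H.vc_ne
  have hrel := (E.rel_nsmul H hodd hG1 hT p).1
  rw [hT, E.ee_zero] at hrel
  have hc0 : E.ee v T ≠ 0 := E.ee_ne_zero H T
  have hex : ∃ j : ℤ, E.ee v T ^ p = v c ^ (2 * j) := by
    obtain ⟨j, hj | hj⟩ := hrel
    · refine ⟨-j, ?_⟩
      rw [mul_neg, zpow_neg]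
      exact eq_inv_of_mul_eq_one_left hj.symm
    · refine ⟨j, ?_⟩
      have h1 : E.ee v T ^ p ≠ 0 := pow_ne_zero _ hc0
      field_simp at hj
      exact hj
  have hlt : v c < v (E.x T) := by
    by_contra hle
    rw [not_lt] at hle
    obtain ⟨j, hj⟩ := hex
    rw [E.ee_of_ne hT0, clamp_of_le H.vc.le hle, ← zpow_natCast] at hj
    have := zpow_right_injective₀ H.vc_pos H.vc.ne hj
    obtain ⟨m, hm⟩ := hodd
    omega
  refine ⟨hlt, ?_⟩
  rw [E.ee_of_ne hT0, clamp_of_mem hlt.le hX.le] at hex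
  exact hex

/-- multiples of a `p`-torsion point with `|x| = 1` have `|x| = 1`. -/
theorem XModel.val_x_nsmul_eq_one (H : BadHyp2 v c β) {p : ℕ} (hodd : Odd p) (hp : v (p : K) = 1)
    {T : G} (hT : p • T = 0) (hX : v (E.x T) = 1) (k : ℕ) (hk : k • T ≠ 0) :
    v (E.x (k • T)) = 1 := by
  have hG1 : ∀ T : G, T ≠ 0 → p • T = 0 → v (E.x T) ≤ 1 := fun T h0 hT =>
    E.val_x_le_one_of_nsmul v H.vc.le H.vβ.le hp h0 hT
  have hT0 : T ≠ 0 := by
    rintro rfl
    exact hk (smul_zero k)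
  have hpk : p • (k • T) = 0 := by rw [smul_comm, hT, smul_zero]
  have hle := hG1 _ hk hpk
  have hrel := (E.rel_nsmul H hodd hG1 hT k).1
  rw [E.ee_of_ne hT0, clamp_of_one_le H.vc.le hX.ge, one_pow, E.ee_of_ne hk] at hrel
  by_contra hne
  have hlt : v (E.x (k • T)) < 1 := lt_of_le_of_ne hle hne
  have h1 : clamp (v c) (v (E.x (k • T))) < 1 := by
    rw [clamp, min_eq_right hle]
    exact max_lt H.vc hlt
  have h2 : v c ≤ clamp (v c) (v (E.x (k • T))) := le_max_left _ _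
  have hj : ∃ j : ℤ, clamp (v c) (v (E.x (k • T))) = v c ^ (2 * j) := by
    obtain ⟨j, hj | hj⟩ := hrel
    · exact ⟨j, by rw [hj, one_mul]⟩
    · exact ⟨j, by rw [hj, inv_one, one_mul]⟩
  obtain ⟨j, hj⟩ := hj
  rw [hj] at h1 h2
  have h3 : 0 < 2 * j := by
    by_contra h
    rw [not_lt] at h
    have : 1 ≤ v c ^ (2 * j) := by
      obtain ⟨n, hn⟩ : ∃ n : ℕ, 2 * j = -(n : ℤ) := ⟨(-(2 * j)).toNat, by omega⟩
      rw [hn, zpow_neg, zpow_natCast]
      exact (one_le_inv₀ (pow_pos H.vc_pos n)).2 (pow_le_one' H.vc.le n)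
    exact absurd h1 (not_lt.2 this)
  have h4 : v c ^ (2 * j) < v c := by
    obtain ⟨n, hn⟩ : ∃ n : ℕ, 2 * j = ((n + 2 : ℕ) : ℤ) := ⟨(2 * j - 2).toNat, by omega⟩
    rw [hn, zpow_natCast, pow_succ]
    calc v c ^ (n + 1) * v c ≤ v c * v c := by
          apply mul_le_mul' _ le_rfl
          rw [pow_succ]
          exact mul_le_of_le_one_left' (pow_le_one' H.vc.le n)
      _ < v c := mul_lt_of_lt_one_right H.vc_pos H.vc
  exact absurd h2 (not_le.2 h4)

end Points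

end Fermat.Agent.S13Aux
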