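import Mathlib
import Fermat.Agent.S13.Tropical2

/-!
# S13 (C2b): inertia at `2` acts unipotently on `p`-torsion (abstract version)
-/

set_option autoImplicit false
set_option linter.unusedSectionVars false

namespace Fermat.Agent.S13Aux

open Fermat.Agent.S05Aux

/-- `y`-coordinates on top of an `x`-only model: `y² + xy = x³ + a₂x² + cx`. -/
structure YData {K : Type*} [Field K] {G : Type*} [AddCommGroup G] {c β : K}
    (F : XModel K G c β) (a₂ : K) where
  y : G → K
  eqn : ∀ P : G, P ≠ 0 → y P ^ 2 + F.x P * y P = F.x P ^ 3 + a₂ * F.x P ^ 2 + c * F.x P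
  y_neg : ∀ P : G, P ≠ 0 → y (-P) = -y P - F.x P
  x_sub : ∀ P Q : G, P ≠ 0 → Q ≠ 0 → F.x P ≠ F.x Q →
    F.x (P - Q) * (F.x P - F.x Q) ^ 2 =
      (y P + y Q + F.x Q) ^ 2 + (y P + y Q + F.x Q) * (F.x P - F.x Q)
        - (a₂ + F.x P + F.x Q) * (F.x P - F.x Q) ^ 2

/-- the standing hypotheses at the prime `2`. -/
structure TwoHyp {K : Type*} [Field K] {Γ₀ : Type*} [LinearOrderedCommGroupWithZero Γ₀]
    (v : Valuation K Γ₀) (c β a₂ : K) (p : ℕ) : Prop extends BadHyp2 v c β where
  two : v 2 < 1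
  va₂ : v a₂ ≤ 1
  vp : v (p : K) = 1
  odd : Odd p

section val
variable {K : Type*} [Field K] {Γ₀ : Type*} [LinearOrderedCommGroupWithZero Γ₀]
  (v : Valuation K Γ₀)

/-- a root of `s (s + t) = R` with `t`, `R` integral is integral. -/
lemma in_of_quad {s t : K} (ht : v t ≤ 1) (h : v (s * (s + t)) ≤ 1) : v s ≤ 1 := by
  by_contra hs
  rw [not_le] at hs
  have h1 : v (s + t) = v s := v.map_add_eq_of_lt_left (lt_of_le_of_lt ht hs)
  rw [map_mul, h1] at h
  have : 1 < v s * v s := one_lt_mul'' hs hs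
  exact absurd h (not_le.2 this)

lemma eq_one_of_mul_eq_one {a b : Γ₀} (h : a * b = 1) (ha : a ≤ 1) (hb : b ≤ 1) : a = 1 := by
  apply le_antisymm ha
  calc 1 = a * b := h.symm
    _ ≤ a * 1 := mul_le_mul' le_rfl hb
    _ = a := mul_one a

lemma val_add_sm {a b : K} (ha : v a = 1) (hb : v b < 1) : v (a + b) = 1 := by
  rw [v.map_add_eq_of_lt_left (by rw [ha]; exact hb), ha]

end val

section inertia

variable {K : Type*} [Field K] {G : Type*} [AddCommGroup G] {c β a₂ : K}
  (F : XModel K G c β) (Y : YData F a₂)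
  {Γ₀ : Type*} [LinearOrderedCommGroupWithZero Γ₀] {v : Valuation K Γ₀} {p : ℕ}
  (H : TwoHyp v c β a₂ p)
  (σK : K →+* K) (σG : G →+ G)
  (hinj : ∀ P : G, σG P = 0 → P = 0)
  (hx : ∀ P : G, P ≠ 0 → F.x (σG P) = σK (F.x P))
  (hy : ∀ P : G, P ≠ 0 → Y.y (σG P) = σK (Y.y P))
  (hval : ∀ z : K, v (σK z) = v z)
  (hclose : ∀ z : K, v z ≤ 1 → v (σK z - z) < 1)

include H in
lemma G1 {T : G} (hT0 : T ≠ 0) (hT : p • T = 0) : v (F.x T) ≤ 1 :=
  F.val_x_le_one_of_nsmul v H.vc.le H.vβ.le H.vp hT0 hT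

include H hinj hx hy hclose in
/-- points of good reduction are fixed by inertia. -/
lemma fix_of_val_eq_one {T : G} (hT0 : T ≠ 0) (hT : p • T = 0) (h1 : v (F.x T) = 1) :
    σG T = T := by
  have hσT0 : σG T ≠ 0 := fun h => hT0 (hinj T h)
  have hxσ := hx T hT0
  have hyσ := hy T hT0
  set x := F.x T with hxdef
  set y := Y.y T with hydef
  have hyin : v y ≤ 1 := by
    apply in_of_quad v h1.le
    have : y * (y + x) = x ^ 3 + a₂ * x ^ 2 + c * x := by
      have := Y.eqn T hT0
      linear_combination this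
    rw [this]
    exact in_add_in v (in_add_in v (in_pow v h1.le 3) (in_mul_in v H.va₂ (in_pow v h1.le 2)))
      (in_mul_in v H.vc.le h1.le)
  have hx' : v (σK x - x) < 1 := hclose x h1.le
  have hy' : v (σK y - y) < 1 := hclose y hyin
  have h2y : v (2 * y) < 1 := sm_mul_in v H.two hyin
  by_cases hne : σK x = x
  · rcases F.eq_or_eq_neg (σG T) T hσT0 hT0 (by rw [hxσ, hne]) with h | h
    · exact h
    · exfalso
      rw [h, Y.y_neg T hT0, ← hxdef, ← hydef] at hyσ
      have : x = -(σK y - y) - 2 * y := by linear_combination -hyσ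
      have hlt : v x < 1 := by
        rw [this]
        exact sm_sub_sm v (by rw [Valuation.map_neg]; exact hy') h2y
      exact absurd h1 hlt.ne
  · exfalso
    have hU0 : σG T - T ≠ 0 := by
      intro h
      apply hne
      rw [← hxσ, sub_eq_zero.1 h]
    have hpU : p • (σG T - T) = 0 := by
      rw [smul_sub, ← map_nsmul, hT, map_zero, sub_zero]
    have hG := G1 F H hU0 hpU
    have hs := Y.x_sub (σG T) T hσT0 hT0 (by rw [hxσ]; exact hne)
    rw [hxσ, hyσ, ← hxdef, ← hydef] at hs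
    have hn : v (σK y + y + x) = 1 := by
      have : σK y + y + x = x + ((σK y - y) + 2 * y) := by ring
      rw [this]
      exact val_add_sm v h1 (sm_add_sm v hy' h2y)
    have hR : v ((σK y + y + x) ^ 2 + (σK y + y + x) * (σK x - x)
        - (a₂ + σK x + x) * (σK x - x) ^ 2) = 1 := by
      have hσx : v (σK x) ≤ 1 := by
        have : σK x = (σK x - x) + x := by ring
        rw [this]; exact in_add_in v hx'.le h1.le
      rw [add_sub_assoc]
      apply val_add_sm v (by rw [map_pow, hn, one_pow])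
      refine sm_sub_sm v (in_mul_sm v hn.le hx') (in_mul_sm v
        (in_add_in v (in_add_in v H.va₂ hσx) h1.le) ?_)
      rw [pow_two]; exact sm_mul_in v hx' hx'.le
    rw [← hs, map_mul, map_pow] at hR
    have : v (F.x (σG T - T)) * v (σK x - x) ^ 2 < 1 := by
      calc v (F.x (σG T - T)) * v (σK x - x) ^ 2 ≤ 1 * v (σK x - x) ^ 2 :=
            mul_le_mul' hG le_rfl
        _ = v (σK x - x) ^ 2 := one_mul _
        _ < 1 := pow_lt_one₀ zero_le hx' two_ne_zero
    exact absurd hR this.ne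

include H hinj hx hy hval hclose in
/-- points reducing to the node move by a point of good reduction. -/
lemma sub_of_val_lt_one {T : G} (hT0 : T ≠ 0) (hT : p • T = 0) (h1 : v (F.x T) < 1)
    (hc : v c < v (F.x T)) : σG T = T ∨ v (F.x (σG T - T)) = 1 := by
  have hσT0 : σG T ≠ 0 := fun h => hT0 (hinj T h)
  have hxσ := hx T hT0
  have hyσ := hy T hT0
  have heq := Y.eqn T hT0
  set x := F.x T with hxdef
  set y := Y.y T with hydef
  have hx0 : x ≠ 0 := by
    intro h
    rw [h, map_zero] at hc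
    exact absurd hc (not_lt.2 zero_le)
  have hvx0 : 0 < v x := zero_lt_iff.2 ((v.ne_zero_iff).2 hx0)
  obtain ⟨s, hs⟩ : ∃ s, s = y / x := ⟨_, rfl⟩
  obtain ⟨κ, hκ⟩ : ∃ κ, κ = c / x := ⟨_, rfl⟩
  obtain ⟨ρ, hρ⟩ : ∃ ρ, ρ = σK x / x := ⟨_, rfl⟩
  have hsx : y = s * x := by rw [hs]; field_simp
  have hκx : c = κ * x := by rw [hκ]; field_simp
  have hρx : σK x = ρ * x := by rw [hρ]; field_simp
  have hvκ : v κ < 1 := by
    rw [hκ, map_div₀]
    exact (div_lt_one₀ hvx0).2 hc
  have hvρ : v ρ = 1 := by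
    rw [hρ, map_div₀, hval, div_self hvx0.ne']
  have hquad : s * (s + 1) = x + a₂ + κ := by
    have hx2 : x ^ 2 ≠ 0 := pow_ne_zero 2 hx0
    apply mul_left_cancel₀ hx2
    rw [hsx, hκx] at heq
    linear_combination heq
  have hsin : v s ≤ 1 := by
    apply in_of_quad v (t := 1) (by simp)
    rw [hquad]
    exact in_add_in v (in_add_in v h1.le H.va₂) hvκ.le
  obtain ⟨ε, hε⟩ : ∃ ε, ε = σK s - s := ⟨_, rfl⟩
  have hvε : v ε < 1 := by rw [hε]; exact hclose s hsin
  have hσy : σK y = (s + ε) * (ρ * x) := by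
    rw [hsx, map_mul, hρx, hε]; ring
  have h2s : v (2 * s) < 1 := sm_mul_in v H.two hsin
  by_cases hne : σK x = x
  · left
    rcases F.eq_or_eq_neg (σG T) T hσT0 hT0 (by rw [hxσ, hne]) with h | h
    · exact h
    · exfalso
      rw [h, Y.y_neg T hT0, hσy, ← hxdef, ← hydef] at hyσ
      have hρ1 : ρ = 1 := by
        rw [hρ, hne, div_self hx0]
      rw [hρ1, hsx] at hyσ
      have h3 : (1 : K) = -ε - 2 * s := by
        apply mul_right_cancel₀ hx0
        linear_combination -hyσ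
      have : v (1 : K) < 1 := by
        rw [h3]
        exact sm_sub_sm v (by rw [Valuation.map_neg]; exact hvε) h2s
      rw [map_one] at this
      exact lt_irrefl _ this
  · right
    have hU0 : σG T - T ≠ 0 := by
      intro h
      apply hne
      rw [← hxσ, sub_eq_zero.1 h]
    have hpU : p • (σG T - T) = 0 := by
      rw [smul_sub, ← map_nsmul, hT, map_zero, sub_zero]
    have hG := G1 F H hU0 hpU
    have hsub := Y.x_sub (σG T) T hσT0 hT0 (by rw [hxσ]; exact hne)
    rw [hxσ, hyσ, hσy, hρx, ← hxdef, ← hydef, hsx] at hsub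
    have key : F.x (σG T - T) * (ρ - 1) ^ 2 = ρ * (2 * s + 1) ^ 2 +
        (ε * ρ * (2 * (s * ρ + s + 1) + ε * ρ) + ε * ρ * (ρ - 1)
          - (ρ * x - κ) * (ρ - 1) ^ 2) := by
      have hx2 : x ^ 2 ≠ 0 := pow_ne_zero 2 hx0
      apply mul_left_cancel₀ hx2
      linear_combination hsub + x ^ 2 * (ρ - 1) ^ 2 * hquad
    have hρ1 : v (ρ - 1) ≤ 1 := in_sub_in v hvρ.le (by simp)
    have hR : v (ρ * (2 * s + 1) ^ 2 +
        (ε * ρ * (2 * (s * ρ + s + 1) + ε * ρ) + ε * ρ * (ρ - 1)
          - (ρ * x - κ) * (ρ - 1) ^ 2)) = 1 := by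
      have h2s1 : v (2 * s + 1) = 1 := by
        rw [add_comm]; exact val_add_sm v (by simp) h2s
      have hερ : v (ε * ρ) < 1 := sm_mul_in v hvε hvρ.le
      apply val_add_sm v (by rw [map_mul, map_pow, hvρ, h2s1, one_pow, one_mul])
      refine sm_sub_sm v (sm_add_sm v (sm_mul_in v hερ ?_) (sm_mul_in v hερ hρ1))
        (sm_mul_in v (sm_sub_sm v (in_mul_sm v hvρ.le h1) hvκ) (in_pow v hρ1 2))
      exact in_add_in v (in_mul_in v (in_ofNat v 2) (in_add_in v (in_add_in v
        (in_mul_in v hsin hvρ.le) hsin) (by simp))) hερ.le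
    rw [← key, map_mul] at hR
    exact eq_one_of_mul_eq_one hR hG (in_pow v hρ1 2)

include H hinj hx hy hval hclose in
/-- **(C2b)**, abstract version: `(σ - 1)² = 0` on `p`-torsion. -/
theorem sub_fixed {T : G} (hT : p • T = 0) : σG (σG T - T) = σG T - T := by
  by_cases hT0 : T = 0
  · rw [hT0]; simp
  have hpU : p • (σG T - T) = 0 := by
    rw [smul_sub, ← map_nsmul, hT, map_zero, sub_zero]
  have hfix : σG T = T → σG (σG T - T) = σG T - T := by
    intro h
    rw [h, sub_self, map_zero]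
  rcases (G1 F H hT0 hT).lt_or_eq with h1 | h1
  · have hc := (F.val_x_pow_of H.toBadHyp2 H.odd H.vp hT0 hT h1).1
    rcases sub_of_val_lt_one F Y H σK σG hinj hx hy hval hclose hT0 hT h1 hc with h | h
    · exact hfix h
    · by_cases hU0 : σG T - T = 0
      · rw [hU0, map_zero]
      · exact fix_of_val_eq_one F Y H σK σG hinj hx hy hclose hU0 hpU h
  · exact hfix (fix_of_val_eq_one F Y H σK σG hinj hx hy hclose hT0 hT h1)

end inertia

end Fermat.Agent.S13Aux
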