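import Mathlib
import Fermat.Agent.S13.Tropical2

/-!
# S13 (C2c): no rational point of order `p` (abstract version)
-/

set_option autoImplicit false
set_option linter.unusedSectionVars false

namespace Fermat.Agent.S13Aux

open Fermat.Agent.S05Aux

section val
variable {K : Type*} [Field K] {Γ₀ : Type*} [LinearOrderedCommGroupWithZero Γ₀]
  (v : Valuation K Γ₀)

lemma in_intCast (n : ℤ) : v (n : K) ≤ 1 := by
  obtain ⟨m, rfl | rfl⟩ := n.eq_nat_or_neg
  · simpa using in_natCast v m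
  · simpa using in_natCast v m

variable (h2 : v 2 < 1)
include h2

lemma val_even_int {m : ℤ} (hm : Even m) : v (m : K) < 1 := by
  obtain ⟨k, rfl⟩ := hm
  have : ((k + k : ℤ) : K) = 2 * (k : K) := by push_cast; ring
  rw [this]
  exact sm_mul_in v h2 (in_intCast v k)

lemma val_odd_int {m : ℤ} (hm : Odd m) : v (m : K) = 1 := by
  obtain ⟨k, rfl⟩ := hm
  have : ((2 * k + 1 : ℤ) : K) = 1 + 2 * (k : K) := by push_cast; ring
  rw [this]
  exact v.map_one_add_of_lt (sm_mul_in v h2 (in_intCast v k))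

omit h2 in
lemma exists_two_pow_mul_odd {m : ℤ} (hm : m ≠ 0) : ∃ (k : ℕ) (a : ℤ), Odd a ∧ m = 2 ^ k * a := by
  obtain ⟨k, a, ha, h⟩ := Nat.exists_eq_two_pow_mul_odd (Int.natAbs_ne_zero.2 hm)
  rcases Int.natAbs_eq m with h' | h'
  · exact ⟨k, a, by exact_mod_cast ha, by rw [h', h]; push_cast; ring⟩
  · refine ⟨k, -a, Odd.neg (by exact_mod_cast ha), by rw [h', h]; push_cast; ring⟩

omit h2 in
lemma rat_decomp {q : ℚ} (hq : q ≠ 0) :
    ∃ (n : ℤ) (a b : ℤ), Odd a ∧ Odd b ∧ q = 2 ^ n * ((a : ℚ) / b) := by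
  obtain ⟨k, a, ha, hk⟩ := exists_two_pow_mul_odd (Rat.num_ne_zero.2 hq)
  obtain ⟨l, b, hb, hl⟩ := exists_two_pow_mul_odd (m := (q.den : ℤ)) (by exact_mod_cast q.den_ne_zero)
  refine ⟨(k : ℤ) - l, a, b, ha, hb, ?_⟩
  have hb0 : (b : ℚ) ≠ 0 := by
    intro h
    have : b = 0 := by exact_mod_cast h
    rw [this] at hb
    exact absurd hb (by decide)
  have h1 : q = (q.num : ℚ) / (q.den : ℚ) := (Rat.num_div_den q).symm
  have h2' : (q.den : ℚ) = 2 ^ l * (b : ℚ) := by exact_mod_cast hl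
  rw [h1, hk, h2', zpow_sub₀ (by norm_num : (2 : ℚ) ≠ 0), zpow_natCast, zpow_natCast]
  push_cast
  field_simp

variable [CharZero K]

lemma val_rat_eq {q : ℚ} {n a b : ℤ} (ha : Odd a) (hb : Odd b) (h : q = 2 ^ n * ((a : ℚ) / b)) :
    v (q : K) = v 2 ^ n := by
  rw [h]
  push_cast
  rw [map_mul, map_div₀, val_odd_int v h2 ha, val_odd_int v h2 hb, div_one, mul_one, map_zpow₀]

lemma exists_val_rat_eq {q : ℚ} (hq : q ≠ 0) : ∃ n : ℤ, v (q : K) = v 2 ^ n := by
  obtain ⟨n, a, b, ha, hb, h⟩ := rat_decomp hq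
  exact ⟨n, val_rat_eq v h2 ha hb h⟩

omit [CharZero K] in
lemma two_pos (h20 : (2 : K) ≠ 0) : 0 < v 2 := zero_lt_iff.2 ((v.ne_zero_iff).2 h20)

lemma val_rat_sub_one {q : ℚ} (hq : v (q : K) = 1) : v ((q : K) - 1) < 1 := by
  have hq0 : q ≠ 0 := by
    rintro rfl
    simp at hq
  have h20 : (2 : K) ≠ 0 := two_ne_zero
  obtain ⟨n, a, b, ha, hb, h⟩ := rat_decomp hq0
  have h1 := val_rat_eq v h2 ha hb h
  rw [hq] at h1
  have hn : n = 0 := by
    have : v 2 ^ n = v 2 ^ (0 : ℤ) := by rw [← h1, zpow_zero]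
    exact zpow_right_injective₀ (two_pos v h2 h20) h2.ne this
  rw [hn, zpow_zero, one_mul] at h
  have hb0 : (b : K) ≠ 0 := by
    intro h'
    have : b = 0 := by exact_mod_cast h'
    rw [this] at hb
    exact absurd hb (by decide)
  have : (q : K) - 1 = ((a - b : ℤ) : K) / (b : K) := by
    rw [h]; push_cast; field_simp
  rw [this, map_div₀, val_odd_int v h2 hb, div_one]
  exact val_even_int v h2 (ha.sub_odd hb)

end val

section rational

variable {K : Type*} [Field K] [CharZero K] {G : Type*} [AddCommGroup G] {c β : K}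
  (F : XModel K G c β)
  {Γ₀ : Type*} [LinearOrderedCommGroupWithZero Γ₀] {v : Valuation K Γ₀} {p : ℕ}

/-- **(C2c)**, abstract version. -/
theorem no_rational_torsion_aux (H : BadHyp2 v c β) (h2 : v 2 < 1) (hp : p.Prime) (hp5 : 5 ≤ p)
    (hvp : v (p : K) = 1) {m : ℤ} (hm : v c = v 2 ^ m) (hpm : ¬ (p : ℤ) ∣ m)
    {T : G} (hT0 : T ≠ 0) (hT : p • T = 0)
    (hrat : ∀ k : ℕ, k • T ≠ 0 → ∃ q : ℚ, F.x (k • T) = (q : K)) : False := by
  have hodd : Odd p := hp.odd_of_ne_two (by omega)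
  have h20 : (2 : K) ≠ 0 := two_ne_zero
  have hG1 : ∀ T : G, T ≠ 0 → p • T = 0 → v (F.x T) ≤ 1 := fun T h0 hT =>
    F.val_x_le_one_of_nsmul v H.vc.le H.vβ.le hvp h0 hT
  -- `k • T ≠ 0` for `k` prime to `p`
  have hk : ∀ k : ℕ, Nat.Coprime k p → k • T ≠ 0 := by
    intro k hkp h
    apply hT0
    have h1 : (Nat.gcd k p) • T = 0 := by
      have := Nat.gcd_eq_gcd_ab k p
      have h3 : ((Nat.gcd k p : ℕ) : ℤ) • T = 0 := by
        rw [this, add_smul, mul_smul, mul_smul, natCast_zsmul, natCast_zsmul, smul_comm, h,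
          smul_zero, smul_comm, hT, smul_zero, add_zero]
      rwa [natCast_zsmul] at h3
    rw [hkp, one_smul] at h1
    exact h1
  have h2T : 2 • T ≠ 0 := hk 2 ((Nat.coprime_primes Nat.prime_two hp).2 (by omega))
  have h3T : 3 • T ≠ 0 := hk 3 ((Nat.coprime_primes Nat.prime_three hp).2 (by omega))
  obtain ⟨q, hq⟩ := hrat 1 (by rwa [one_smul])
  rw [one_smul] at hq
  rcases (hG1 T hT0 hT).lt_or_eq with h1 | h1
  · -- the node
    obtain ⟨hc, j, hj⟩ := F.val_x_pow_of H hodd hvp hT0 hT h1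
    have hq0 : q ≠ 0 := by
      rintro rfl
      rw [hq, Rat.cast_zero, map_zero] at hc
      exact absurd hc (not_lt.2 zero_le)
    obtain ⟨n, hn⟩ := exists_val_rat_eq (K := K) v h2 hq0
    rw [hq, hn] at hj hc h1
    rw [hm] at hj hc
    have hpos := two_pos v h2 h20
    rw [← zpow_natCast, ← zpow_mul, ← zpow_mul] at hj
    have e1 : n * (p : ℤ) = m * (2 * j) := zpow_right_injective₀ hpos h2.ne hj
    have e2 : n < m := (zpow_right_strictAnti₀ hpos h2).lt_iff_gt.1 hc
    have e3 : 0 < n := by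
      rw [← zpow_zero (v 2)] at h1
      exact (zpow_right_strictAnti₀ hpos h2).lt_iff_gt.1 h1
    have hpZ : Prime (p : ℤ) := Nat.prime_iff_prime_int.1 hp
    have hd : (p : ℤ) ∣ m * (2 * j) := ⟨n, by rw [← e1]; ring⟩
    have hd2 : (p : ℤ) ∣ j := by
      rcases hpZ.dvd_or_dvd hd with h | h
      · exact absurd h hpm
      · rcases hpZ.dvd_or_dvd h with h | h
        · exfalso
          have : (p : ℤ) ≤ 2 := Int.le_of_dvd (by norm_num) h
          omega
        · exact h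
    obtain ⟨j', rfl⟩ := hd2
    have hp0 : (p : ℤ) ≠ 0 := by exact_mod_cast hp.ne_zero
    have e4 : n = m * (2 * j') := by
      apply mul_right_cancel₀ hp0
      rw [e1]; ring
    have hm0 : 0 < m := e3.trans e2
    have hj' : 0 < j' := by
      by_contra h
      rw [not_lt] at h
      have : m * (2 * j') ≤ 0 := mul_nonpos_of_nonneg_of_nonpos hm0.le (by omega)
      omega
    have : m * 2 ≤ m * (2 * j') := mul_le_mul_of_nonneg_left (by omega) hm0.le
    omega
  · -- good reduction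
    have h12 := F.val_x_nsmul_eq_one H hodd hvp hT h1 2 h2T
    obtain ⟨q₂, hq₂⟩ := hrat 2 h2T
    have s1 : v (F.x T - 1) < 1 := by
      rw [hq] at h1 ⊢
      exact val_rat_sub_one v h2 h1
    have s2 : v (F.x (2 • T) - 1) < 1 := by
      rw [hq₂] at h12 ⊢
      exact val_rat_sub_one v h2 h12
    have s3 : v (F.x (2 • T) - F.x T) < 1 := by
      have : F.x (2 • T) - F.x T = (F.x (2 • T) - 1) - (F.x T - 1) := by ring
      rw [this]
      exact sm_sub_sm v s2 s1
    have hne : F.x (2 • T) ≠ F.x T := by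
      intro h
      rcases F.eq_or_eq_neg _ _ h2T hT0 h with h | h
      · apply hT0
        rw [two_smul] at h
        exact add_eq_right.1 h
      · apply h3T
        have : 3 • T = 2 • T + T := by rw [succ_nsmul]
        rw [this, h, neg_add_cancel]
    have hlaw := F.mul_law (2 • T) T h2T hT0 hne
    have e1 : 2 • T + T = 3 • T := (succ_nsmul T 2).symm
    have e2 : 2 • T - T = T := by rw [two_smul, add_sub_cancel_right]
    rw [e1, e2] at hlaw
    have hp3 : p • (3 • T) = 0 := by rw [smul_comm, hT, smul_zero]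
    have hR : v ((F.x (2 • T) * F.x T - c) ^ 2) = 1 := by
      rw [map_pow, v.map_sub_eq_of_lt_left (by rw [map_mul, h12, h1, one_mul]; exact H.vc), map_mul,
        h12, h1, one_mul, one_pow]
    rw [← hlaw, map_mul, map_mul, h1, mul_one, map_pow] at hR
    have : v (F.x (3 • T)) * v (F.x (2 • T) - F.x T) ^ 2 < 1 := by
      calc v (F.x (3 • T)) * v (F.x (2 • T) - F.x T) ^ 2 ≤ 1 * v (F.x (2 • T) - F.x T) ^ 2 :=
            mul_le_mul' (hG1 _ h3T hp3) le_rfl
        _ = v (F.x (2 • T) - F.x T) ^ 2 := one_mul _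
        _ < 1 := pow_lt_one₀ zero_le s3 two_ne_zero
    exact absurd hR this.ne

end rational

end Fermat.Agent.S13Aux
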