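import Mathlib
import Fermat.Agent.S05.Inertia

/-!
# S13: the decomposition group preserves the valuation
-/

set_option autoImplicit false

namespace Fermat.Agent.S13Aux

open Fermat.Agent.S05Aux

variable {L : Type*} [Field L] [Algebra ℚ L] [Algebra.IsAlgebraic ℚ L]

theorem exists_pow_apply_eq (σ : L ≃ₐ[ℚ] L) (x : L) : ∃ n : ℕ, 0 < n ∧ (σ ^ n) x = x := by
  have hfin : ((minpoly ℚ x).rootSet L).Finite := Polynomial.rootSet_finite _ _
  have hmem : ∀ k : ℕ, (σ ^ k) x ∈ (minpoly ℚ x).rootSet L := by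
    intro k
    rw [Polynomial.mem_rootSet]
    refine ⟨minpoly.ne_zero (Algebra.IsIntegral.isIntegral x), ?_⟩
    have := Polynomial.aeval_algHom_apply ((σ ^ k : L ≃ₐ[ℚ] L) : L →ₐ[ℚ] L) x (minpoly ℚ x)
    rw [minpoly.aeval, map_zero] at this
    exact this
  have : Finite ((minpoly ℚ x).rootSet L) := hfin
  obtain ⟨i, j, hij, h⟩ := Finite.exists_ne_map_eq_of_infinite
    (fun k : ℕ => (⟨(σ ^ k) x, hmem k⟩ : (minpoly ℚ x).rootSet L))
  have h' : (σ ^ i) x = (σ ^ j) x := congrArg Subtype.val h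
  have key : ∀ i j : ℕ, i < j → (σ ^ i) x = (σ ^ j) x → ∃ n : ℕ, 0 < n ∧ (σ ^ n) x = x := by
    intro i j hlt he
    refine ⟨j - i, by omega, ?_⟩
    have hj : σ ^ j = σ ^ i * σ ^ (j - i) := by rw [← pow_add]; congr 1; omega
    rw [hj, AlgEquiv.mul_apply] at he
    exact ((σ ^ i).injective he).symm
  rcases lt_or_gt_of_ne hij with hlt | hlt
  · exact key i j hlt h'
  · exact key j i hlt h'.symm

theorem valuation_map_le (A : ValuationSubring L) (σ : L ≃ₐ[ℚ] L)
    (hσ : σ ∈ A.decompositionSubgroup ℚ) (x : L) : A.valuation (σ x) ≤ A.valuation x := by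
  by_contra hlt
  rw [not_le] at hlt
  have hx0 : x ≠ 0 := by
    rintro rfl
    simp at hlt
  have hvx : 0 < A.valuation x := (Valuation.pos_iff _).2 hx0
  set y := σ x / x with hy
  have hy1 : ¬ A.valuation y ≤ 1 := by
    rw [not_le, hy, map_div₀]
    exact (one_lt_div₀ hvx).2 hlt
  have hyk : ∀ k : ℕ, 1 < A.valuation ((σ ^ k) y) := by
    intro k
    rw [← not_le, valuation_map_le_one_iff A (σ ^ k) (pow_mem hσ k) y]
    exact hy1
  have hstep : ∀ n : ℕ, (σ ^ (n + 1)) x / x = (σ ^ n) y * ((σ ^ n) x / x) := by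
    intro n
    have h0 : (σ ^ n) x ≠ 0 := (map_ne_zero_iff _ (σ ^ n).injective).2 hx0
    rw [hy, map_div₀, pow_succ, AlgEquiv.mul_apply]
    field_simp
  have hind : ∀ n : ℕ, 1 ≤ A.valuation ((σ ^ n) x / x) := by
    intro n
    induction n with
    | zero => simp [div_self hx0]
    | succ n ih =>
      rw [hstep, map_mul]
      exact le_trans (hyk n).le (le_mul_of_one_le_right' ih)
  obtain ⟨n, hn, hnx⟩ := exists_pow_apply_eq σ x
  obtain ⟨m, rfl⟩ : ∃ m, n = m + 1 := ⟨n - 1, by omega⟩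
  have h1 : 1 < A.valuation ((σ ^ (m + 1)) x / x) := by
    rw [hstep, map_mul]
    exact lt_of_lt_of_le (hyk m) (le_mul_of_one_le_right' (hind m))
  rw [hnx, div_self hx0, map_one] at h1
  exact lt_irrefl _ h1

theorem valuation_map_eq (A : ValuationSubring L) (σ : L ≃ₐ[ℚ] L)
    (hσ : σ ∈ A.decompositionSubgroup ℚ) (x : L) : A.valuation (σ x) = A.valuation x := by
  refine le_antisymm (valuation_map_le A σ hσ x) ?_
  have := valuation_map_le A σ⁻¹ (inv_mem hσ) (σ x)
  simpa using this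

end Fermat.Agent.S13Aux
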