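import Mathlib
import Fermat.Prelude.Def_FLTPrelim_Ramification
import Fermat.Agent.S05.Weierstrass
import Fermat.Agent.S05.Inertia
import Fermat.Agent.S13.ValInv
import Fermat.Agent.S13.TwoInertia
import Fermat.Agent.S13.TwoRational

/-!
# S13 (C2): the prime `2` for the Frey curve
-/

set_option autoImplicit false
set_option linter.unusedSectionVars false

namespace Fermat.Agent.S13Aux

open Fermat.Agent.S05Aux
open WeierstrassCurve WeierstrassCurve.Affine WeierstrassCurve.Affine.Point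

local notation "Qb" => AlgebraicClosure ℚ

/-- the `y`-coordinate `y = (Y - X) / 8` on top of `x = X / 4`. -/
noncomputable def _root_.Fermat.Agent.S05Aux.XYModel.toYData {K : Type*} [Field K] {G : Type*}
    [AddCommGroup G] {D M : K} (E : XYModel K G D M) (h2 : (2 : K) ≠ 0) :
    YData (E.toXModel h2) ((D + M - 1) / 2 ^ 2) where
  y P := (E.Y P - E.X P) / 2 ^ 3
  eqn P hP := by
    have h3 := E.eqn P hP
    show ((E.Y P - E.X P) / 2 ^ 3) ^ 2 + E.X P / 2 ^ 2 * ((E.Y P - E.X P) / 2 ^ 3) =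
      (E.X P / 2 ^ 2) ^ 3 + (D + M - 1) / 2 ^ 2 * (E.X P / 2 ^ 2) ^ 2 + D * M / 2 ^ 4 * (E.X P / 2 ^ 2)
    field_simp
    linear_combination h3
  y_neg P _ := by
    show (E.Y (-P) - E.X (-P)) / 2 ^ 3 = -((E.Y P - E.X P) / 2 ^ 3) - E.X P / 2 ^ 2
    rw [E.X_neg, E.Y_neg]
    field_simp
    ring
  x_sub P Q hP hQ h := by
    have hne : E.X P ≠ E.X Q := fun h' => h (by show E.X P / 2 ^ 2 = E.X Q / 2 ^ 2; rw [h'])
    have h3 := E.X_sub P Q hP hQ hne
    show E.X (P - Q) / 2 ^ 2 * (E.X P / 2 ^ 2 - E.X Q / 2 ^ 2) ^ 2 =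
      ((E.Y P - E.X P) / 2 ^ 3 + (E.Y Q - E.X Q) / 2 ^ 3 + E.X Q / 2 ^ 2) ^ 2
        + ((E.Y P - E.X P) / 2 ^ 3 + (E.Y Q - E.X Q) / 2 ^ 3 + E.X Q / 2 ^ 2)
          * (E.X P / 2 ^ 2 - E.X Q / 2 ^ 2)
        - ((D + M - 1) / 2 ^ 2 + E.X P / 2 ^ 2 + E.X Q / 2 ^ 2) * (E.X P / 2 ^ 2 - E.X Q / 2 ^ 2) ^ 2
    field_simp
    linear_combination h3

section arith

variable (P : FreyPackage)

lemma frey_a_pow_modEq : P.a ^ P.p ≡ -1 [ZMOD 4] := by
  have h3 : P.a ≡ 3 [ZMOD 4] := (ZMod.intCast_eq_intCast_iff P.a 3 4).1 (by simpa using P.ha4)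
  have ha : P.a ≡ -1 [ZMOD 4] := h3.trans (by decide)
  have := ha.pow P.p
  rwa [P.hp_odd.neg_one_pow] at this

lemma frey_a_pow_odd : Odd (P.a ^ P.p) := by
  have h := frey_a_pow_modEq P
  rw [Int.odd_iff]
  have h4 : P.a ^ P.p % 4 = 3 := h
  omega

lemma frey_b_decomp : ∃ (k : ℕ) (b' : ℤ), 0 < k ∧ Odd b' ∧ P.b = 2 ^ k * b' := by
  obtain ⟨k, b', hb', h⟩ := exists_two_pow_mul_odd P.hb0
  refine ⟨k, b', ?_, hb', h⟩
  rcases Nat.eq_zero_or_pos k with rfl | hk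
  · exfalso
    rw [pow_zero, one_mul] at h
    have h2 : (2 : ℤ) ∣ P.b := (ZMod.intCast_zmod_eq_zero_iff_dvd P.b 2).1 P.hb2
    rw [h] at h2
    exact (Int.not_even_iff_odd.2 hb') (even_iff_two_dvd.2 h2)
  · exact hk

lemma frey_four_dvd : (4 : ℤ) ∣ P.b ^ P.p - P.a ^ P.p - 1 := by
  have h := frey_a_pow_modEq P
  have h2 : (2 : ℤ) ∣ P.b := (ZMod.intCast_zmod_eq_zero_iff_dvd P.b 2).1 P.hb2
  have h4 : (4 : ℤ) ∣ P.b ^ P.p := by
    have : (2 : ℤ) ^ 2 ∣ P.b ^ P.p :=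
      (pow_dvd_pow_of_dvd h2 2).trans (pow_dvd_pow _ (by have := P.hp5; omega))
    simpa using this
  have h5 : P.a ^ P.p % 4 = 3 := h
  omega

end arith

section model

variable (P : FreyPackage)

/-- the `(X, Y)`-model `Y² = X (X - a ^ p) (X + b ^ p)` of the Frey curve, `X = 4x`. -/
noncomputable def freyXY : XYModel Qb (P.freyCurve⁄Qb).Point
    ((-(P.a ^ P.p) : ℤ) : Qb) ((P.b ^ P.p : ℤ) : Qb) :=
  xyModel (P.freyCurve⁄Qb) 0 _ _
    (by change algebraMap ℚ Qb P.freyCurve.a₁ = 1; simp [FreyPackage.freyCurve])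
    (by change algebraMap ℚ Qb P.freyCurve.a₃ = 0; simp [FreyPackage.freyCurve])
    (by
      change 4 * algebraMap ℚ Qb P.freyCurve.a₂ + 1 = _
      simp only [FreyPackage.freyCurve, map_div₀, map_sub, map_pow, map_intCast, map_one, map_ofNat]
      push_cast
      ring)
    (by
      change 16 * algebraMap ℚ Qb P.freyCurve.a₄ = _
      simp only [FreyPackage.freyCurve, map_div₀, map_mul, map_neg, map_pow, map_intCast, map_ofNat]
      push_cast
      ring)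
    (by
      change 64 * algebraMap ℚ Qb P.freyCurve.a₆ = _
      simp [FreyPackage.freyCurve])
    two_ne_zero

lemma freyXY_X_some (x y : Qb) (h : (P.freyCurve⁄Qb).Nonsingular x y) :
    (freyXY P).X (Point.some x y h) = 4 * x - 0 := rfl

lemma freyXY_Y_some (x y : Qb) (h : (P.freyCurve⁄Qb).Nonsingular x y) :
    (freyXY P).Y (Point.some x y h) = 8 * y + 4 * x := rfl

variable (A : ValuationSubring Qb) (hA : A.LiesOverPrime 2)
include hA

lemma val_two_lt_one : A.valuation (2 : Qb) < 1 := by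
  have := (ValuationSubring.mem_nonunits_iff A).1 hA
  simpa using this

lemma frey_val_c : ∃ m : ℤ, 0 < m ∧ ¬ (P.p : ℤ) ∣ m ∧
    A.valuation (((-(P.a ^ P.p) : ℤ) : Qb) * ((P.b ^ P.p : ℤ) : Qb) / 2 ^ 4)
      = A.valuation 2 ^ m := by
  have h2 := val_two_lt_one A hA
  obtain ⟨k, b', hk, hb', hb⟩ := frey_b_decomp P
  have hp5 := P.hp5
  refine ⟨(k * P.p : ℕ) - 4, ?_, ?_, ?_⟩
  · have : 5 ≤ k * P.p := le_trans hp5 (Nat.le_mul_of_pos_left _ hk)
    omega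
  · intro h
    have h1 : (P.p : ℤ) ∣ ((k * P.p : ℕ) : ℤ) := ⟨k, by push_cast; ring⟩
    have h3 : (P.p : ℤ) ∣ 4 := by
      have := dvd_sub h1 h
      simpa using this
    have := Int.le_of_dvd (by norm_num) h3
    omega
  · have h20 : A.valuation (2 : Qb) ≠ 0 := (Valuation.ne_zero_iff _).2 two_ne_zero
    have e : ((P.b ^ P.p : ℤ) : Qb) = 2 ^ (k * P.p) * ((b' ^ P.p : ℤ) : Qb) := by
      rw [hb, mul_pow, ← pow_mul]; push_cast; ring
    rw [map_div₀, map_mul, e, map_mul, val_odd_int _ h2 (frey_a_pow_odd P).neg,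
      val_odd_int _ h2 hb'.pow, one_mul, mul_one, map_pow, map_pow, zpow_sub₀ h20, zpow_natCast]
    rfl

lemma frey_twoHyp : TwoHyp A.valuation
    (((-(P.a ^ P.p) : ℤ) : Qb) * ((P.b ^ P.p : ℤ) : Qb) / 2 ^ 4)
    (((-(P.a ^ P.p) : ℤ) : Qb) + ((P.b ^ P.p : ℤ) : Qb))
    ((((-(P.a ^ P.p) : ℤ) : Qb) + ((P.b ^ P.p : ℤ) : Qb) - 1) / 2 ^ 2) P.p where
  vβ := by
    have h2 := val_two_lt_one A hA
    rw [← Int.cast_add]
    apply val_odd_int _ h2
    have hb : Even (P.b ^ P.p) := by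
      have h2 : (2 : ℤ) ∣ P.b := (ZMod.intCast_zmod_eq_zero_iff_dvd P.b 2).1 P.hb2
      exact (even_iff_two_dvd.2 h2).pow_of_ne_zero P.hp0
    exact (frey_a_pow_odd P).neg.add_even hb
  vc := by
    have h2 := val_two_lt_one A hA
    obtain ⟨m, hm, -, h⟩ := frey_val_c P A hA
    rw [h]
    obtain ⟨n, rfl⟩ : ∃ n : ℕ, m = ((n + 1 : ℕ) : ℤ) := ⟨(m - 1).toNat, by omega⟩
    rw [zpow_natCast]
    exact pow_lt_one₀ zero_le h2 (Nat.succ_ne_zero n)
  c0 := by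
    have ha : ((-(P.a ^ P.p) : ℤ) : Qb) ≠ 0 :=
      Int.cast_ne_zero.2 (neg_ne_zero.2 (pow_ne_zero _ P.ha0))
    have hb : ((P.b ^ P.p : ℤ) : Qb) ≠ 0 := Int.cast_ne_zero.2 (pow_ne_zero _ P.hb0)
    exact div_ne_zero (mul_ne_zero ha hb) (pow_ne_zero _ two_ne_zero)
  two := val_two_lt_one A hA
  va₂ := by
    obtain ⟨t, ht⟩ := frey_four_dvd P
    have : (((-(P.a ^ P.p) : ℤ) : Qb) + ((P.b ^ P.p : ℤ) : Qb) - 1) / 2 ^ 2 = (t : Qb) := by
      have h1 : ((-(P.a ^ P.p) : ℤ) : Qb) + ((P.b ^ P.p : ℤ) : Qb) - 1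
          = ((P.b ^ P.p - P.a ^ P.p - 1 : ℤ) : Qb) := by push_cast; ring
      rw [h1, ht]
      push_cast
      ring
    rw [this]
    exact in_intCast _ t
  vp := by
    have h2 := val_two_lt_one A hA
    have := val_odd_int (K := Qb) A.valuation h2 (m := (P.p : ℤ)) (by exact_mod_cast P.hp_odd)
    simpa using this
  odd := P.hp_odd

end model

/-- **(C2b)** -/
theorem two_unipotent (P : FreyPackage) (A : ValuationSubring Qb) (hA : A.LiesOverPrime 2)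
    (σ : Qb ≃ₐ[ℚ] Qb) (hσ : σ ∈ A.inertiaSubgroupIn ℚ)
    (T : (P.freyCurve⁄Qb).Point) (hT : P.p • T = 0) : σ • (σ • T - T) = σ • T - T := by
  have hdec := mem_decomposition_of_mem_inertia A σ hσ
  have : Algebra.IsAlgebraic ℚ Qb := AlgebraicClosure.isAlgebraic ℚ
  have hsome : ∀ x y (h : (P.freyCurve⁄Qb).Nonsingular x y),
      σ • (Point.some x y h : (P.freyCurve⁄Qb).Point) =
      Point.some (σ x) (σ y) ((Affine.baseChange_nonsingular P.freyCurve σ.toAlgHom.injective ..).mpr h) :=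
    fun _ _ _ => rfl
  refine sub_fixed ((freyXY P).toXModel two_ne_zero) ((freyXY P).toYData two_ne_zero)
    (frey_twoHyp P A hA) (σ : Qb →+* Qb)
    (DistribSMul.toAddMonoidHom (P.freyCurve⁄Qb).Point σ) ?_ ?_ ?_ ?_ ?_ hT
  · intro Q hQ
    have hQ' : σ • Q = 0 := hQ
    have := congrArg (fun R => σ⁻¹ • R) hQ'
    simp only [inv_smul_smul] at this
    exact this
  · rintro (_ | ⟨x, y, h⟩) hQ
    · exact absurd rfl hQ
    · show (freyXY P).X (σ • Point.some x y h) / 2 ^ 2 = σ ((freyXY P).X (Point.some x y h) / 2 ^ 2)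
      rw [hsome, freyXY_X_some, freyXY_X_some]
      simp only [map_div₀, map_sub, map_mul, map_ofNat, map_pow, _root_.map_zero]
  · rintro (_ | ⟨x, y, h⟩) hQ
    · exact absurd rfl hQ
    · show ((freyXY P).Y (σ • Point.some x y h) - (freyXY P).X (σ • Point.some x y h)) / 2 ^ 3 =
        σ (((freyXY P).Y (Point.some x y h) - (freyXY P).X (Point.some x y h)) / 2 ^ 3)
      rw [hsome, freyXY_X_some, freyXY_X_some, freyXY_Y_some, freyXY_Y_some]
      simp only [map_div₀, map_sub, map_add, map_mul, map_ofNat, map_pow, _root_.map_zero]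
  · exact fun z => valuation_map_eq A σ hdec z
  · exact fun z hz => valuation_sub_lt_one_of_mem_inertia A σ hσ hz

/-- **(C2c)** -/
theorem no_rational_torsion (P : FreyPackage) (A : ValuationSubring Qb) (hA : A.LiesOverPrime 2)
    (x₀ y₀ : ℚ) (h : (P.freyCurve⁄Qb).Nonsingular (algebraMap ℚ Qb x₀) (algebraMap ℚ Qb y₀)) :
    P.p • (Point.some _ _ h : (P.freyCurve⁄Qb).Point) ≠ 0 := by
  intro hT
  obtain ⟨m, -, hpm, hm⟩ := frey_val_c P A hA
  have H := frey_twoHyp P A hA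
  have h₀ : (P.freyCurve⁄ℚ).Nonsingular x₀ y₀ :=
    (Affine.baseChange_nonsingular P.freyCurve (Algebra.ofId ℚ Qb).injective x₀ y₀).1 h
  have hmap : (Point.some _ _ h : (P.freyCurve⁄Qb).Point)
      = Point.map (Algebra.ofId ℚ Qb) (Point.some x₀ y₀ h₀ : (P.freyCurve⁄ℚ).Point) := rfl
  refine no_rational_torsion_aux ((freyXY P).toXModel two_ne_zero) H.toBadHyp2 H.two P.pp P.hp5 H.vp
    hm hpm (T := Point.some _ _ h) (fun h' => by cases h') hT ?_
  intro k hk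
  rw [hmap, ← map_nsmul] at hk ⊢
  rcases hQ : k • (Point.some x₀ y₀ h₀ : (P.freyCurve⁄ℚ).Point) with _ | ⟨x, y, hxy⟩
  · rw [hQ] at hk
    exact absurd rfl hk
  · refine ⟨x, ?_⟩
    show (freyXY P).X (Point.map (Algebra.ofId ℚ Qb) (Point.some x y hxy)) / 2 ^ 2 = (x : Qb)
    rw [Point.map_some, freyXY_X_some]
    have : (Algebra.ofId ℚ Qb) x = (x : Qb) := by
      rw [Algebra.ofId_apply, eq_ratCast]
    rw [this]
    ring

end Fermat.Agent.S13Aux
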