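import Fermat.Prelude.Def_FLTPrelim_CofixedLine
import Fermat.Agent.S05
import Fermat.Agent.S13.Stable
import Fermat.Agent.S13.LinAlg
import Fermat.Agent.S13.Global
import Fermat.Agent.S13.Two

/-!
# S13: assembly
-/

set_option autoImplicit false

namespace Fermat.Agent.S13Aux

open Fermat.Agent.S05Aux
open WeierstrassCurve WeierstrassCurve.Affine WeierstrassCurve.Affine.Point

local notation "Qb" => AlgebraicClosure ℚ

theorem main (P : FreyPackage)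
    (hred : ¬ GaloisRepIsIrreducible (K := AlgebraicClosure ℚ) ℚ P.freyCurve P.p) :
    HasGaloisStableCofixedLine (K := AlgebraicClosure ℚ) ℚ P.freyCurve P.p := by
  classical
  obtain ⟨r, D, M, h⟩ := exists_shape P
  have hp : P.p.Prime := P.pp
  have hp2 : P.p ≠ 2 := by have := P.hp5; omega
  have : Fact P.p.Prime := ⟨hp⟩
  have : Algebra.IsAlgebraic ℚ Qb := AlgebraicClosure.isAlgebraic ℚ
  set E := h.model Qb with hE
  obtain ⟨A₀, hA₀⟩ := exists_liesOverPrime P.p hp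
  obtain ⟨A₂, hA₂⟩ := exists_liesOverPrime 2 Nat.prime_two
  have hmem : ∀ T : (P.freyCurve⁄Qb).Point,
      T ∈ Submodule.torsionBy ℤ (P.freyCurve⁄Qb).Point P.p ↔ P.p • T = 0 := by
    intro T
    rw [Submodule.mem_torsionBy_iff, Nat.cast_smul_eq_nsmul ℤ]
  have htor : ∀ x : Submodule.torsionBy ℤ (P.freyCurve⁄Qb).Point P.p, P.p • x.1 = 0 :=
    fun x => (hmem x.1).1 x.2
  let e : Submodule.torsionBy ℤ (P.freyCurve⁄Qb).Point P.p ≃
      {T : (P.freyCurve⁄Qb).Point // P.p • T = 0} := Equiv.subtypeEquivRight hmem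
  obtain ⟨hfin', hcard'⟩ := h.card_torsion_le' (L := Qb) hp hp2
  have hfin : Finite (Submodule.torsionBy ℤ (P.freyCurve⁄Qb).Point P.p) := Finite.of_equiv _ e.symm
  have hcard : Nat.card (Submodule.torsionBy ℤ (P.freyCurve⁄Qb).Point P.p) ≤ P.p ^ 2 := by
    rw [Nat.card_congr e]; exact hcard'
  have hnon : Nontrivial (Submodule.torsionBy ℤ (P.freyCurve⁄Qb).Point P.p) := by
    obtain ⟨T, hT0, hT⟩ := h.exists_torsion' (L := Qb) hp hp2 A₀ hA₀
    exact ⟨⟨⟨T, (hmem T).2 hT⟩, 0, fun h0 => hT0 (congrArg Subtype.val h0)⟩⟩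
  obtain ⟨N, hst, h0, h1⟩ : ∃ N : Submodule (ZMod P.p)
      (Submodule.torsionBy ℤ (P.freyCurve⁄Qb).Point P.p), IsGaloisStable ℚ N ∧ N ≠ ⊥ ∧ N ≠ ⊤ := by
    by_contra hcon
    apply hred
    refine ⟨hnon, fun N hN => ?_⟩
    by_contra hN'
    push Not at hN'
    exact hcon ⟨N, hN, hN'.1, hN'.2⟩
  refine ⟨N, hst, h0, h1, ?_⟩
  -- the kernel of reduction
  let WA : ValuationSubring Qb → AddSubgroup (Submodule.torsionBy ℤ (P.freyCurve⁄Qb).Point P.p) :=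
    fun A =>
    { carrier := {x | InW E A.valuation x.1}
      add_mem' := fun {a b} ha hb => InW_add E A.valuation (valuation_intCast_le_one A D)
        (valuation_intCast_le_one A M) (Shape.two_ne_zero' Qb) ha hb
      zero_mem' := InW_zero E A.valuation
      neg_mem' := fun {a} ha => InW_neg E A.valuation ha }
  have hWA : ∀ A x, x ∈ WA A ↔ InW E A.valuation x.1 := fun _ _ => Iff.rfl
  let Nm : (P.freyCurve⁄Qb).Point → Prop := fun T =>
    ∃ hT : T ∈ Submodule.torsionBy ℤ (P.freyCurve⁄Qb).Point P.p,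
      (⟨T, hT⟩ : Submodule.torsionBy ℤ (P.freyCurve⁄Qb).Point P.p) ∈ N
  have hNm : ∀ x : Submodule.torsionBy ℤ (P.freyCurve⁄Qb).Point P.p, Nm x.1 ↔ x ∈ N :=
    fun x => ⟨fun ⟨_, h⟩ => h, fun h => ⟨x.2, h⟩⟩
  have hNst : ∀ (σ : Qb ≃ₐ[ℚ] Qb) (T : (P.freyCurve⁄Qb).Point), Nm T → Nm (σ • T) :=
    fun σ T ⟨hT, hN⟩ => ⟨smul_mem_torsionBy σ hT, hst σ ⟨T, hT⟩ hN⟩
  have hNtor : ∀ T, Nm T → P.p • T = 0 := fun T ⟨hT, _⟩ => (hmem T).1 hT
  have hN0 : Nm 0 := ⟨Submodule.zero_mem _, N.zero_mem⟩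
  have hNneg : ∀ T, Nm T → Nm (-T) := fun T ⟨hT, hN⟩ => ⟨Submodule.neg_mem _ hT, N.neg_mem hN⟩
  obtain ⟨x₁, hx₁N, hx₁0⟩ := (Submodule.ne_bot_iff N).1 h0
  obtain ⟨x₂, hx₂N⟩ : ∃ x, x ∉ N := by
    by_contra hcon
    push Not at hcon
    exact h1 (eq_top_iff.2 fun x _ => hcon x)
  have hx₁0' : x₁.1 ≠ 0 := fun h => hx₁0 (Subtype.ext h)
  -- the finite set of coordinates
  set S : Set Qb := Set.range (fun x : Submodule.torsionBy ℤ (P.freyCurve⁄Qb).Point P.p => E.X x.1) ∪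
    Set.range (fun x : Submodule.torsionBy ℤ (P.freyCurve⁄Qb).Point P.p => E.Y x.1) with hS
  have hSfin : S.Finite := (Set.finite_range _).union (Set.finite_range _)
  have hfix : ∀ σ : Qb ≃ₐ[ℚ] Qb, (∀ z ∈ S, σ z = z) →
      ∀ x : Submodule.torsionBy ℤ (P.freyCurve⁄Qb).Point P.p, σ • x = x := by
    intro σ hσ x
    apply Subtype.ext
    change σ • x.1 = x.1
    by_cases hx : x.1 = 0
    · rw [hx]; rfl
    · refine E.ext _ _ (Shape.smul_ne_zero σ hx) hx ?_ ?_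
      · rw [hE, h.model_X_smul]; exact hσ _ (Or.inl ⟨x, rfl⟩)
      · rw [hE, h.model_Y_smul]; exact hσ _ (Or.inr ⟨x, rfl⟩)
  -- inertia at `2`
  have hI2 : ∀ A : ValuationSubring Qb, A.LiesOverPrime 2 → ∀ σ ∈ A.inertiaSubgroupIn ℚ,
      (∀ x ∈ N, σ • x = x) ∧ (∀ x, σ • x - x ∈ N) := by
    intro A hA σ hσ
    exact unipotent_trivial hfin hcard N h0 h1
      (DistribSMul.toAddMonoidHom (Submodule.torsionBy ℤ (P.freyCurve⁄Qb).Point P.p) σ) (hst σ)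
      (fun x => Subtype.ext (two_unipotent P A hA σ hσ x.1 (htor x)))
  -- inertia at `ℓ ≠ 2, p`
  have hIℓ : ∀ ℓ : ℕ, ℓ.Prime → ℓ ≠ 2 → ℓ ≠ P.p → ∀ A : ValuationSubring Qb, A.LiesOverPrime ℓ →
      ∀ σ ∈ A.inertiaSubgroupIn ℚ, ∀ x : Submodule.torsionBy ℤ (P.freyCurve⁄Qb).Point P.p,
      σ • x = x := fun ℓ hℓ hℓ2 hℓp A hA σ hσ x => Fermat.Agent.S05.result P hℓ hℓ2 hℓp A hA σ hσ x
  -- inertia at `p`
  have hIp : ∀ A : ValuationSubring Qb, A.LiesOverPrime P.p → ∀ σ ∈ A.inertiaSubgroupIn ℚ,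
      ∀ x : Submodule.torsionBy ℤ (P.freyCurve⁄Qb).Point P.p, σ • x - x ∈ WA A :=
    fun A hA σ hσ x => h.InW_smul_sub hp hp2 A hA σ hσ (htor x)
  have hstA : ∀ σ : Qb ≃ₐ[ℚ] Qb, ∀ x ∈ N.toAddSubgroup, σ • x ∈ N.toAddSubgroup := hst
  by_cases hcase : ∃ A : ValuationSubring Qb, A.LiesOverPrime P.p ∧ ∃ x ∈ N, x ≠ 0 ∧ x ∈ WA A
  · -- Case I
    obtain ⟨A, hA, hx⟩ := hcase
    have hNW : ∀ x ∈ N, x ∈ WA A := subset_addSubgroup hfin hcard N h0 h1 (WA A) hx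
    have hNW' : ∀ A' : ValuationSubring Qb, A'.LiesOverPrime P.p → ∀ x ∈ N, x ∈ WA A' := by
      intro A' hA'
      obtain ⟨T, ⟨hT, hTN⟩, hT0, hlt⟩ := exists_one_lt_of_forall h hp hp2 Nm hNst hNtor A A' hA hA'
        ⟨x₁.1, (hNm x₁).2 hx₁N, hx₁0'⟩
        (fun T ⟨hT, hTN⟩ hT0 => (hNW ⟨T, hT⟩ hTN).resolve_left hT0)
      exact subset_addSubgroup hfin hcard N h0 h1 (WA A')
        ⟨⟨T, hT⟩, hTN, fun h0 => hT0 (congrArg Subtype.val h0), Or.inr hlt⟩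
    have hcard2 : Nat.card {T : (P.freyCurve⁄Qb).Point // P.p • T = 0} = P.p ^ 2 := by
      rw [← Nat.card_congr e]; exact card_eq_sq hfin hcard N h0 h1
    have hWN : ∀ A' : ValuationSubring Qb, A'.LiesOverPrime P.p → ∀ x ∈ WA A', x ∈ N := by
      intro A' hA'
      obtain ⟨T, hT, hTW⟩ := exists_not_InW h hp hp2 Nm hNst A' hA' hN0 hNneg
        ⟨x₁.1, htor x₁, (hNm x₁).2 hx₁N, hx₁0'⟩
        ⟨x₂.1, htor x₂, fun hc => hx₂N ((hNm x₂).1 hc)⟩ hcard2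
      exact mem_of_mem_addSubgroup hfin hcard N h0 h1 (WA A') (hNW' A' hA')
        ⟨⟨T, (hmem T).2 hT⟩, hTW⟩
    have htop : fixQuot N.toAddSubgroup hstA = ⊤ := by
      refine eq_top_of_inertia_le _ (fixQuot_normal _ hstA) S hSfin ?_ ?_
      · intro σ hσ
        rw [mem_fixQuot]
        intro x
        rw [hfix σ hσ x, sub_self]
        exact N.zero_mem
      · intro ℓ hℓ A' hA' σ hσ
        rw [mem_fixQuot]
        intro x
        by_cases hℓ2 : ℓ = 2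
        · subst hℓ2
          exact (hI2 A' hA' σ hσ).2 x
        by_cases hℓp : ℓ = P.p
        · subst hℓp
          exact hWN A' hA' _ (hIp A' hA' σ hσ x)
        · rw [hIℓ ℓ hℓ hℓ2 hℓp A' hA' σ hσ x, sub_self]
          exact N.zero_mem
    intro σ x
    have : σ ∈ fixQuot N.toAddSubgroup hstA := by rw [htop]; exact Subgroup.mem_top σ
    exact (mem_fixQuot _ hstA σ).1 this x
  · -- Case II
    exfalso
    push Not at hcase
    have htop : fixSub (Qb ≃ₐ[ℚ] Qb) N.toAddSubgroup = ⊤ := by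
      refine eq_top_of_inertia_le _ (fixSub_normal _ hstA) S hSfin ?_ ?_
      · intro σ hσ
        rw [mem_fixSub]
        intro x _
        exact hfix σ hσ x
      · intro ℓ hℓ A' hA' σ hσ
        rw [mem_fixSub]
        intro x hx
        by_cases hℓ2 : ℓ = 2
        · subst hℓ2
          exact (hI2 A' hA' σ hσ).1 x hx
        by_cases hℓp : ℓ = P.p
        · subst hℓp
          by_contra hne
          exact hcase A' hA' (σ • x - x) (N.sub_mem (hst σ x hx) hx) (sub_ne_zero.2 hne)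
            (hIp A' hA' σ hσ x)
        · exact hIℓ ℓ hℓ hℓ2 hℓp A' hA' σ hσ x
    have hfixed : ∀ σ : Qb ≃ₐ[ℚ] Qb, σ • x₁.1 = x₁.1 := by
      intro σ
      have : σ ∈ fixSub (Qb ≃ₐ[ℚ] Qb) N.toAddSubgroup := by rw [htop]; exact Subgroup.mem_top σ
      exact congrArg Subtype.val ((mem_fixSub _ σ).1 this x₁ hx₁N)
    have hx₁t := htor x₁
    rcases hx : x₁.1 with _ | ⟨x, y, hxy⟩
    · exact hx₁0' hx
    · rw [hx] at hfixed hx₁t
      have hfx : ∀ σ : Qb ≃ₐ[ℚ] Qb, σ x = x ∧ σ y = y := by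
        intro σ
        have := hfixed σ
        have h' : σ • (Point.some x y hxy : (P.freyCurve⁄Qb).Point) = Point.some (σ x) (σ y)
          ((WeierstrassCurve.Affine.baseChange_nonsingular P.freyCurve σ.toAlgHom.injective ..).mpr hxy) := rfl
        rw [h'] at this
        simpa using this
      obtain ⟨x₀, rfl⟩ := exists_rat_of_fixed x fun σ => (hfx σ).1
      obtain ⟨y₀, rfl⟩ := exists_rat_of_fixed y fun σ => (hfx σ).2
      exact no_rational_torsion P A₂ hA₂ x₀ y₀ hxy hx₁t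

end Fermat.Agent.S13Aux
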