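import Mathlib
import Fermat.Agent.S05.Model
import Fermat.Agent.S05.Kernel

/-!
# S13, (C4a), (C4b): the kernel of reduction at `p` and the action of inertia at `p`
-/

set_option autoImplicit false
set_option linter.unusedSectionVars false

namespace Fermat.Agent.S13Aux

open Fermat.Agent.S05Aux

variable {K : Type*} [Field K] {G : Type*} [AddCommGroup G] {D M : K} (E : XYModel K G D M)
  {Γ₀ : Type*} [LinearOrderedCommGroupWithZero Γ₀] (v : Valuation K Γ₀)

/-- The kernel of reduction. -/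
def InW (T : G) : Prop := T = 0 ∨ 1 < v (E.X T)

lemma InW_zero : InW E v 0 := Or.inl rfl

lemma InW_neg {T : G} (h : InW E v T) : InW E v (-T) := by
  rcases h with h | h
  · exact Or.inl (by rw [h, neg_zero])
  · exact Or.inr (by rwa [E.X_neg])

omit E in
lemma lt_one_of_add_mul {a b : K} (h1 : v (a + b) < 1) (h2 : v (a * b) < 1) : v a < 1 := by
  by_contra ha
  rw [not_lt] at ha
  have hb : v b < 1 := by
    by_contra hb
    rw [not_lt] at hb
    rw [map_mul] at h2
    exact absurd h2 (not_lt.2 (one_le_mul ha hb))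
  have : v (a + b) = v a := v.map_add_eq_of_lt_left (lt_of_lt_of_le hb ha)
  rw [this] at h1
  exact absurd h1 (not_lt.2 ha)

omit E in
lemma one_lt_of_inv_lt_one {x : K} (hx : x ≠ 0) (h : v x⁻¹ < 1) : 1 < v x := by
  rw [map_inv₀] at h
  have hpos : 0 < v x := (Valuation.pos_iff v).2 hx
  exact (inv_lt_one₀ hpos).1 h

section add
variable (hD : v D ≤ 1) (hM : v M ≤ 1) (h2 : (2 : K) ≠ 0)
include hD hM h2

lemma InW_add_of_ne {P Q : G} (hP : P ≠ 0) (hQ : Q ≠ 0) (hXP : 1 < v (E.X P))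
    (hXQ : 1 < v (E.X Q)) (hne : E.X P ≠ E.X Q) : 1 < v (E.X (P + Q)) := by
  set x₁ := E.X P with hx₁
  set x₂ := E.X Q with hx₂
  have hx₁0 : x₁ ≠ 0 := ne_zero_of_one_lt v hXP
  have hx₂0 : x₂ ≠ 0 := ne_zero_of_one_lt v hXQ
  set u := x₁⁻¹ with hu
  set w := x₂⁻¹ with hw
  have hus : v u < 1 := val_inv_lt_one v hXP
  have hws : v w < 1 := val_inv_lt_one v hXQ
  have hDM : v (D * M) ≤ 1 := in_mul_in v hD hM
  have he : v (D * M * u * w) < 1 := in_mul_sm v (in_mul_in v hDM hus.le) hws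
  have h1e : v (1 - D * M * u * w) = 1 := val_one_sub_of_sm v he
  have ha0 : x₁ * x₂ - D * M ≠ 0 := by
    have : x₁ * x₂ - D * M = x₁ * x₂ * (1 - D * M * u * w) := by rw [hu, hw]; field_simp
    rw [this]
    exact mul_ne_zero (mul_ne_zero hx₁0 hx₂0) (fun h => by rw [h] at h1e; simp at h1e)
  have F3 := E.X_add_mul_X_sub hP hQ hne
  have F4 := E.X_add_add_X_sub hP hQ hne
  have hprod : E.X (P + Q) * E.X (P - Q) ≠ 0 := by
    intro h
    rw [h, zero_mul] at F3
    exact pow_ne_zero 2 ha0 F3.symm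
  have hxp : E.X (P + Q) ≠ 0 := left_ne_zero_of_mul hprod
  have hxm : E.X (P - Q) ≠ 0 := right_ne_zero_of_mul hprod
  have hunit : v ((1 - D * M * u * w) ^ 2) = 1 := by rw [map_pow, h1e, one_pow]
  have key1 : ((E.X (P + Q))⁻¹ * (E.X (P - Q))⁻¹) * (1 - D * M * u * w) ^ 2 = (w - u) ^ 2 := by
    rw [hu, hw]
    field_simp
    linear_combination -F3
  have key2 : ((E.X (P + Q))⁻¹ + (E.X (P - Q))⁻¹) * (1 - D * M * u * w) ^ 2 =
      2 * ((u + w) * (1 + D * M * u * w) + 2 * (D + M) * (u * w)) := by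
    rw [hu, hw]
    field_simp
    linear_combination (-(E.X (P + Q) + E.X (P - Q))) * F3 + (E.X (P + Q) * E.X (P - Q)) * F4
  have hs1 : v ((E.X (P + Q))⁻¹ * (E.X (P - Q))⁻¹) < 1 := by
    refine sm_of_mul_unit v key1 hunit ?_
    rw [pow_two]
    exact sm_mul_in v (sm_sub_sm v hws hus) (sm_sub_sm v hws hus).le
  have hs2 : v ((E.X (P + Q))⁻¹ + (E.X (P - Q))⁻¹) < 1 := by
    refine sm_of_mul_unit v key2 hunit ?_
    refine in_mul_sm v (in_ofNat v 2) (sm_add_sm v (sm_mul_in v (sm_add_sm v hus hws)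
      (in_add_in v (by simp) he.le)) ?_)
    exact in_mul_sm v (in_mul_in v (in_ofNat v 2) (in_add_in v hD hM)) (sm_mul_in v hus hws.le)
  exact one_lt_of_inv_lt_one v hxp (lt_one_of_add_mul v hs2 hs1)

lemma InW_add {P Q : G} (hP : InW E v P) (hQ : InW E v Q) : InW E v (P + Q) := by
  rcases hP with rfl | hXP
  · rwa [zero_add]
  rcases hQ with rfl | hXQ
  · rw [add_zero]; exact Or.inr hXP
  by_cases hP0 : P = 0
  · rw [hP0, zero_add]; exact Or.inr hXQ
  by_cases hQ0 : Q = 0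
  · rw [hQ0, add_zero]; exact Or.inr hXP
  by_cases hne : E.X P = E.X Q
  · rcases E.eq_or_eq_neg hP0 hQ0 hne with rfl | rfl
    · obtain ⟨h2P, hX2, hdbl⟩ := E.dbl_kernel v hD hM h2 hP0 hXP
      right
      rw [← two_nsmul]
      rw [E.xi_of_ne h2P] at hdbl
      have h4 : v (E.X P / E.X (2 • P)) ≤ 1 := by
        have : E.X P / E.X (2 • P) = (E.X P / E.X (2 • P) - 4) + 4 := by ring
        rw [this]
        exact in_add_in v hdbl.le (in_ofNat v 4)
      rw [map_div₀] at h4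
      have hpos : 0 < v (E.X (2 • P)) := (Valuation.pos_iff v).2 hX2
      exact lt_of_lt_of_le hXP ((div_le_one₀ hpos).1 h4)
    · left; exact neg_add_cancel Q
  · exact Or.inr (InW_add_of_ne E v hD hM h2 hP0 hQ0 hXP hXQ hne)

lemma InW_sub {P Q : G} (hP : InW E v P) (hQ : InW E v Q) : InW E v (P - Q) := by
  rw [sub_eq_add_neg]
  exact InW_add E v hD hM h2 hP (InW_neg E v hQ)

lemma InW_nsmul {P : G} (hP : InW E v P) (n : ℕ) : InW E v (n • P) := by
  induction n with
  | zero => rw [zero_nsmul]; exact InW_zero E v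
  | succ n ih => rw [succ_nsmul]; exact InW_add E v hD hM h2 ih hP

end add

/-- Standing hypotheses at the prime `p`. -/
structure PHyp (v : Valuation K Γ₀) (D M : K) (p : ℕ) : Prop where
  two : v 2 = 1
  vM : v M = 1
  vD : v D ≤ 1
  vDM : v (D - M) = 1
  vp : v (p : K) < 1
  prime : p.Prime
  odd : Odd p
  D0 : D ≠ 0

variable {v} {p : ℕ}

omit E in
lemma PHyp.two_ne_zero (H : PHyp v D M p) : (2 : K) ≠ 0 := by
  intro h
  have := H.two
  rw [h] at this
  simp at this

omit E in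
lemma PHyp.four (H : PHyp v D M p) : v (4 : K) = 1 := by
  have : (4 : K) = 2 * 2 := by norm_num
  rw [this, map_mul, H.two, one_mul]

omit E in
lemma exists_nsmul_nsmul_eq (hp : p.Prime) {T : G} (hT : p • T = 0) {k : ℕ} (hk : ¬ p ∣ k) :
    ∃ m : ℕ, m • (k • T) = T := by
  have hcop : Nat.Coprime k p := ((Nat.Prime.coprime_iff_not_dvd hp).2 hk).symm
  obtain ⟨m, -, hm⟩ := Nat.exists_mul_mod_eq_one_of_coprime hcop hp.one_lt
  refine ⟨m, ?_⟩
  rw [← mul_nsmul', mul_comm m k]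
  conv_lhs => rw [← Nat.div_add_mod (k * m) p, hm, add_nsmul, mul_nsmul, hT, nsmul_zero, zero_add,
    one_nsmul]

lemma not_InW_nsmul (H : PHyp v D M p) {T : G} (hT : p • T = 0) (hW : ¬ InW E v T) {k : ℕ}
    (hk : ¬ p ∣ k) : ¬ InW E v (k • T) := by
  intro h
  obtain ⟨m, hm⟩ := exists_nsmul_nsmul_eq H.prime hT hk
  apply hW
  rw [← hm]
  exact InW_nsmul E v H.vD H.vM.le H.two_ne_zero h m

lemma le_one_of_not_InW {T : G} (hW : ¬ InW E v T) : v (E.X T) ≤ 1 :=
  not_lt.1 fun h => hW (Or.inr h)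

lemma ne_zero_of_not_InW {T : G} (hW : ¬ InW E v T) : T ≠ 0 :=
  fun h => hW (Or.inl h)

omit E in
lemma PHyp.not_dvd_two (H : PHyp v D M p) : ¬ p ∣ 2 := by
  intro h
  have := (Nat.prime_dvd_prime_iff_eq H.prime Nat.prime_two).1 h
  have h2 := H.odd
  rw [this] at h2
  exact absurd h2 (by decide)

/-- (G2) without torsion hypotheses. -/
theorem val_Y_eq_one_of (H : PHyp v D M p) {T : G} (hT0 : T ≠ 0) (h2T : 2 • T ≠ 0)
    (hx : v (E.X T) ≤ 1) (hx2 : v (E.X (2 • T)) ≤ 1)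
    (hX : v (E.X T) = 1 ∨ v D = 1) : v (E.Y T) = 1 := by
  have hy0 : E.Y T ≠ 0 := fun h => h2T (E.two_nsmul_eq_zero_of_Y hT0 h)
  have heq := E.eqn T hT0
  have hdbl := E.X_two T hT0 hy0
  set x := E.X T with hxdef
  set y := E.Y T with hydef
  have hxD : v (x + D) ≤ 1 := in_add_in v hx H.vD
  have hxM : v (x + M) ≤ 1 := in_add_in v hx H.vM.le
  have hveq : v y ^ 2 = v x * v (x + D) * v (x + M) := by
    rw [← map_pow, heq, map_mul, map_mul]
  have hy1 : v y ≤ 1 := by
    have : v y ^ 2 ≤ 1 := by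
      rw [hveq]; exact mul_le_one' (mul_le_one' hx hxD) hxM
    exact (pow_le_one_iff (two_ne_zero)).1 this
  by_contra hne
  have hylt : v y < 1 := lt_of_le_of_ne hy1 hne
  have hMD : v (M - D) = 1 := by rw [← H.vDM, ← Valuation.map_neg]; congr 1; ring
  have hunit : v (x ^ 2 - D * M) = 1 := by
    by_cases c1 : v x < 1
    · have hD1 : v D = 1 := hX.resolve_left c1.ne
      have : x ^ 2 - D * M = x * x + -(D * M) := by ring
      rw [this]
      exact XYModel.val_eq_one_of_add_sm (by rw [Valuation.map_neg, map_mul, hD1, H.vM, one_mul])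
        (sm_mul_in v c1 hx)
    have c1' : v x = 1 := le_antisymm hx (not_lt.1 c1)
    by_cases c2 : v (x + D) < 1
    · have hD1 : v D = 1 := by
        by_contra hD1
        have hDlt : v D < 1 := lt_of_le_of_ne H.vD hD1
        have : v (x + D) = 1 := by rw [add_comm]; exact XYModel.val_eq_one_of_add_sm c1' hDlt
        exact c2.ne this
      have : x ^ 2 - D * M = (x + D) * (x - D) + D * (D - M) := by ring
      rw [this]
      exact XYModel.val_eq_one_of_add_sm (by rw [map_mul, hD1, H.vDM, one_mul])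
        (sm_mul_in v c2 (in_sub_in v hx H.vD))
    have c2' : v (x + D) = 1 := le_antisymm hxD (not_lt.1 c2)
    have c3 : v (x + M) < 1 := by
      by_contra c3
      have c3' : v (x + M) = 1 := le_antisymm hxM (not_lt.1 c3)
      rw [c1', c2', c3', one_mul, one_mul] at hveq
      exact hne ((pow_eq_one_iff).1 hveq |>.resolve_right two_ne_zero)
    have : x ^ 2 - D * M = (x + M) * (x - M) + M * (M - D) := by ring
    rw [this]
    exact XYModel.val_eq_one_of_add_sm (by rw [map_mul, H.vM, hMD, one_mul])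
      (sm_mul_in v c3 (in_sub_in v hx H.vM.le))
  have hv := congrArg v hdbl
  rw [map_mul, map_mul, H.four, one_mul, map_pow, map_pow, hunit, one_pow] at hv
  have : v (E.X (2 • T)) * v y ^ 2 < 1 := by
    calc v (E.X (2 • T)) * v y ^ 2 ≤ 1 * v y ^ 2 := mul_le_mul_left hx2 _
      _ = v y ^ 2 := one_mul _
      _ < 1 := pow_lt_one₀ zero_le hylt two_ne_zero
  exact this.ne hv

/-- An automorphism `(τ, s)` of the model which behaves like an element of the inertia group. -/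
structure AutHyp (E : XYModel K G D M) (v : Valuation K Γ₀) (τ : G →+ G) (s : K →+* K) : Prop where
  X_map : ∀ T, T ≠ 0 → E.X (τ T) = s (E.X T)
  Y_map : ∀ T, T ≠ 0 → E.Y (τ T) = s (E.Y T)
  ne_zero : ∀ T, T ≠ 0 → τ T ≠ 0
  val : ∀ x, v (s x) = v x
  close : ∀ x, v x ≤ 1 → v (s x - x) < 1

variable {τ : G →+ G} {s : K →+* K}

omit E in
/-- if `a * b ^ 2 = c` with `|c| = 1`, `|b| < 1`, then `1 < |a|`. -/
lemma one_lt_of_mul_sq {a b c : K} (h : a * b ^ 2 = c) (hc : v c = 1) (hb : v b < 1) :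
    1 < v a := by
  by_contra ha
  rw [not_lt] at ha
  have h1 : v (a * b ^ 2) < 1 := by
    rw [pow_two, ← mul_assoc]
    exact in_mul_sm v (in_mul_in v ha hb.le) hb
  rw [h, hc] at h1
  exact lt_irrefl _ h1

lemma InW_map_sub_of_Y (H : PHyp v D M p) (hτ : AutHyp E v τ s) {T : G} (hT0 : T ≠ 0)
    (hx : v (E.X T) ≤ 1) (hy : v (E.Y T) = 1) : InW E v (τ T - T) := by
  have hτ0 := hτ.ne_zero T hT0
  have hX' := hτ.X_map T hT0
  have hY' := hτ.Y_map T hT0
  have h1 : v (E.X (τ T) - E.X T) < 1 := by rw [hX']; exact hτ.close _ hx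
  have h2 : v (E.Y (τ T) - E.Y T) < 1 := by rw [hY']; exact hτ.close _ hy.le
  have h3 : v (E.Y (τ T) + E.Y T) = 1 := by
    have : E.Y (τ T) + E.Y T = (E.Y (τ T) - E.Y T) + 2 * E.Y T := by ring
    rw [this]
    exact XYModel.val_eq_one_of_add_sm (by rw [map_mul, H.two, hy, one_mul]) h2
  by_cases hne : E.X (τ T) = E.X T
  · rcases E.eq_or_eq_neg hτ0 hT0 hne with h | h
    · left; rw [h, sub_self]
    · exfalso
      rw [h, E.Y_neg, neg_add_cancel, map_zero] at h3
      exact zero_ne_one h3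
  · right
    have hsub := E.X_sub (τ T) T hτ0 hT0 hne
    refine one_lt_of_mul_sq hsub ?_ h1
    have hx' : v (E.X (τ T)) ≤ 1 := by rw [hX', hτ.val]; exact hx
    have h4 : v ((D + M + E.X (τ T) + E.X T) * (E.X (τ T) - E.X T) ^ 2) < 1 := by
      rw [pow_two, ← mul_assoc]
      exact in_mul_sm v (in_mul_in v (in_add_in v (in_add_in v (in_add_in v H.vD H.vM.le) hx') hx)
        h1.le) h1
    have h5 : v ((E.Y (τ T) + E.Y T) ^ 2) = 1 := by rw [map_pow, h3, one_pow]
    rw [sub_eq_add_neg, add_comm]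
    exact XYModel.val_eq_one_of_add_sm h5 (by rwa [Valuation.map_neg])

section modp
open Polynomial
omit E
variable (v)

lemma in_intCast_P (n : ℤ) : v (n : K) ≤ 1 := by
  rcases Int.eq_nat_or_neg n with ⟨m, rfl | rfl⟩
  · rw [Int.cast_natCast]; exact in_natCast v m
  · rw [Int.cast_neg, Valuation.map_neg, Int.cast_natCast]; exact in_natCast v m

lemma val_aeval_le_one {c : K} (hc : v c ≤ 1) (F : ℤ[X]) : v (aeval c F) ≤ 1 := by
  induction F using Polynomial.induction_on' with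
  | add f g hf hg => rw [map_add]; exact in_add_in v hf hg
  | monomial n a =>
    rw [aeval_monomial]
    refine in_mul_in v ?_ (in_pow v hc n)
    rw [eq_intCast]
    exact in_intCast_P v a

lemma val_aeval_lt_one (hp : v (p : K) < 1) {c : K} (hc : v c ≤ 1) (F : ℤ[X])
    (hF : F.map (Int.castRingHom (ZMod p)) = 0) : v (aeval c F) < 1 := by
  have hdvd : C (p : ℤ) ∣ F := by
    rw [C_dvd_iff_dvd_coeff]
    intro i
    have := congrArg (fun q => q.coeff i) hF
    simp only [coeff_map, coeff_zero, eq_intCast] at this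
    exact (ZMod.intCast_zmod_eq_zero_iff_dvd _ p).1 this
  obtain ⟨F', rfl⟩ := hdvd
  rw [map_mul, aeval_C, eq_intCast, Int.cast_natCast]
  exact sm_mul_in v hp (val_aeval_le_one v hc F')

lemma dickson_modp (p : ℕ) [Fact p.Prime] :
    (((X - 2) ^ p - (dickson 1 1 p - 2) : ℤ[X])).map (Int.castRingHom (ZMod p)) = 0 := by
  rw [Polynomial.map_sub, Polynomial.map_sub, Polynomial.map_pow, Polynomial.map_sub, map_X,
    Polynomial.map_ofNat, map_dickson, map_one, dickson_one_one_charP, sub_pow_char]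
  have : (2 : (ZMod p)[X]) ^ p = 2 := by
    have h2 : (2 : (ZMod p)[X]) = C 2 := rfl
    rw [h2, ← C_pow, ZMod.pow_card]
  rw [this, sub_self]

lemma val_dickson (hp : p.Prime) (hvp : v (p : K) < 1) {c : K} (hc : v c ≤ 1) :
    v ((c - 2) ^ p - ((dickson 1 (1 : K) p).eval c - 2)) < 1 := by
  have : Fact p.Prime := ⟨hp⟩
  have := val_aeval_lt_one v hvp hc _ (dickson_modp p)
  have h1 : aeval c (dickson 1 (1 : ℤ) p) = (dickson 1 (1 : K) p).eval c := by
    rw [aeval_def, ← eval_map, map_dickson, map_one]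
  have h2 : aeval c ((X - 2) ^ p - (dickson 1 1 p - 2) : ℤ[X]) =
      (c - 2) ^ p - ((dickson 1 (1 : K) p).eval c - 2) := by
    rw [map_sub, map_sub, map_pow, map_sub, aeval_X, h1, map_ofNat]
  rwa [h2] at this

omit [LinearOrderedCommGroupWithZero Γ₀] in
lemma eq_one_and_eq_one_of_mul [LinearOrderedCommGroupWithZero Γ₀] {a b : Γ₀} (ha : a ≤ 1) (hb : b ≤ 1)
    (h : a * b = 1) : a = 1 ∧ b = 1 := by
  have h1 : a = 1 := by
    refine le_antisymm ha ?_
    rw [← h]
    exact mul_le_of_le_one_right' hb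
  refine ⟨h1, ?_⟩
  rw [h1, one_mul] at h
  exact h

end modp

/-- `c_k = 4 M / X (k T) + 2`, `c_0 = 2`. -/
noncomputable def cc (E : XYModel K G D M) (T : G) : ℕ → K
  | 0 => 2
  | (k + 1) => 4 * M / E.X ((k + 1) • T) + 2

section bad
variable (H : PHyp v D M p) (hD : v D < 1) {T : G} (hT0 : T ≠ 0) (hT : p • T = 0)
  (hX : v (E.X T) = 1)
include H hD hT0 hT hX

lemma bad_not_InW : ¬ InW E v T := by
  rintro (h | h)
  · exact hT0 h
  · rw [hX] at h; exact lt_irrefl _ h

lemma bad_dup : v (E.X (2 • T)) = 1 ∧ v (cc E T 2 + cc E T 0 - cc E T 1 * cc E T 1) < 1 := by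
  have hW := bad_not_InW E H hD hT0 hT hX
  have hW2 := not_InW_nsmul E H hT hW H.not_dvd_two
  have h2T := ne_zero_of_not_InW E hW2
  have hx2 := le_one_of_not_InW E hW2
  have hy0 : E.Y T ≠ 0 := fun h => h2T (E.two_nsmul_eq_zero_of_Y hT0 h)
  have heq := E.eqn T hT0
  have hdbl := E.X_two T hT0 hy0
  have hcc2 : cc E T 2 = 4 * M / E.X (2 • T) + 2 := rfl
  have hcc1 : cc E T 1 = 4 * M / E.X T + 2 := by
    change 4 * M / E.X ((0 + 1) • T) + 2 = _
    rw [zero_add, one_nsmul]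
  have hcc0 : cc E T 0 = 2 := rfl
  rw [hcc2, hcc1, hcc0]
  set x := E.X T with hxdef
  set y := E.Y T with hydef
  set x₂ := E.X (2 • T) with hx2def
  have hx0 : x ≠ 0 := by
    intro h; rw [h, map_zero] at hX; exact zero_ne_one hX
  have hDM : v (D * M) < 1 := sm_mul_in v hD H.vM.le
  have ha : v (x ^ 2 - D * M) = 1 := by
    rw [sub_eq_add_neg, add_comm]
    exact XYModel.val_eq_one_of_add_sm (by rw [map_pow, hX, one_pow]) (by rwa [Valuation.map_neg])
  have hy2 : v (4 * y ^ 2) ≤ 1 := by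
    rw [heq]
    exact in_mul_in v (in_ofNat v 4) (in_mul_in v (in_mul_in v hX.le (in_add_in v hX.le H.vD))
      (in_add_in v hX.le H.vM.le))
  have hv := congrArg v hdbl
  rw [map_mul, map_pow v (x ^ 2 - D * M), ha, one_pow] at hv
  obtain ⟨hx21, -⟩ := eq_one_and_eq_one_of_mul hx2 hy2 hv
  refine ⟨hx21, ?_⟩
  have hx20 : x₂ ≠ 0 := by
    intro h; rw [h, map_zero] at hx21; exact zero_ne_one hx21
  have key : (4 * M / x₂ + 2 + 2 - (4 * M / x + 2) * (4 * M / x + 2)) * (x ^ 2 * (x ^ 2 - D * M) ^ 2)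
      = D * (16 * M * (x + M) * (x ^ 3 + 2 * M * x ^ 2 - D * M ^ 2)) := by
    field_simp
    linear_combination (-4 * M * x ^ 2) * hdbl + (16 * M * x ^ 2 * x₂) * heq
  refine sm_of_mul_unit v key (by rw [map_mul, map_pow, map_pow, hX, ha, one_pow, one_mul])
    (sm_mul_in v hD ?_)
  refine in_mul_in v (in_mul_in v (in_mul_in v (in_ofNat v 16) H.vM.le) (in_add_in v hX.le H.vM.le)) ?_
  exact in_sub_in v (in_add_in v (in_pow v hX.le 3) (in_mul_in v (in_mul_in v (in_ofNat v 2) H.vM.le)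
    (in_pow v hX.le 2))) (in_mul_in v H.vD (in_pow v H.vM.le 2))

lemma bad_step (j : ℕ) (hj : j + 3 < p) (h : v (E.X ((j + 2) • T)) = 1) :
    v (E.X ((j + 3) • T)) = 1 ∧
      v (cc E T (j + 3) + cc E T (j + 1) - cc E T (j + 2) * cc E T 1) < 1 := by
  have hW := bad_not_InW E H hD hT0 hT hX
  have hnd : ∀ k, 0 < k → k < p → ¬ p ∣ k := fun k h0 h1 h2 => absurd (Nat.le_of_dvd h0 h2) (by omega)
  have hW1 := not_InW_nsmul E H hT hW (hnd (j + 1) (by omega) (by omega))
  have hW2 := not_InW_nsmul E H hT hW (hnd (j + 2) (by omega) (by omega))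
  have hW3 := not_InW_nsmul E H hT hW (hnd (j + 3) (by omega) (by omega))
  have hP0 := ne_zero_of_not_InW E hW2
  have e1 : (j + 2) • T + T = (j + 3) • T := (succ_nsmul T (j + 2)).symm
  have e2 : (j + 2) • T - T = (j + 1) • T := by
    rw [show j + 2 = (j + 1) + 1 from rfl, succ_nsmul]; abel
  have hne : E.X ((j + 2) • T) ≠ E.X T := by
    refine E.X_ne_of_ne hP0 hT0 ?_ ?_
    · intro h
      apply ne_zero_of_not_InW E hW1
      rw [← e2, h, sub_self]
    · intro h
      apply ne_zero_of_not_InW E hW3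
      rw [← e1, h, neg_add_cancel]
  have F3 := E.X_add_mul_X_sub hP0 hT0 hne
  have F4 := E.X_add_add_X_sub hP0 hT0 hne
  rw [e1, e2] at F3 F4
  have hcc3 : cc E T (j + 3) = 4 * M / E.X ((j + 3) • T) + 2 := rfl
  have hcc2 : cc E T (j + 2) = 4 * M / E.X ((j + 2) • T) + 2 := rfl
  have hcc1' : cc E T (j + 1) = 4 * M / E.X ((j + 1) • T) + 2 := rfl
  have hcc1 : cc E T 1 = 4 * M / E.X T + 2 := by
    change 4 * M / E.X ((0 + 1) • T) + 2 = _
    rw [zero_add, one_nsmul]
  rw [hcc3, hcc2, hcc1', hcc1]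
  have hxp := le_one_of_not_InW E hW3
  have hxm := le_one_of_not_InW E hW1
  set x := E.X T with hxdef
  set x₁ := E.X ((j + 2) • T) with hx1def
  set xp := E.X ((j + 3) • T) with hxpdef
  set xm := E.X ((j + 1) • T) with hxmdef
  have hDM : v (D * M) < 1 := sm_mul_in v hD H.vM.le
  have ha : v (x₁ * x - D * M) = 1 := by
    rw [sub_eq_add_neg, add_comm]
    exact XYModel.val_eq_one_of_add_sm (by rw [map_mul, hX, h, one_mul])
      (by rwa [Valuation.map_neg])
  have hv := congrArg v F3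
  rw [map_mul, map_mul, map_pow v (x₁ * x - D * M), ha, one_pow] at hv
  have hd : v ((x₁ - x) ^ 2) ≤ 1 := in_pow v (in_sub_in v h.le hX.le) 2
  obtain ⟨h5, -⟩ := eq_one_and_eq_one_of_mul (mul_le_one' hxp hxm) hd hv
  obtain ⟨hxp1, hxm1⟩ := eq_one_and_eq_one_of_mul hxp hxm h5
  refine ⟨hxp1, ?_⟩
  have hne0 : ∀ z : K, v z = 1 → z ≠ 0 := by
    intro z hz h0; rw [h0, map_zero] at hz; exact zero_ne_one hz
  have hx0 := hne0 x hX
  have hx10 := hne0 x₁ h
  have hxp0 := hne0 xp hxp1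
  have hxm0 := hne0 xm hxm1
  have key : (4 * M / xp + 2 + (4 * M / xm + 2) - (4 * M / x₁ + 2) * (4 * M / x + 2)) *
      ((x₁ * x) * (x₁ * x - D * M) ^ 2) =
      D * (8 * M ^ 2 * (x₁ * x) * (x₁ + x) + 16 * M * (x₁ * x) ^ 2 +
        (16 * M ^ 2 + 8 * M * (x₁ + x)) * (2 * (x₁ * x) * M - D * M ^ 2)) := by
    field_simp
    linear_combination (-4 * M * (x₁ * x) * (xp + xm)) * F3 + (4 * M * (x₁ * x) * (xp * xm)) * F4
  have hpi : v (x₁ * x) ≤ 1 := in_mul_in v h.le hX.le
  have hsig : v (x₁ + x) ≤ 1 := in_add_in v h.le hX.le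
  refine sm_of_mul_unit v key (by rw [map_mul, map_mul, map_pow, hX, h, ha, one_pow, one_mul, one_mul])
    (sm_mul_in v hD ?_)
  refine in_add_in v (in_add_in v (in_mul_in v (in_mul_in v (in_mul_in v (in_ofNat v 8)
    (in_pow v H.vM.le 2)) hpi) hsig) (in_mul_in v (in_mul_in v (in_ofNat v 16) H.vM.le)
    (in_pow v hpi 2))) (in_mul_in v (in_add_in v (in_mul_in v (in_ofNat v 16) (in_pow v H.vM.le 2))
    (in_mul_in v (in_mul_in v (in_ofNat v 8) H.vM.le) hsig)) (in_sub_in v (in_mul_in v (in_mul_in v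
    (in_ofNat v 2) hpi) H.vM.le) (in_mul_in v H.vD (in_pow v H.vM.le 2))))

lemma bad_val_X (k : ℕ) (hk : k + 1 < p) : v (E.X ((k + 1) • T)) = 1 := by
  induction k with
  | zero => rw [zero_add, one_nsmul]; exact hX
  | succ k ih =>
    rcases k with _ | j
    · exact (bad_dup E H hD hT0 hT hX).1
    · exact (bad_step E H hD hT0 hT hX j (by omega) (ih (by omega))).1

lemma bad_rec (k : ℕ) (hk : k + 2 < p) :
    v (cc E T (k + 2) + cc E T k - cc E T (k + 1) * cc E T 1) < 1 := by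
  rcases k with _ | j
  · exact (bad_dup E H hD hT0 hT hX).2
  · exact (bad_step E H hD hT0 hT hX j (by omega) (bad_val_X E H hD hT0 hT hX (j + 1) (by omega))).2

lemma bad_cc_one : cc E T 1 - 2 = 4 * M / E.X T := by
  change 4 * M / E.X ((0 + 1) • T) + 2 - 2 = _
  rw [zero_add, one_nsmul]; ring

lemma bad_val_cc_one : v (cc E T 1) ≤ 1 := by
  have h1 := bad_cc_one E H hD hT0 hT hX
  have : cc E T 1 = 4 * M / E.X T + 2 := by rw [← h1]; ring
  rw [this]
  refine in_add_in v ?_ (in_ofNat v 2)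
  rw [map_div₀, map_mul, H.four, H.vM, hX]
  simp

open Polynomial in
lemma bad_dickson (k : ℕ) (hk : k + 1 < p) :
    v (cc E T k - (dickson 1 (1 : K) k).eval (cc E T 1)) < 1 ∧
      v (cc E T (k + 1) - (dickson 1 (1 : K) (k + 1)).eval (cc E T 1)) < 1 := by
  induction k with
  | zero =>
    constructor
    · have : cc E T 0 - (dickson 1 (1 : K) 0).eval (cc E T 1) = 0 := by
        rw [dickson_zero]
        change (2 : K) - _ = 0
        simp; norm_num
      rw [this, map_zero]; exact zero_lt_one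
    · rw [zero_add, dickson_one, eval_X, sub_self, map_zero]; exact zero_lt_one
  | succ k ih =>
    obtain ⟨h0, h1⟩ := ih (by omega)
    refine ⟨h1, ?_⟩
    have hr := bad_rec E H hD hT0 hT hX k (by omega)
    have : cc E T (k + 1 + 1) - (dickson 1 (1 : K) (k + 1 + 1)).eval (cc E T 1) =
        (cc E T (k + 2) + cc E T k - cc E T (k + 1) * cc E T 1)
        - (cc E T k - (dickson 1 (1 : K) k).eval (cc E T 1))
        + cc E T 1 * (cc E T (k + 1) - (dickson 1 (1 : K) (k + 1)).eval (cc E T 1)) := by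
      rw [show k + 1 + 1 = k + 2 from rfl, dickson_add_two, eval_sub, eval_mul, eval_mul, eval_X,
        eval_C]
      ring
    rw [this]
    exact sm_add_sm v (sm_sub_sm v hr h0) (in_mul_sm v (bad_val_cc_one E H hD hT0 hT hX) h1)

open Polynomial in
/-- (i): there is no `p`-torsion point with `|X| = 1` in the case of bad reduction. -/
lemma bad_false : False := by
  have hp3 : 3 ≤ p := by
    have h2 := H.prime.two_le
    have h3 : p ≠ 2 := fun h => H.not_dvd_two (by rw [h])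
    omega
  obtain ⟨m, rfl⟩ : ∃ m, p = m + 3 := ⟨p - 3, by omega⟩
  have hc1 := bad_val_cc_one E H hD hT0 hT hX
  obtain ⟨h1, h2⟩ := bad_dickson E H hD hT0 hT hX (m + 1) (by omega)
  have e1 : (m + 2) • T = -T := by
    rw [eq_neg_iff_add_eq_zero, ← succ_nsmul]; exact hT
  have e2 : (m + 1) • T = -(2 • T) := by
    rw [eq_neg_iff_add_eq_zero, ← add_nsmul]; exact hT
  have c1 : cc E T (m + 2) = cc E T 1 := by
    change 4 * M / E.X ((m + 2) • T) + 2 = 4 * M / E.X ((0 + 1) • T) + 2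
    rw [e1, E.X_neg, zero_add, one_nsmul]
  have c2 : cc E T (m + 1) = cc E T 2 := by
    change 4 * M / E.X ((m + 1) • T) + 2 = 4 * M / E.X (2 • T) + 2
    rw [e2, E.X_neg]
  have hdup := (bad_dup E H hD hT0 hT hX).2
  have hd : v ((dickson 1 (1 : K) (m + 3)).eval (cc E T 1) - 2) < 1 := by
    have : (dickson 1 (1 : K) (m + 3)).eval (cc E T 1) - 2 =
        (cc E T (m + 1) - (dickson 1 (1 : K) (m + 1)).eval (cc E T 1))
        - cc E T 1 * (cc E T (m + 1 + 1) - (dickson 1 (1 : K) (m + 1 + 1)).eval (cc E T 1))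
        - (cc E T 2 + cc E T 0 - cc E T 1 * cc E T 1) := by
      rw [show m + 3 = (m + 1) + 2 from rfl, dickson_add_two, eval_sub, eval_mul, eval_mul, eval_X,
        eval_C, show m + 1 + 1 = m + 2 from rfl, c1, c2]
      change _ = _ - _ - (cc E T 2 + 2 - _)
      ring
    rw [this]
    exact sm_sub_sm v (sm_sub_sm v h1 (in_mul_sm v hc1 h2)) hdup
  have hF := val_dickson v H.prime H.vp hc1
  have h3 : v ((cc E T 1 - 2) ^ (m + 3)) < 1 := by
    have : (cc E T 1 - 2) ^ (m + 3) = ((cc E T 1 - 2) ^ (m + 3) -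
        ((dickson 1 (1 : K) (m + 3)).eval (cc E T 1) - 2)) +
        ((dickson 1 (1 : K) (m + 3)).eval (cc E T 1) - 2) := by ring
    rw [this]
    exact sm_add_sm v hF hd
  rw [bad_cc_one E H hD hT0 hT hX, map_pow, map_div₀, map_mul, H.four, H.vM, hX] at h3
  simp at h3

end bad

theorem val_X_ne_one_of_bad (H : PHyp v D M p) (hD : v D < 1) {T : G} (hT0 : T ≠ 0)
    (hT : p • T = 0) : v (E.X T) ≠ 1 := fun hX => bad_false E H hD hT0 hT hX

lemma bad_lt (H : PHyp v D M p) (hD : v D < 1) {T : G} (hT : p • T = 0) (hW : ¬ InW E v T) :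
    v D < v (E.X T) ∧ v (E.X T) < 1 := by
  have hT0 := ne_zero_of_not_InW E hW
  have hx1 : v (E.X T) < 1 :=
    lt_of_le_of_ne (le_one_of_not_InW E hW) (val_X_ne_one_of_bad E H hD hT0 hT)
  refine ⟨?_, hx1⟩
  by_contra hle
  rw [not_lt] at hle
  have hW2 := not_InW_nsmul E H hT hW H.not_dvd_two
  have h2T := ne_zero_of_not_InW E hW2
  have hp2T : p • (2 • T) = 0 := by rw [smul_comm, hT, smul_zero]
  have hx2 : v (E.X (2 • T)) < 1 :=
    lt_of_le_of_ne (le_one_of_not_InW E hW2) (val_X_ne_one_of_bad E H hD h2T hp2T)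
  have hy0 : E.Y T ≠ 0 := fun h => h2T (E.two_nsmul_eq_zero_of_Y hT0 h)
  have heq := E.eqn T hT0
  have hdbl := E.X_two T hT0 hy0
  set x := E.X T with hxdef
  set y := E.Y T with hydef
  have hDpos : 0 < v D := (Valuation.pos_iff v).2 H.D0
  have hDM : v (D * M) = v D := by rw [map_mul, H.vM, mul_one]
  have h1 : v (x ^ 2) < v (D * M) := by
    rw [hDM, pow_two, map_mul]
    calc v x * v x ≤ v D * v x := mul_le_mul_left hle _
      _ < v D := mul_lt_of_lt_one_right hDpos hx1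
  have ha : v (x ^ 2 - D * M) = v D := by
    rw [Valuation.map_sub_eq_of_lt_right v h1, hDM]
  have hy2 : v (y ^ 2) ≤ v D ^ 2 := by
    rw [heq, map_mul, map_mul, pow_two]
    have h3 : v (x + D) ≤ v D := v.map_add_le hle le_rfl
    have h4 : v (x + M) ≤ 1 := in_add_in v hx1.le H.vM.le
    calc v x * v (x + D) * v (x + M) ≤ v x * v (x + D) * 1 := mul_le_mul_right h4 _
      _ = v x * v (x + D) := mul_one _
      _ ≤ v D * v D := mul_le_mul' hle h3
  have hypos : 0 < v (y ^ 2) := (Valuation.pos_iff v).2 (pow_ne_zero 2 hy0)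
  have hv := congrArg v hdbl
  rw [map_mul, map_mul, H.four, one_mul, map_pow v (x ^ 2 - D * M), ha] at hv
  have : v (E.X (2 • T)) * v (y ^ 2) < v D ^ 2 :=
    lt_of_lt_of_le (mul_lt_of_lt_one_left hypos hx2) hy2
  exact this.ne hv

lemma InW_map_sub_of_bad (H : PHyp v D M p) (hτ : AutHyp E v τ s) (hD : v D < 1) {T : G}
    (hT : p • T = 0) (hW : ¬ InW E v T) : InW E v (τ T - T) := by
  have hT0 := ne_zero_of_not_InW E hW
  obtain ⟨hDx, hx1⟩ := bad_lt E H hD hT hW
  have hτ0 := hτ.ne_zero T hT0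
  have hX' := hτ.X_map T hT0
  have hY' := hτ.Y_map T hT0
  have heq := E.eqn T hT0
  set x := E.X T with hxdef
  set y := E.Y T with hydef
  have hxpos : 0 < v x := lt_of_le_of_lt zero_le hDx
  have hx0 : x ≠ 0 := (Valuation.pos_iff v).1 hxpos
  have hsx0 : s x ≠ 0 := (map_ne_zero s).2 hx0
  set s₀ := y / x with hs₀
  have hDx' : v (D / x) < 1 := by
    rw [map_div₀]; exact (div_lt_one₀ hxpos).2 hDx
  have hs1 : s₀ ^ 2 - M = x + (D / x) * (x + M) := by
    rw [hs₀, div_pow, heq]; field_simp; ring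
  have hs2 : v (s₀ ^ 2 - M) < 1 := by
    rw [hs1]
    exact sm_add_sm v hx1 (sm_mul_in v hDx' (in_add_in v hx1.le H.vM.le))
  have hs3 : v s₀ = 1 := by
    have : v (s₀ ^ 2) = 1 := by
      have h : s₀ ^ 2 = (s₀ ^ 2 - M) + M := by ring
      rw [h]
      exact XYModel.val_eq_one_of_add_sm H.vM hs2
    rw [map_pow] at this
    exact (pow_eq_one_iff).1 this |>.resolve_right two_ne_zero
  have hs4 : v (s s₀ - s₀) < 1 := hτ.close _ hs3.le
  have hss : s s₀ = s y / s x := by rw [hs₀, map_div₀]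
  by_cases hne : E.X (τ T) = x
  · rcases E.eq_or_eq_neg hτ0 hT0 hne with h | h
    · left; rw [h, sub_self]
    · exfalso
      rw [h, E.Y_neg] at hY'
      rw [hX'] at hne
      have : s s₀ - s₀ = -(2 * s₀) := by
        rw [hss, ← hY', hne, hs₀]; ring
      rw [this, Valuation.map_neg, map_mul, H.two, hs3, one_mul] at hs4
      exact lt_irrefl _ hs4
  · have hsub := E.X_sub (τ T) T hτ0 hT0 hne
    rw [hX', hY'] at hsub
    set ρ := s x / x with hρ
    have hρ1 : v ρ = 1 := by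
      rw [hρ, map_div₀, hτ.val, div_self hxpos.ne']
    have e1 : s x = ρ * x := by rw [hρ]; field_simp
    have e2 : y = s₀ * x := by rw [hs₀]; field_simp
    have e3 : s y = s s₀ * (ρ * x) := by rw [hss, ← e1]; field_simp
    have key : E.X (τ T - T) * (ρ - 1) ^ 2 = ((s s₀ - s₀) * ρ * (s s₀ * ρ + s₀ * ρ + 2 * s₀)
        + (s₀ ^ 2 - M) * (ρ + 1) ^ 2 - (D + ρ * x + x) * (ρ - 1) ^ 2) + 4 * M * ρ := by
      apply mul_right_cancel₀ (pow_ne_zero 2 hx0)
      rw [e3, e1, ← hxdef, ← hydef] at hsub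
      linear_combination hsub + (2 * (s s₀ * (ρ * x)) + y + s₀ * x) * e2
    have hss1 : v (s s₀) ≤ 1 := by rw [hτ.val]; exact hs3.le
    have hρm : v (ρ - 1) ≤ 1 := in_sub_in v hρ1.le (by simp)
    have hsmall : v ((s s₀ - s₀) * ρ * (s s₀ * ρ + s₀ * ρ + 2 * s₀)
        + (s₀ ^ 2 - M) * (ρ + 1) ^ 2 - (D + ρ * x + x) * (ρ - 1) ^ 2) < 1 := by
      refine sm_sub_sm v (sm_add_sm v (sm_mul_in v (sm_mul_in v hs4 hρ1.le) ?_)
        (sm_mul_in v hs2 (in_pow v (in_add_in v hρ1.le (by simp)) 2)))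
        (sm_mul_in v (sm_add_sm v (sm_add_sm v hD (in_mul_sm v hρ1.le hx1)) hx1) (in_pow v hρm 2))
      exact in_add_in v (in_add_in v (in_mul_in v hss1 hρ1.le) (in_mul_in v hs3.le hρ1.le))
        (in_mul_in v (in_ofNat v 2) hs3.le)
    have hone : v (E.X (τ T - T) * (ρ - 1) ^ 2) = 1 := by
      rw [key]
      exact XYModel.val_eq_one_of_add_sm (by rw [map_mul, map_mul, H.four, H.vM, hρ1]; simp) hsmall
    have hU0 : τ T - T ≠ 0 := by
      intro h
      apply hne
      rw [sub_eq_zero.1 h]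
    have hpU : p • (τ T - T) = 0 := by
      rw [smul_sub, ← map_nsmul, hT, map_zero, sub_zero]
    right
    by_contra hle
    rw [not_lt] at hle
    rw [map_mul] at hone
    exact val_X_ne_one_of_bad E H hD hU0 hpU (eq_one_and_eq_one_of_mul hle (in_pow v hρm 2) hone).1

/-- (C4b) -/
theorem InW_map_sub (H : PHyp v D M p) (hτ : AutHyp E v τ s) {T : G} (hT : p • T = 0) :
    InW E v (τ T - T) := by
  by_cases hW : InW E v T
  · have hW' : InW E v (τ T) := by
      by_cases hT0 : T = 0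
      · left; rw [hT0, map_zero]
      · right
        rw [hτ.X_map T hT0, hτ.val]
        exact hW.resolve_left hT0
    exact InW_sub E v H.vD H.vM.le H.two_ne_zero hW' hW
  · by_cases hD : v D < 1
    · exact InW_map_sub_of_bad E H hτ hD hT hW
    · have hD1 : v D = 1 := le_antisymm H.vD (not_lt.1 hD)
      have hW2 := not_InW_nsmul E H hT hW H.not_dvd_two
      exact InW_map_sub_of_Y E H hτ (ne_zero_of_not_InW E hW) (le_one_of_not_InW E hW)
        (val_Y_eq_one_of E H (ne_zero_of_not_InW E hW) (ne_zero_of_not_InW E hW2)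
          (le_one_of_not_InW E hW) (le_one_of_not_InW E hW2) (Or.inr hD1))

end Fermat.Agent.S13Aux
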