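import Mathlib
import Fermat.Agent.S05.Weierstrass

/-!
# S13: surjectivity of the `X`-coordinate of the concrete `xyModel` over an algebraically closed field
-/

set_option autoImplicit false
set_option linter.unusedSectionVars false

namespace Fermat.Agent.S13Aux

open Fermat.Agent.S05Aux WeierstrassCurve WeierstrassCurve.Affine

variable {K : Type*} [Field K] [DecidableEq K] [IsAlgClosed K]

theorem ptX_surj (W : Affine K) (r D M : K)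
    (ha₁ : W.a₁ = 1) (ha₃ : W.a₃ = 0)
    (ha₂ : 4 * W.a₂ + 1 = D + M - 3 * r)
    (ha₄ : 16 * W.a₄ = 3 * r ^ 2 - 2 * r * (D + M) + D * M)
    (ha₆ : 64 * W.a₆ = - r ^ 3 + (D + M) * r ^ 2 - D * M * r)
    (h2 : (2 : K) ≠ 0) (hΔ : W.Δ ≠ 0) (x0 : K) :
    ∃ P : W.Point, P ≠ 0 ∧ ptX W r P = x0 := by
  obtain ⟨Y0, hY0⟩ := IsAlgClosed.exists_pow_nat_eq (x0 * (x0 + D) * (x0 + M)) (n := 2) (by norm_num)
  have h4 : (4 : K) ≠ 0 := by
    have : (4 : K) = 2 * 2 := by norm_num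
    rw [this]; exact mul_ne_zero h2 h2
  have h8 : (8 : K) ≠ 0 := by
    have : (8 : K) = 2 * 4 := by norm_num
    rw [this]; exact mul_ne_zero h2 h4
  have h64 : (64 : K) ≠ 0 := by
    have : (64 : K) = 8 * 8 := by norm_num
    rw [this]; exact mul_ne_zero h8 h8
  obtain ⟨x, hx⟩ : ∃ x : K, 4 * x - r = x0 := ⟨(x0 + r) / 4, by field_simp; ring⟩
  obtain ⟨y, hy⟩ : ∃ y : K, 8 * y + 4 * x = Y0 := ⟨(Y0 - 4 * x) / 8, by field_simp; ring⟩
  have hE : W.Equation x y := by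
    rw [Affine.equation_iff, ha₁, ha₃]
    apply mul_left_cancel₀ h64
    rw [← hx, ← hy] at hY0
    linear_combination hY0 - 16 * x ^ 2 * ha₂ - 4 * x * ha₄ - ha₆
  refine ⟨Point.some x y ((Affine.equation_iff_nonsingular_of_Δ_ne_zero hΔ).1 hE), ?_, ?_⟩
  · exact Point.some_ne_zero _
  · rw [ptX_some, hx]

theorem xyModel_X_surj (W : Affine K) (r D M : K)
    (ha₁ : W.a₁ = 1) (ha₃ : W.a₃ = 0)
    (ha₂ : 4 * W.a₂ + 1 = D + M - 3 * r)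
    (ha₄ : 16 * W.a₄ = 3 * r ^ 2 - 2 * r * (D + M) + D * M)
    (ha₆ : 64 * W.a₆ = - r ^ 3 + (D + M) * r ^ 2 - D * M * r)
    (h2 : (2 : K) ≠ 0) (hΔ : W.Δ ≠ 0) (x0 : K) :
    ∃ P : W.Point, P ≠ 0 ∧ (xyModel W r D M ha₁ ha₃ ha₂ ha₄ ha₆ h2).X P = x0 :=
  ptX_surj W r D M ha₁ ha₃ ha₂ ha₄ ha₆ h2 hΔ x0

end Fermat.Agent.S13Aux
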