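import Fermat.Agent.S05.Assembly
import Fermat.Agent.S13.ValInv
import Fermat.Agent.S13.AtP
import Fermat.Agent.S13.DivPoly
import Fermat.Agent.S13.Surj

/-!
# S13: the concrete `(X, Y)`-model at the prime `p`
-/

set_option autoImplicit false
set_option linter.unusedSectionVars false

namespace Fermat.Agent.S13Aux

open Fermat.Agent.S05Aux
open WeierstrassCurve WeierstrassCurve.Affine WeierstrassCurve.Affine.Point

/-- `W₀ : y² + xy = x³ + a₂x² + a₄x + a₆` becomes `Y² = X (X + D) (X + M)` with `X = 4x - r`,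
`Y = 8y + 4x`, and `M`, `D - M` are prime to `p`. -/
structure Shape (W₀ : Affine ℚ) (p : ℕ) (r D M : ℤ) : Prop where
  a₁ : W₀.a₁ = 1
  a₃ : W₀.a₃ = 0
  a₂ : 4 * W₀.a₂ + 1 = (D : ℚ) + M - 3 * r
  a₄ : 16 * W₀.a₄ = 3 * (r : ℚ) ^ 2 - 2 * r * (D + M) + D * M
  a₆ : 64 * W₀.a₆ = - (r : ℚ) ^ 3 + (D + M) * r ^ 2 - D * M * r
  hM : ¬ (p : ℤ) ∣ M
  hDM : ¬ (p : ℤ) ∣ D - M
  hD0 : D ≠ 0

theorem exists_shape (P : FreyPackage) : ∃ r D M : ℤ, Shape P.freyCurve P.p r D M := by
  have hqZ : Prime (P.p : ℤ) := Nat.prime_iff_prime_int.1 P.pp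
  have hpow : ∀ n : ℤ, (P.p : ℤ) ∣ n ^ P.p → (P.p : ℤ) ∣ n := fun n h => hqZ.dvd_of_dvd_pow h
  have hnot : ∀ m n : ℤ, gcd m n = 1 → (P.p : ℤ) ∣ m → ¬ (P.p : ℤ) ∣ n := by
    intro m n hmn hm hn
    have := dvd_gcd hm hn
    rw [hmn] at this
    exact hqZ.not_isUnit (isUnit_of_dvd_one this)
  have hFLT := P.hFLT
  have hFLTQ : (P.a : ℚ) ^ P.p + (P.b : ℚ) ^ P.p = (P.c : ℚ) ^ P.p := by exact_mod_cast hFLT
  by_cases ha : (P.p : ℤ) ∣ P.a
  · have hb : ¬ (P.p : ℤ) ∣ P.b := hnot _ _ P.hgcdab ha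
    have hc : ¬ (P.p : ℤ) ∣ P.c := hnot _ _ P.hgcdac ha
    refine ⟨0, -(P.a ^ P.p), P.b ^ P.p, rfl, rfl, ?_, ?_, ?_, fun h => hb (hpow _ h), ?_,
      neg_ne_zero.2 (pow_ne_zero _ P.ha0)⟩
    · simp only [FreyPackage.freyCurve]; push_cast; ring
    · simp only [FreyPackage.freyCurve]; push_cast; ring
    · simp only [FreyPackage.freyCurve]; push_cast; ring
    · intro h
      apply hc
      apply hpow
      rw [← hFLT]
      have : P.a ^ P.p + P.b ^ P.p = -(-(P.a ^ P.p) - P.b ^ P.p) := by ring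
      rw [this, dvd_neg]
      exact h
  by_cases hc : (P.p : ℤ) ∣ P.c
  · have hb : ¬ (P.p : ℤ) ∣ P.b := by
      intro hb
      exact hnot _ _ P.hgcdbc hb hc
    refine ⟨P.a ^ P.p, P.c ^ P.p, P.a ^ P.p, rfl, rfl, ?_, ?_, ?_, fun h => ha (hpow _ h), ?_,
      pow_ne_zero _ P.hc0⟩
    · simp only [FreyPackage.freyCurve]; push_cast; rw [← hFLTQ]; ring
    · simp only [FreyPackage.freyCurve]; push_cast; rw [← hFLTQ]; ring
    · simp only [FreyPackage.freyCurve]; push_cast; ring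
    · intro h
      apply hb
      apply hpow
      have : P.b ^ P.p = P.c ^ P.p - P.a ^ P.p := by rw [← hFLT]; ring
      rw [this]
      exact h
  · refine ⟨0, P.b ^ P.p, -(P.a ^ P.p), rfl, rfl, ?_, ?_, ?_, ?_, ?_, pow_ne_zero _ P.hb0⟩
    · simp only [FreyPackage.freyCurve]; push_cast; ring
    · simp only [FreyPackage.freyCurve]; push_cast; ring
    · simp only [FreyPackage.freyCurve]; push_cast; ring
    · rw [dvd_neg]
      exact fun h => ha (hpow _ h)
    · intro h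
      apply hc
      apply hpow
      rw [← hFLT]
      have : P.a ^ P.p + P.b ^ P.p = P.b ^ P.p - -(P.a ^ P.p) := by ring
      rw [this]
      exact h

namespace Shape

variable {W₀ : Affine ℚ} {p : ℕ} {r D M : ℤ} (h : Shape W₀ p r D M)
include h

theorem M_ne_zero : M ≠ 0 := by
  rintro rfl
  exact h.hM (dvd_zero _)

theorem DM_ne_zero : D - M ≠ 0 := by
  intro h0
  exact h.hDM (h0 ▸ dvd_zero _)

theorem Δ_ne_zero : W₀.Δ ≠ 0 := by
  have h2 : W₀.a₂ = ((D : ℚ) + M - 3 * r - 1) / 4 := by linear_combination h.a₂ / 4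
  have h4 : W₀.a₄ = (3 * (r : ℚ) ^ 2 - 2 * r * (D + M) + D * M) / 16 := by
    linear_combination h.a₄ / 16
  have h6 : W₀.a₆ = (- (r : ℚ) ^ 3 + (D + M) * r ^ 2 - D * M * r) / 64 := by
    linear_combination h.a₆ / 64
  have : W₀.Δ = ((D : ℚ) * M * (D - M)) ^ 2 / 256 := by
    simp only [WeierstrassCurve.Δ, WeierstrassCurve.b₂, WeierstrassCurve.b₄, WeierstrassCurve.b₆,
      WeierstrassCurve.b₈, h.a₁, h.a₃, h2, h4, h6]
    ring
  rw [this]
  have hD : (D : ℚ) ≠ 0 := Int.cast_ne_zero.2 h.hD0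
  have hM : (M : ℚ) ≠ 0 := Int.cast_ne_zero.2 h.M_ne_zero
  have hDM : (D : ℚ) - M ≠ 0 := by exact_mod_cast h.DM_ne_zero
  positivity

variable (L : Type*) [Field L] [Algebra ℚ L] [DecidableEq L]

omit h in
theorem two_ne_zero' : (2 : L) ≠ 0 := by
  have : CharZero L := algebraRat.charZero L
  exact two_ne_zero

/-- The model over `L`. -/
noncomputable def model : XYModel L (W₀⁄L).Point (D : L) (M : L) :=
  xyModel (W₀⁄L) (r : L) (D : L) (M : L)
    (by change algebraMap ℚ L W₀.a₁ = 1; rw [h.a₁, map_one])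
    (by change algebraMap ℚ L W₀.a₃ = 0; rw [h.a₃, _root_.map_zero])
    (by
      change 4 * algebraMap ℚ L W₀.a₂ + 1 = _
      have := congrArg (algebraMap ℚ L) h.a₂
      simp only [map_add, map_mul, map_one, map_sub, map_ofNat, map_intCast] at this
      exact this)
    (by
      change 16 * algebraMap ℚ L W₀.a₄ = _
      have := congrArg (algebraMap ℚ L) h.a₄
      simp only [map_add, map_mul, map_pow, map_sub, map_ofNat, map_intCast] at this
      exact this)
    (by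
      change 64 * algebraMap ℚ L W₀.a₆ = _
      have := congrArg (algebraMap ℚ L) h.a₆
      simp only [map_add, map_mul, map_pow, map_sub, map_neg, map_ofNat, map_intCast] at this
      exact this)
    (two_ne_zero' L)

variable {L}

theorem model_X_some (x y : L) (hxy : (W₀⁄L).Nonsingular x y) :
    (h.model L).X (Point.some x y hxy) = 4 * x - (r : L) := rfl

theorem model_Y_some (x y : L) (hxy : (W₀⁄L).Nonsingular x y) :
    (h.model L).Y (Point.some x y hxy) = 8 * y + 4 * x := rfl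

theorem model_X_smul (σ : L ≃ₐ[ℚ] L) (T : (W₀⁄L).Point) :
    (h.model L).X (σ • T) = σ ((h.model L).X T) := by
  rcases T with _ | ⟨x, y, hxy⟩
  · exact (map_zero σ).symm
  · change 4 * σ x - (r : L) = σ (4 * x - (r : L))
    rw [map_sub, map_mul, map_ofNat, map_intCast]

theorem model_Y_smul (σ : L ≃ₐ[ℚ] L) (T : (W₀⁄L).Point) :
    (h.model L).Y (σ • T) = σ ((h.model L).Y T) := by
  rcases T with _ | ⟨x, y, hxy⟩
  · exact (map_zero σ).symm
  · change 8 * σ y + 4 * σ x = σ (8 * y + 4 * x)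
    rw [map_add, map_mul, map_mul, map_ofNat, map_ofNat]

omit h in
theorem smul_ne_zero (σ : L ≃ₐ[ℚ] L) {T : (W₀⁄L).Point} (hT : T ≠ 0) : σ • T ≠ 0 := by
  rcases T with _ | ⟨x, y, hxy⟩
  · exact absurd rfl hT
  · exact Point.some_ne_zero ((W₀.baseChange_nonsingular σ.toAlgHom.injective ..).mpr hxy)

theorem pHyp (hp : p.Prime) (hp2 : p ≠ 2) (A : ValuationSubring L) (hA : A.LiesOverPrime p) :
    PHyp A.valuation (D : L) (M : L) p where
  two := by
    have := valuation_intCast_eq_one A hp hA (n := 2) (by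
      intro h
      have h' : p ∣ 2 := by exact_mod_cast h
      exact hp2 ((Nat.prime_dvd_prime_iff_eq hp Nat.prime_two).1 h'))
    simpa using this
  vM := valuation_intCast_eq_one A hp hA h.hM
  vD := valuation_intCast_le_one A D
  vDM := by
    have := valuation_intCast_eq_one A hp hA h.hDM
    simpa using this
  vp := (ValuationSubring.mem_nonunits_iff A).1 hA
  prime := hp
  odd := hp.odd_of_ne_two hp2
  D0 := by
    have : CharZero L := algebraRat.charZero L
    exact Int.cast_ne_zero.2 h.hD0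

theorem autHyp [Algebra.IsAlgebraic ℚ L] (A : ValuationSubring L) (σ : L ≃ₐ[ℚ] L)
    (hσ : σ ∈ A.inertiaSubgroupIn ℚ) :
    AutHyp (h.model L) A.valuation (DistribSMul.toAddMonoidHom (W₀⁄L).Point σ)
      (σ : L →+* L) where
  X_map T _ := h.model_X_smul σ T
  Y_map T _ := h.model_Y_smul σ T
  ne_zero _ hT := smul_ne_zero σ hT
  val x := valuation_map_eq A σ (mem_decomposition_of_mem_inertia A σ hσ) x
  close _ hx := valuation_sub_lt_one_of_mem_inertia A σ hσ hx

/-- (C4b), concrete form. -/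
theorem InW_smul_sub [Algebra.IsAlgebraic ℚ L] (hp : p.Prime) (hp2 : p ≠ 2) (A : ValuationSubring L)
    (hA : A.LiesOverPrime p) (σ : L ≃ₐ[ℚ] L) (hσ : σ ∈ A.inertiaSubgroupIn ℚ)
    {T : (W₀⁄L).Point} (hT : p • T = 0) : InW (h.model L) A.valuation (σ • T - T) :=
  InW_map_sub (h.model L) (h.pHyp hp hp2 A hA) (h.autHyp A σ hσ) hT

theorem card_torsion_le' (hp : p.Prime) (hp2 : p ≠ 2) :
    Finite {T : (W₀⁄L).Point // p • T = 0} ∧ Nat.card {T : (W₀⁄L).Point // p • T = 0} ≤ p ^ 2 := by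
  have : CharZero L := algebraRat.charZero L
  exact card_torsion_le (h.model L) (two_ne_zero' L) hp (hp.odd_of_ne_two hp2)
    (Nat.cast_ne_zero.2 hp.ne_zero)

theorem exists_torsion' [IsAlgClosed L] (hp : p.Prime) (hp2 : p ≠ 2) (A : ValuationSubring L)
    (hA : A.LiesOverPrime p) : ∃ T : (W₀⁄L).Point, T ≠ 0 ∧ p • T = 0 := by
  have : CharZero L := algebraRat.charZero L
  have H := h.pHyp hp hp2 A hA
  obtain ⟨T, h1, h2, -⟩ := exists_torsion (h.model L) A.valuation (two_ne_zero' L) hp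
    (hp.odd_of_ne_two hp2) (Nat.cast_ne_zero.2 hp.ne_zero) H.vp H.vM H.vDM H.vD (by
      intro x
      refine xyModel_X_surj (W₀⁄L) (r : L) (D : L) (M : L) _ _ _ _ _ (two_ne_zero' L) ?_ x
      change (W₀.map (algebraMap ℚ L)).Δ ≠ 0
      rw [WeierstrassCurve.map_Δ]
      exact (map_ne_zero _).2 h.Δ_ne_zero)
  exact ⟨T, h1, h2⟩

end Shape

end Fermat.Agent.S13Aux
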